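import Fermat.Agent.TriVal.Descent

/-!
# Base change of the function field of `X₀(N)`

`bc L K N : modularFunctionFieldFullC L N →+* modularFunctionFieldFullC K N`, coefficientwise.
-/

set_option autoImplicit false

noncomputable section

open ModularCurve HahnSeries Module

namespace Fermat.Agent.TriVal

section BC

variable (L K : Type*) [Field L] [Field K] [Algebra L K] (N : ℕ)

theorem coeffMap_algebraMap' (c : L) :
    coeffMap (algebraMap L K) (algebraMap L (LaurentSeries L) c) =
      algebraMap K (LaurentSeries K) (algebraMap L K c) := by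
  rw [algebraMap_laurentSeries_eq_single, algebraMap_laurentSeries_eq_single, coeffMap_single]

theorem image_divisorExpansionsC :
    coeffMap (algebraMap L K) '' divisorExpansionsC L N = divisorExpansionsC K N := by
  ext x
  constructor
  · rintro ⟨_, ⟨d, hne, hd, rfl⟩, rfl⟩
    exact ⟨d, hne, hd, by rw [coeffMap_qExpand, coeffMap_jqModC]⟩
  · rintro ⟨d, hne, hd, rfl⟩
    exact ⟨_, ⟨d, hne, hd, rfl⟩, by rw [coeffMap_qExpand, coeffMap_jqModC]⟩

variable {L N} in
theorem coeffMap_mem_fullC {x : LaurentSeries L} (hx : x ∈ modularFunctionFieldFullC L N) :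
    coeffMap (algebraMap L K) x ∈ modularFunctionFieldFullC K N := by
  rw [modularFunctionFieldFullC] at hx ⊢
  induction hx using IntermediateField.adjoin_induction with
  | mem x hx =>
    apply IntermediateField.subset_adjoin
    rw [← image_divisorExpansionsC L K N]
    exact ⟨x, hx, rfl⟩
  | algebraMap c =>
    rw [coeffMap_algebraMap']
    exact IntermediateField.algebraMap_mem _ _
  | add x y _ _ hx hy => rw [map_add]; exact add_mem hx hy
  | mul x y _ _ hx hy => rw [map_mul]; exact mul_mem hx hy
  | inv x _ hx => rw [map_inv₀]; exact inv_mem hx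

/-- coefficientwise base change of the function field of `X₀(N)` -/
def bc : modularFunctionFieldFullC L N →+* modularFunctionFieldFullC K N :=
  ((coeffMap (algebraMap L K)).comp
    (algebraMap (modularFunctionFieldFullC L N) (LaurentSeries L))).codRestrict
    (modularFunctionFieldFullC K N).toSubfield (fun x => coeffMap_mem_fullC K x.2)

@[simp] theorem coe_bc (x : modularFunctionFieldFullC L N) :
    (bc L K N x : LaurentSeries K) = coeffMap (algebraMap L K) (x : LaurentSeries L) := rfl

theorem coeff_bc (x : modularFunctionFieldFullC L N) (n : ℤ) :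
    (bc L K N x : LaurentSeries K).coeff n = algebraMap L K ((x : LaurentSeries L).coeff n) := rfl

theorem bc_injective : Function.Injective (bc L K N) := (bc L K N).injective

theorem bc_algebraMap (c : L) : bc L K N (algebraMap L _ c) = algebraMap K _ (algebraMap L K c) := by
  apply Subtype.ext
  rw [coe_bc]
  exact coeffMap_algebraMap' L K c

theorem bc_smul (c : L) (x : modularFunctionFieldFullC L N) :
    bc L K N (c • x) = (algebraMap L K c) • bc L K N x := by
  rw [Algebra.smul_def, Algebra.smul_def, map_mul, bc_algebraMap]

/-- the element `j_d` -/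
def jd (d : ℕ) [NeZero d] (hd : d ∣ N) : modularFunctionFieldFullC L N :=
  ⟨qExpand L d (jqModC L), jqModCd_mem_full L N hd⟩

@[simp] theorem coe_jd (d : ℕ) [NeZero d] (hd : d ∣ N) :
    (jd L N d hd : LaurentSeries L) = qExpand L d (jqModC L) := rfl

@[simp] theorem bc_jd (d : ℕ) [NeZero d] (hd : d ∣ N) : bc L K N (jd L N d hd) = jd K N d hd := by
  apply Subtype.ext
  rw [coe_bc, coe_jd, coe_jd, coeffMap_qExpand, coeffMap_jqModC]

variable {L K N}

/-- **Descent**: an element of the function field over `K` comes from `L` iff its coefficients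
lie in `L`. -/
theorem mem_range_bc_iff {x : modularFunctionFieldFullC K N} :
    x ∈ Set.range (bc L K N) ↔
      ∀ n, (x : LaurentSeries K).coeff n ∈ Set.range (algebraMap L K) := by
  constructor
  · rintro ⟨y, rfl⟩ n
    exact ⟨_, rfl⟩
  · intro h
    choose y hy using h
    let Y : LaurentSeries L := ⟨y, (x : LaurentSeries K).isPWO_support'.mono fun n hn => by
      simp only [Function.mem_support, ne_eq] at hn ⊢
      intro h0
      apply hn
      have := hy n
      rw [h0] at this
      exact (map_eq_zero _).mp this⟩
    have hY : coeffMap (algebraMap L K) Y = (x : LaurentSeries K) := by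
      ext n
      exact hy n
    have hmem : Y ∈ modularFunctionFieldFullC L N := by
      apply exists_preimage_adjoin (K := K)
      rw [hY, image_divisorExpansionsC]
      exact x.2
    exact ⟨⟨Y, hmem⟩, Subtype.ext hY⟩

/-- An element of the function field over `K` which is fixed by a set of automorphisms of `K` with
fixed field `L` (acting on the coefficients) comes from `L`. -/
theorem exists_bc_eq_of_fixed (Γ : Set (K → K))
    (hΓ : ∀ x : K, (∀ σ ∈ Γ, σ x = x) → x ∈ Set.range (algebraMap L K))
    {x : modularFunctionFieldFullC K N}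
    (hx : ∀ σ ∈ Γ, ∀ n, σ ((x : LaurentSeries K).coeff n) = (x : LaurentSeries K).coeff n) :
    ∃ y, bc L K N y = x :=
  mem_range_bc_iff.mpr fun n => hΓ _ fun σ hσ => hx σ hσ n

/-- **Descent of finite dimensional spaces**: a finite dimensional `K`-subspace `V` of the function
field over `K` which is stable under automorphisms of `K` (acting on coefficients) with fixed field
`L` has a `K`-basis coming from the function field over `L`; moreover this basis can be chosen in
reduced echelon form. -/
theorem exists_bc_basis (Γ : Set (K →+* K))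
    (hΓ : ∀ x : K, (∀ σ ∈ Γ, σ x = x) → x ∈ Set.range (algebraMap L K))
    (V : Submodule K (modularFunctionFieldFullC K N)) [FiniteDimensional K V]
    (hV : ∀ σ ∈ Γ, ∀ v ∈ V, ∃ w ∈ V, (w : LaurentSeries K) = coeffMap σ (v : LaurentSeries K)) :
    ∃ b : Basis (Fin (finrank K V)) K V,
      ∀ i, ∃ y : modularFunctionFieldFullC L N, bc L K N y = (b i : modularFunctionFieldFullC K N) := by
  classical
  let co : ℤ → V →ₗ[K] K := fun n =>
    { toFun := fun v => ((v : modularFunctionFieldFullC K N) : LaurentSeries K).coeff n
      map_add' := fun v w => by simp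
      map_smul' := fun a v => by
        simp only [Submodule.coe_smul, IntermediateField.coe_smul, RingHom.id_apply, smul_eq_mul]
        rw [Algebra.smul_def, Fermat.Agent.GaussVal.coeff_algebraMap_mul] }
  obtain ⟨b, p, hb, hb2⟩ := exists_fixed_pivotFamily (L := L) (A := (⊤ : ValuationSubring K)) co
    (by
      intro v hv
      have : ∃ n, co n v ≠ 0 := by
        by_contra h
        push Not at h
        apply hv
        apply Subtype.ext
        apply Subtype.ext
        ext n
        exact h n
      obtain ⟨n, hn⟩ := this
      refine ⟨n, hn, fun m => ?_⟩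
      have h1 : ∀ x : K, x ≠ 0 → (⊤ : ValuationSubring K).valuation x = 1 := by
        intro x hx
        apply le_antisymm
        · rw [ValuationSubring.valuation_le_one_iff]; trivial
        · have : (⊤ : ValuationSubring K).valuation x⁻¹ ≤ 1 := by
            rw [ValuationSubring.valuation_le_one_iff]; trivial
          rw [map_inv₀] at this
          exact (inv_le_one₀ (zero_lt_iff.mpr ((Valuation.ne_zero_iff _).mpr hx))).mp this
      rw [h1 _ hn, ValuationSubring.valuation_le_one_iff]
      trivial)
    {σ | ∃ τ ∈ Γ, σ = τ}
    (by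
      intro x hx
      exact hΓ x fun σ hσ => hx σ ⟨σ, hσ, rfl⟩)
    (by rintro _ ⟨τ, _, rfl⟩; exact map_zero τ)
    (by rintro _ ⟨τ, _, rfl⟩; exact map_one τ)
    (by
      rintro _ ⟨τ, hτ, rfl⟩ v
      obtain ⟨w, hw, hw'⟩ := hV τ hτ v v.2
      refine ⟨⟨w, hw⟩, fun n => ?_⟩
      change (w : LaurentSeries K).coeff n = _
      rw [hw']
      rfl)
  have hcard : Fintype.card (Fin (finrank K V)) = finrank K V := Fintype.card_fin _
  refine ⟨basisOfLinearIndependentOfCardEqFinrank' b hb.linearIndependent hcard, fun i => ?_⟩
  have h := mem_range_bc_iff (L := L) (K := K) (N := N)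
    (x := (b i : modularFunctionFieldFullC K N)) |>.mpr fun n => hb2 n i
  obtain ⟨y, hy⟩ := h
  exact ⟨y, by simpa using hy⟩

variable (L) in
/-- the elements of `V` defined over `L`. -/
def ratSub (V : Submodule K (modularFunctionFieldFullC K N)) :
    Submodule L (modularFunctionFieldFullC L N) where
  carrier := {y | bc L K N y ∈ V}
  add_mem' {x y} hx hy := by
    change bc L K N (x + y) ∈ V
    rw [map_add]
    exact V.add_mem hx hy
  zero_mem' := by
    change bc L K N 0 ∈ V
    rw [map_zero]
    exact V.zero_mem
  smul_mem' c x hx := by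
    change bc L K N (c • x) ∈ V
    rw [bc_smul]
    exact V.smul_mem _ hx

@[simp] theorem mem_ratSub {V : Submodule K (modularFunctionFieldFullC K N)}
    {y : modularFunctionFieldFullC L N} : y ∈ ratSub L V ↔ bc L K N y ∈ V := Iff.rfl

theorem exists_functional : ∃ φ : K →ₗ[L] L, φ 1 = 1 := by
  have h := (Module.forall_dual_apply_eq_zero_iff L (1 : K)).not.mpr one_ne_zero
  push Not at h
  obtain ⟨φ, hφ⟩ := h
  exact ⟨(φ 1)⁻¹ • φ, by simp [hφ]⟩

/-- An `L`-rational combination of `L`-rational elements with coefficients in `K` is an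
`L`-combination. -/
theorem mem_span_of_bc_eq_sum {ι : Type*} [Fintype ι] {x : modularFunctionFieldFullC L N}
    {c : ι → K} {y : ι → modularFunctionFieldFullC L N}
    (h : bc L K N x = ∑ i, c i • bc L K N (y i)) : x ∈ Submodule.span L (Set.range y) := by
  obtain ⟨φ, hφ⟩ := exists_functional (L := L) (K := K)
  have h1 : x = ∑ i, φ (c i) • y i := by
    apply Subtype.ext
    have h2 : (x : LaurentSeries L) = fmap φ (bc L K N x : LaurentSeries K) := by
      ext n
      rw [fmap_coeff, coeff_bc, Algebra.algebraMap_eq_smul_one, map_smul, hφ, smul_eq_mul, mul_one]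
    rw [h2, h]
    ext n
    rw [fmap_coeff]
    simp only [AddSubmonoidClass.coe_finsetSum, HahnSeries.coeff_sum, map_sum,
      IntermediateField.coe_smul]
    apply Finset.sum_congr rfl
    intro i _
    rw [Algebra.smul_def, Algebra.smul_def, coe_bc, ← fmap_coeff, fmap_algebraMap_mul]
  rw [h1]
  exact Submodule.sum_mem _ fun i _ => Submodule.smul_mem _ _ (Submodule.subset_span ⟨i, rfl⟩)

theorem linearIndependent_bc {ι : Type*} {y : ι → modularFunctionFieldFullC L N}
    (h : LinearIndependent K fun i => bc L K N (y i)) : LinearIndependent L y := by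
  rw [linearIndependent_iff'] at h ⊢
  intro s g hg i hi
  have h1 := h s (fun i => algebraMap L K (g i)) (by
    have := congrArg (bc L K N) hg
    rw [map_sum, map_zero] at this
    simpa only [bc_smul] using this) i hi
  exact (map_eq_zero _).mp h1

/-- **Descent of dimensions.** -/
theorem finrank_ratSub (Γ : Set (K →+* K))
    (hΓ : ∀ x : K, (∀ σ ∈ Γ, σ x = x) → x ∈ Set.range (algebraMap L K))
    (V : Submodule K (modularFunctionFieldFullC K N)) [FiniteDimensional K V]
    (hV : ∀ σ ∈ Γ, ∀ v ∈ V, ∃ w ∈ V, (w : LaurentSeries K) = coeffMap σ (v : LaurentSeries K)) :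
    FiniteDimensional L (ratSub L V) ∧ finrank L (ratSub L V) = finrank K V := by
  obtain ⟨b, hb⟩ := exists_bc_basis Γ hΓ V hV
  choose y hy using hb
  have hyV : ∀ i, y i ∈ ratSub L V := fun i => by
    rw [mem_ratSub, hy]
    exact (b i).2
  have hli : LinearIndependent L y := by
    apply linearIndependent_bc (K := K)
    have h1 : (fun i => bc L K N (y i)) = (fun i => ((b i : V) : modularFunctionFieldFullC K N)) :=
      funext hy
    rw [h1]
    exact b.linearIndependent.map' V.subtype (Submodule.ker_subtype V)
  have hspan : ratSub L V = Submodule.span L (Set.range y) := by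
    apply le_antisymm
    · intro x hx
      have hx' : bc L K N x ∈ V := hx
      have h1 : bc L K N x = ∑ i, b.repr ⟨_, hx'⟩ i • bc L K N (y i) := by
        have h2 := congrArg (Subtype.val) (b.sum_repr ⟨bc L K N x, hx'⟩)
        refine h2.symm.trans ?_
        rw [Submodule.coe_sum]
        apply Finset.sum_congr rfl
        intro i _
        rw [Submodule.coe_smul, hy]
      exact mem_span_of_bc_eq_sum h1
    · rw [Submodule.span_le]
      rintro _ ⟨i, rfl⟩
      exact hyV i
  rw [hspan]
  refine ⟨FiniteDimensional.span_of_finite L (Set.finite_range y), ?_⟩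
  rw [finrank_span_eq_card hli, Fintype.card_fin]

end BC

end Fermat.Agent.TriVal
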