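import Fermat.Agent.GaussVal.Field
import Fermat.Agent.S36.NormsDV

/-!
# Discrete Gauss valuations

`K` algebraic over `ℚ`, `A` a valuation ring of `K` above the prime `ℓ`, `L` a subfield of `K` on
which `A` is discrete with uniformizer `ϖ`.  `ratSer L`: quotients of elements of `intAlg K` with
coefficients in `L`.  For a field `F` with a ring homomorphism `ι : F → K((q))` with values in
`ratSer L` we define the discrete Gauss valuation `gdv : DV F k((q))`.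
-/

set_option autoImplicit false

noncomputable section

open ModularCurve HahnSeries Module

namespace Fermat.Agent.TriVal

open Fermat.Agent.GaussVal Fermat.Agent.S36norm

section RatSer

variable {K : Type*} [Field K] (L : Subfield K)

/-- the elements of `intAlg K` with coefficients in `L`. -/
def intAlgL : Subring (LaurentSeries K) where
  carrier := {y | y ∈ intAlg K ∧ ∀ n, y.coeff n ∈ L}
  mul_mem' := by
    rintro x y ⟨hx, hx'⟩ ⟨hy, hy'⟩
    refine ⟨mul_mem hx hy, fun n => ?_⟩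
    rw [HahnSeries.coeff_mul]
    exact sum_mem fun p _ => mul_mem (hx' _) (hy' _)
  one_mem' := ⟨one_mem _, fun n => by
    rw [HahnSeries.coeff_one]
    split_ifs
    · exact one_mem _
    · exact zero_mem _⟩
  add_mem' := by
    rintro x y ⟨hx, hx'⟩ ⟨hy, hy'⟩
    exact ⟨add_mem hx hy, fun n => by rw [HahnSeries.coeff_add]; exact add_mem (hx' n) (hy' n)⟩
  zero_mem' := ⟨zero_mem _, fun n => by rw [HahnSeries.coeff_zero]; exact zero_mem _⟩
  neg_mem' := by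
    rintro x ⟨hx, hx'⟩
    exact ⟨neg_mem hx, fun n => by rw [HahnSeries.coeff_neg]; exact neg_mem (hx' n)⟩

/-- quotients of elements of `intAlgL L`. -/
def ratSer : Subfield (LaurentSeries K) where
  carrier := {y | ∃ a ∈ intAlgL L, ∃ b ∈ intAlgL L, b ≠ 0 ∧ y * b = a}
  mul_mem' := by
    rintro x y ⟨a, ha, b, hb, hb0, h⟩ ⟨c, hc, d, hd, hd0, h'⟩
    exact ⟨a * c, mul_mem ha hc, b * d, mul_mem hb hd, mul_ne_zero hb0 hd0, by
      rw [← h, ← h']; ring⟩
  one_mem' := ⟨1, one_mem _, 1, one_mem _, one_ne_zero, by rw [one_mul]⟩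
  add_mem' := by
    rintro x y ⟨a, ha, b, hb, hb0, h⟩ ⟨c, hc, d, hd, hd0, h'⟩
    exact ⟨a * d + c * b, add_mem (mul_mem ha hd) (mul_mem hc hb), b * d, mul_mem hb hd,
      mul_ne_zero hb0 hd0, by rw [← h, ← h']; ring⟩
  zero_mem' := ⟨0, zero_mem _, 1, one_mem _, one_ne_zero, by rw [zero_mul]⟩
  neg_mem' := by
    rintro x ⟨a, ha, b, hb, hb0, h⟩
    exact ⟨-a, neg_mem ha, b, hb, hb0, by rw [← h]; ring⟩
  inv_mem' := by
    rintro x ⟨a, ha, b, hb, hb0, h⟩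
    rcases eq_or_ne x 0 with rfl | hx0
    · exact ⟨0, zero_mem _, 1, one_mem _, one_ne_zero, by rw [inv_zero, zero_mul]⟩
    · exact ⟨b, hb, a, ha, by rw [← h]; exact mul_ne_zero hx0 hb0, by
        rw [← h, ← mul_assoc, inv_mul_cancel₀ hx0, one_mul]⟩

variable {L}

theorem intAlgL_le_ratSer {y : LaurentSeries K} (hy : y ∈ intAlgL L) : y ∈ ratSer L :=
  ⟨y, hy, 1, one_mem _, one_ne_zero, by rw [mul_one]⟩

theorem ratSer_mono {L' : Subfield K} (h : L ≤ L') {y : LaurentSeries K} (hy : y ∈ ratSer L) :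
    y ∈ ratSer L' := by
  obtain ⟨a, ha, b, hb, hb0, hab⟩ := hy
  exact ⟨a, ⟨ha.1, fun n => h (ha.2 n)⟩, b, ⟨hb.1, fun n => h (hb.2 n)⟩, hb0, hab⟩

theorem algebraMap_mem_ratSer {c : K} (hc : c ∈ L) :
    algebraMap K (LaurentSeries K) c ∈ ratSer L := by
  refine intAlgL_le_ratSer ⟨Subalgebra.algebraMap_mem _ _, fun n => ?_⟩
  rw [algebraMap_laurentSeries_eq_single, HahnSeries.coeff_single]
  split_ifs
  · exact hc
  · exact zero_mem _

theorem coeffMap_int_mem_intAlgL (Y : LaurentSeries ℤ) :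
    coeffMap (Int.castRingHom K) Y ∈ intAlgL L := by
  refine ⟨Algebra.subset_adjoin ⟨Y, rfl⟩, fun n => ?_⟩
  rw [coeffMap_coeff]
  exact intCast_mem _ _

theorem jqd_mem_ratSer (d : ℕ) [NeZero d] : qExpand K d (jqModC K) ∈ ratSer L := by
  have h : qExpand K d (jqModC K) = coeffMap (Int.castRingHom K) (qExpand ℤ d (jqModC ℤ)) := by
    rw [coeffMap_qExpand, coeffMap_jqModC]
  rw [h]
  exact intAlgL_le_ratSer (coeffMap_int_mem_intAlgL _)

theorem ratSer_le_intField {y : LaurentSeries K} (hy : y ∈ ratSer L) : y ∈ intField K := by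
  obtain ⟨a, ha, b, hb, hb0, h⟩ := hy
  have h1 : ∀ {z : LaurentSeries K}, z ∈ intAlg K → z ∈ intField K := fun hz =>
    IntermediateField.algebra_adjoin_le_adjoin _ _ hz
  have h2 : y = a / b := by rw [← h, mul_div_cancel_right₀ _ hb0]
  rw [h2]
  exact div_mem (h1 ha.1) (h1 hb.1)

variable {A : ValuationSubring K} {ℓ : ℕ} [CharZero K] [Algebra.IsAlgebraic ℚ K]

/-- normal form of nonzero elements of `ratSer L`. -/
theorem exists_normalForm (hℓ : ℓ.Prime) (hA : A.LiesOverPrime ℓ) {y : LaurentSeries K}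
    (hy : y ∈ ratSer L) (hy0 : y ≠ 0) :
    ∃ (c : K) (Y₁ Y₂ : LaurentSeries A), c ∈ L ∧ c ≠ 0 ∧ redS A Y₁ ≠ 0 ∧ redS A Y₂ ≠ 0 ∧
      y * incl A Y₂ = algebraMap K (LaurentSeries K) c * incl A Y₁ := by
  obtain ⟨a, ha, b, hb, hb0, hab⟩ := hy
  have ha0 : a ≠ 0 := by rw [← hab]; exact mul_ne_zero hy0 hb0
  obtain ⟨c, Y, n₀, hc0, hcY, hY, _, hc⟩ :=
    (scalable_of_mem_intAlg hℓ hA ha.1 ha0).exists_primitive
  obtain ⟨d, Z, n₁, hd0, hdZ, hZ, _, hd⟩ :=
    (scalable_of_mem_intAlg hℓ hA hb.1 hb0).exists_primitive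
  refine ⟨c / d, Y, Z, div_mem (hc ▸ ha.2 n₀) (hd ▸ hb.2 n₁), div_ne_zero hc0 hd0, hY, hZ, ?_⟩
  have hd0' : algebraMap K (LaurentSeries K) d ≠ 0 :=
    (map_ne_zero_iff _ (algebraMap K (LaurentSeries K)).injective).mpr hd0
  apply mul_left_cancel₀ hd0'
  rw [map_div₀]
  calc algebraMap K (LaurentSeries K) d * (y * incl A Z)
      = y * (algebraMap K (LaurentSeries K) d * incl A Z) := by ring
    _ = algebraMap K (LaurentSeries K) c * incl A Y := by rw [hdZ, hab, hcY]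
    _ = algebraMap K (LaurentSeries K) d * (algebraMap K (LaurentSeries K) c /
        algebraMap K (LaurentSeries K) d * incl A Y) := by
          field_simp

omit [CharZero K] [Algebra.IsAlgebraic ℚ K] in
theorem primitive_div_mem {Y₁ Y₂ : LaurentSeries A} (h₂ : redS A Y₂ ≠ 0) :
    incl A Y₁ / incl A Y₂ ∈ gaussSubring A :=
  ⟨Y₁, Y₂, h₂, div_mul_cancel₀ _ (incl_ne_zero h₂)⟩

omit [CharZero K] [Algebra.IsAlgebraic ℚ K] in
theorem normalForm_mem_iff {y : LaurentSeries K} {c : K} {Y₁ Y₂ : LaurentSeries A}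
    (h₁ : redS A Y₁ ≠ 0) (h₂ : redS A Y₂ ≠ 0)
    (h : y * incl A Y₂ = algebraMap K (LaurentSeries K) c * incl A Y₁) :
    y ∈ gaussSubring A ↔ c ∈ A := by
  have hy : y = algebraMap K (LaurentSeries K) c * (incl A Y₁ / incl A Y₂) := by
    rw [← mul_div_assoc, ← h, mul_div_cancel_right₀ _ (incl_ne_zero h₂)]
  have hc : algebraMap K (LaurentSeries K) c = y * (incl A Y₂ / incl A Y₁) := by
    rw [← mul_div_assoc, h, mul_div_cancel_right₀ _ (incl_ne_zero h₁)]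
  constructor
  · intro hyA
    rw [← algebraMap_mem_gaussSubring_iff, hc]
    exact mul_mem hyA (primitive_div_mem h₁)
  · intro hcA
    rw [hy]
    exact mul_mem (algebraMap_mem_gaussSubring hcA) (primitive_div_mem h₂)

omit [CharZero K] [Algebra.IsAlgebraic ℚ K] in
/-- the valuation of the content is well defined. -/
theorem normalForm_val_unique {y : LaurentSeries K} {c c' : K} {Y₁ Y₂ Z₁ Z₂ : LaurentSeries A}
    (hc0 : c ≠ 0) (hc0' : c' ≠ 0)
    (h₁ : redS A Y₁ ≠ 0) (h₂ : redS A Y₂ ≠ 0)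
    (h : y * incl A Y₂ = algebraMap K (LaurentSeries K) c * incl A Y₁)
    (h₁' : redS A Z₁ ≠ 0) (h₂' : redS A Z₂ ≠ 0)
    (h' : y * incl A Z₂ = algebraMap K (LaurentSeries K) c' * incl A Z₁) :
    A.valuation c = A.valuation c' := by
  have key : ∀ {c c' : K} {Y₁ Y₂ Z₁ Z₂ : LaurentSeries A}, c ≠ 0 → c' ≠ 0 →
      redS A Y₁ ≠ 0 → redS A Y₂ ≠ 0 →
      y * incl A Y₂ = algebraMap K (LaurentSeries K) c * incl A Y₁ →
      redS A Z₁ ≠ 0 → redS A Z₂ ≠ 0 →
      y * incl A Z₂ = algebraMap K (LaurentSeries K) c' * incl A Z₁ →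
      A.valuation c ≤ A.valuation c' := by
    intro c c' Y₁ Y₂ Z₁ Z₂ hc0 hc0' h₁ h₂ h h₁' h₂' h'
    have hcc : algebraMap K (LaurentSeries K) c' ≠ 0 :=
      (map_ne_zero_iff _ (algebraMap K (LaurentSeries K)).injective).mpr hc0'
    -- `y / c'` is in the Gauss ring and has normal form with content `c / c'`
    have h3 : (algebraMap K (LaurentSeries K) c')⁻¹ * y ∈ gaussSubring A := by
      refine (normalForm_mem_iff (c := 1) h₁' h₂' ?_).mpr A.one_mem
      rw [mul_assoc, h', ← mul_assoc, inv_mul_cancel₀ hcc, map_one]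
    have h4 : c / c' ∈ A := by
      refine (normalForm_mem_iff (y := (algebraMap K (LaurentSeries K) c')⁻¹ * y) h₁ h₂ ?_).mp h3
      rw [mul_assoc, h, map_div₀]
      ring
    rw [← ValuationSubring.valuation_le_one_iff, map_div₀,
      div_le_one₀ (zero_lt_iff.mpr ((Valuation.ne_zero_iff _).mpr hc0'))] at h4
    exact h4
  exact le_antisymm (key hc0 hc0' h₁ h₂ h h₁' h₂' h') (key hc0' hc0 h₁' h₂' h' h₁ h₂ h)

end RatSer

section DVdef

variable {K : Type*} [Field K] {L : Subfield K} {A : ValuationSubring K} {ℓ : ℕ}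
  [CharZero K] [Algebra.IsAlgebraic ℚ K] {F : Type*} [Field F]

/-- `y` has Gauss valuation `v(ϖ)^n`. -/
def HasOrd (A : ValuationSubring K) (ϖ : K) (y : LaurentSeries K) (n : ℤ) : Prop :=
  ∃ (c : K) (Y₁ Y₂ : LaurentSeries A), c ≠ 0 ∧ A.valuation c = A.valuation ϖ ^ n ∧
    redS A Y₁ ≠ 0 ∧ redS A Y₂ ≠ 0 ∧
    y * incl A Y₂ = algebraMap K (LaurentSeries K) c * incl A Y₁

/-- `ϖ` is a uniformizer of `A ∩ L`. -/
structure IsUnif (A : ValuationSubring K) (L : Subfield K) (ϖ : K) : Prop where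
  ne_zero : ϖ ≠ 0
  lt_one : A.valuation ϖ < 1
  exists_zpow : ∀ x ∈ L, x ≠ 0 → ∃ n : ℤ, A.valuation x = A.valuation ϖ ^ n

variable {ϖ : K}

omit [CharZero K] [Algebra.IsAlgebraic ℚ K] in
theorem IsUnif.zpow_injective (h : IsUnif A L ϖ) {m n : ℤ}
    (hmn : A.valuation ϖ ^ m = A.valuation ϖ ^ n) : m = n := by
  have h0 : 0 < A.valuation ϖ := zero_lt_iff.mpr ((Valuation.ne_zero_iff _).mpr h.ne_zero)
  exact (zpow_right_strictAnti₀ h0 h.lt_one).injective hmn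

omit [CharZero K] [Algebra.IsAlgebraic ℚ K] in
theorem IsUnif.zpow_le_one_iff (h : IsUnif A L ϖ) {n : ℤ} :
    A.valuation ϖ ^ n ≤ 1 ↔ 0 ≤ n := by
  have h0 : 0 < A.valuation ϖ := zero_lt_iff.mpr ((Valuation.ne_zero_iff _).mpr h.ne_zero)
  have := (zpow_right_strictAnti₀ h0 h.lt_one).le_iff_ge (a := n) (b := 0)
  rwa [zpow_zero] at this

omit [CharZero K] [Algebra.IsAlgebraic ℚ K] in
theorem HasOrd.unique (h : IsUnif A L ϖ) {y : LaurentSeries K} {m n : ℤ}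
    (hm : HasOrd A ϖ y m) (hn : HasOrd A ϖ y n) : m = n := by
  obtain ⟨c, Y₁, Y₂, hc0, hc, h₁, h₂, hy⟩ := hm
  obtain ⟨c', Z₁, Z₂, hc0', hc', h₁', h₂', hy'⟩ := hn
  apply h.zpow_injective
  rw [← hc, ← hc']
  exact normalForm_val_unique hc0 hc0' h₁ h₂ hy h₁' h₂' hy'

omit [CharZero K] [Algebra.IsAlgebraic ℚ K] in
theorem HasOrd.mul (hϖ : ϖ ≠ 0) {x y : LaurentSeries K} {m n : ℤ}
    (hm : HasOrd A ϖ x m) (hn : HasOrd A ϖ y n) : HasOrd A ϖ (x * y) (m + n) := by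
  obtain ⟨c, Y₁, Y₂, hc0, hc, h₁, h₂, hy⟩ := hm
  obtain ⟨c', Z₁, Z₂, hc0', hc', h₁', h₂', hy'⟩ := hn
  refine ⟨c * c', Y₁ * Z₁, Y₂ * Z₂, mul_ne_zero hc0 hc0', ?_, ?_, ?_, ?_⟩
  · rw [map_mul, hc, hc', zpow_add₀ ((Valuation.ne_zero_iff _).mpr hϖ)]
  · rw [map_mul]; exact mul_ne_zero h₁ h₁'
  · rw [map_mul]; exact mul_ne_zero h₂ h₂'
  · rw [map_mul, map_mul, map_mul]
    calc x * y * (incl A Y₂ * incl A Z₂) = (x * incl A Y₂) * (y * incl A Z₂) := by ring
      _ = _ := by rw [hy, hy']; ring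

omit [CharZero K] [Algebra.IsAlgebraic ℚ K] in
theorem HasOrd.mem_iff (h : IsUnif A L ϖ) {y : LaurentSeries K} {n : ℤ}
    (hn : HasOrd A ϖ y n) : y ∈ gaussSubring A ↔ 0 ≤ n := by
  obtain ⟨c, Y₁, Y₂, hc0, hc, h₁, h₂, hy⟩ := hn
  rw [normalForm_mem_iff h₁ h₂ hy, ← ValuationSubring.valuation_le_one_iff, hc, h.zpow_le_one_iff]

omit [CharZero K] [Algebra.IsAlgebraic ℚ K] in
theorem hasOrd_algebraMap_mul_incl {c : K} {n : ℤ} (hc0 : c ≠ 0)
    (hc : A.valuation c = A.valuation ϖ ^ n) {Y : LaurentSeries A} (hY : redS A Y ≠ 0) :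
    HasOrd A ϖ (algebraMap K (LaurentSeries K) c * incl A Y) n :=
  ⟨c, Y, 1, hc0, hc, hY, by rw [map_one]; exact one_ne_zero, by rw [map_one, mul_one]⟩

omit [CharZero K] [Algebra.IsAlgebraic ℚ K] in
theorem hasOrd_incl {Y : LaurentSeries A} (hY : redS A Y ≠ 0) : HasOrd A ϖ (incl A Y) 0 := by
  have := hasOrd_algebraMap_mul_incl (ϖ := ϖ) (c := 1) (n := 0) one_ne_zero
    (by rw [map_one, zpow_zero]) hY
  rwa [map_one, one_mul] at this

omit [CharZero K] [Algebra.IsAlgebraic ℚ K] in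
theorem hasOrd_algebraMap {c : K} {n : ℤ} (hc0 : c ≠ 0)
    (hc : A.valuation c = A.valuation ϖ ^ n) : HasOrd A ϖ (algebraMap K (LaurentSeries K) c) n := by
  have := hasOrd_algebraMap_mul_incl (ϖ := ϖ) hc0 hc (Y := 1) (by rw [map_one]; exact one_ne_zero)
  rwa [map_one, mul_one] at this

theorem exists_hasOrd (hℓ : ℓ.Prime) (hA : A.LiesOverPrime ℓ) (h : IsUnif A L ϖ)
    {y : LaurentSeries K} (hy : y ∈ ratSer L) (hy0 : y ≠ 0) : ∃ n, HasOrd A ϖ y n := by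
  obtain ⟨c, Y₁, Y₂, hcL, hc0, h₁, h₂, hy⟩ := exists_normalForm hℓ hA hy hy0
  obtain ⟨n, hn⟩ := h.exists_zpow c hcL hc0
  exact ⟨n, c, Y₁, Y₂, hc0, hn, h₁, h₂, hy⟩

/-- the order function -/
def gord (ϖ : K) (A : ValuationSubring K) (y : LaurentSeries K) : ℤ :=
  open Classical in if h : ∃ n, HasOrd A ϖ y n then h.choose else 0

omit [CharZero K] [Algebra.IsAlgebraic ℚ K] in
theorem gord_eq (h : IsUnif A L ϖ) {y : LaurentSeries K} {n : ℤ} (hn : HasOrd A ϖ y n) :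
    gord ϖ A y = n := by
  classical
  have hex : ∃ n, HasOrd A ϖ y n := ⟨n, hn⟩
  rw [gord, dif_pos hex]
  exact HasOrd.unique h hex.choose_spec hn

theorem hasOrd_gord (hℓ : ℓ.Prime) (hA : A.LiesOverPrime ℓ) (h : IsUnif A L ϖ)
    {y : LaurentSeries K} (hy : y ∈ ratSer L) (hy0 : y ≠ 0) : HasOrd A ϖ y (gord ϖ A y) := by
  obtain ⟨n, hn⟩ := exists_hasOrd hℓ hA h hy hy0
  rw [gord_eq h hn]
  exact hn

/-- the valuation ring -/
def gO (hℓ : ℓ.Prime) (hA : A.LiesOverPrime ℓ) (ι : F →+* LaurentSeries K)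
    (hι : ∀ x, ι x ∈ ratSer L) : ValuationSubring F where
  toSubring := (gaussSubring A).comap ι
  mem_or_inv_mem' x := by
    rcases mem_or_inv_mem hℓ hA (ratSer_le_intField (hι x)) with h | h
    · exact Or.inl h
    · refine Or.inr ?_
      change ι x⁻¹ ∈ gaussSubring A
      rw [map_inv₀]
      exact h

theorem mem_gO {hℓ : ℓ.Prime} {hA : A.LiesOverPrime ℓ} {ι : F →+* LaurentSeries K}
    {hι : ∀ x, ι x ∈ ratSer L} {x : F} : x ∈ gO hℓ hA ι hι ↔ ι x ∈ gaussSubring A := Iff.rfl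

/-- the reduction map -/
def gρ (hℓ : ℓ.Prime) (hA : A.LiesOverPrime ℓ) (ι : F →+* LaurentSeries K)
    (hι : ∀ x, ι x ∈ ratSer L) : gO hℓ hA ι hι →+* LaurentSeries (IsLocalRing.ResidueField A) :=
  (gaussRed A).comp
    { toFun := fun x => ⟨ι x, x.2⟩
      map_one' := Subtype.ext (map_one ι)
      map_mul' := fun _ _ => Subtype.ext (map_mul ι _ _)
      map_zero' := Subtype.ext (map_zero ι)
      map_add' := fun _ _ => Subtype.ext (map_add ι _ _) }

theorem gρ_apply {hℓ : ℓ.Prime} {hA : A.LiesOverPrime ℓ} {ι : F →+* LaurentSeries K}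
    {hι : ∀ x, ι x ∈ ratSer L} (x : gO hℓ hA ι hι) : gρ hℓ hA ι hι x = gaussRed A ⟨ι x, x.2⟩ := rfl

theorem gρ_eq_zero_iff {hℓ : ℓ.Prime} {hA : A.LiesOverPrime ℓ} {ι : F →+* LaurentSeries K}
    {hι : ∀ x, ι x ∈ ratSer L} (x : gO hℓ hA ι hι) :
    gρ hℓ hA ι hι x = 0 ↔ (x : F) ∈ (gO hℓ hA ι hι).nonunits := by
  rcases eq_or_ne (x : F) 0 with h0 | h0
  · have hx : x = 0 := Subtype.ext h0
    rw [hx, map_zero]
    simp [ValuationSubring.mem_nonunits_iff]
  have h0' : ι (x : F) ≠ 0 := (map_ne_zero_iff _ ι.injective).mpr h0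
  have key := mem_nonunits_iff_inv_notMem (gO hℓ hA ι hι) h0
  refine not_iff_not.mp (Iff.trans ?_ key.symm)
  rw [gρ_apply]
  constructor
  · intro h
    have := inv_mem_of_gaussRed_ne_zero h
    change ι (x : F)⁻¹ ∈ gaussSubring A
    rw [map_inv₀]
    exact this
  · intro h
    change ι (x : F)⁻¹ ∈ gaussSubring A at h
    rw [map_inv₀] at h
    exact gaussRed_ne_zero_of_inv_mem h0' h

/-- **The discrete Gauss valuation** of `F` attached to `ι : F → K((q))`. -/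
def gdv (hℓ : ℓ.Prime) (hA : A.LiesOverPrime ℓ) (h : IsUnif A L ϖ) (ι : F →+* LaurentSeries K)
    (hι : ∀ x, ι x ∈ ratSer L) : DV F (LaurentSeries (IsLocalRing.ResidueField A)) where
  O := gO hℓ hA ι hι
  ρ := gρ hℓ hA ι hι
  ρ_eq_zero_iff x := gρ_eq_zero_iff x
  ord x := gord ϖ A (ι x)
  ord_mul x y hx hy := by
    have hx' : ι x ≠ 0 := (map_ne_zero_iff _ ι.injective).mpr hx
    have hy' : ι y ≠ 0 := (map_ne_zero_iff _ ι.injective).mpr hy
    rw [map_mul]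
    exact gord_eq h ((hasOrd_gord hℓ hA h (hι x) hx').mul h.ne_zero
      (hasOrd_gord hℓ hA h (hι y) hy'))
  mem_iff x hx := by
    have hx' : ι x ≠ 0 := (map_ne_zero_iff _ ι.injective).mpr hx
    rw [mem_gO]
    exact (hasOrd_gord hℓ hA h (hι x) hx').mem_iff h

section API

variable {hℓ : ℓ.Prime} {hA : A.LiesOverPrime ℓ} {h : IsUnif A L ϖ} {ι : F →+* LaurentSeries K}
  {hι : ∀ x, ι x ∈ ratSer L}

theorem mem_gdv {x : F} : x ∈ (gdv hℓ hA h ι hι).O ↔ ι x ∈ gaussSubring A := Iff.rfl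

theorem gdv_ord {x : F} {n : ℤ} (hx : HasOrd A ϖ (ι x) n) : (gdv hℓ hA h ι hι).ord x = n :=
  gord_eq h hx

theorem gdv_red_eq {x : F} (hx : ι x ∈ gaussSubring A) :
    (gdv hℓ hA h ι hι).red x = gaussRed A ⟨ι x, hx⟩ := by
  rw [DV.red_of_mem _ (show x ∈ (gdv hℓ hA h ι hι).O from hx)]
  rfl

/-- reduction of an element with integral expansion -/
theorem gdv_red_of_incl {x : F} {Y : LaurentSeries A} (hx : ι x = incl A Y) :
    (gdv hℓ hA h ι hι).red x = redS A Y := by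
  have hx' : ι x ∈ gaussSubring A := by rw [hx]; exact incl_mem Y
  rw [gdv_red_eq hx', ← gaussRed_incl Y (incl_mem Y)]
  congr 1
  exact Subtype.ext hx

theorem mem_gdv_of_incl {x : F} {Y : LaurentSeries A} (hx : ι x = incl A Y) :
    x ∈ (gdv hℓ hA h ι hι).O := by
  rw [mem_gdv, hx]
  exact incl_mem Y

theorem gdv_ord_of_incl {x : F} {Y : LaurentSeries A} (hx : ι x = incl A Y) (hY : redS A Y ≠ 0) :
    (gdv hℓ hA h ι hι).ord x = 0 :=
  gdv_ord (by rw [hx]; exact hasOrd_incl hY)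

theorem gdv_ord_of_algebraMap {x : F} {c : K} {n : ℤ}
    (hx : ι x = algebraMap K (LaurentSeries K) c) (hc0 : c ≠ 0)
    (hc : A.valuation c = A.valuation ϖ ^ n) : (gdv hℓ hA h ι hι).ord x = n :=
  gdv_ord (by rw [hx]; exact hasOrd_algebraMap hc0 hc)

theorem mem_gdv_algebraMap {x : F} {c : K} (hx : ι x = algebraMap K (LaurentSeries K) c) :
    x ∈ (gdv hℓ hA h ι hι).O ↔ c ∈ A := by
  rw [mem_gdv, hx]
  exact algebraMap_mem_gaussSubring_iff

theorem gdv_red_algebraMap {x : F} {c : K} (hx : ι x = algebraMap K (LaurentSeries K) c)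
    (hc : c ∈ A) : (gdv hℓ hA h ι hι).red x =
      algebraMap (IsLocalRing.ResidueField A) (LaurentSeries (IsLocalRing.ResidueField A))
        (IsLocalRing.residue A ⟨c, hc⟩) := by
  have hx' : ι x ∈ gaussSubring A := by rw [hx]; exact algebraMap_mem_gaussSubring hc
  rw [gdv_red_eq hx', ← gaussRed_algebraMap hc]
  congr 1
  exact Subtype.ext hx

end API

end DVdef

end Fermat.Agent.TriVal
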