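import Fermat.Agent.TriVal.K0Unif
import Fermat.Agent.TriVal.Base

/-!
# The fixed field of inertia, as an opaque field

`Kz A` is the fixed field `K0 A ⊆ ℚ̄` of the inertia group of `A`, as a type with only the
instances `Field`, `CharZero`, `Algebra (Kz A) ℚ̄`: instance search does not see that it is an
intermediate field, which is essential for performance.
-/

set_option autoImplicit false

noncomputable section

open ModularCurve

namespace Fermat.Agent.TriVal

open Fermat.Agent.LocE

section Shortcuts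

variable (K : Type*) [Field K] (N : ℕ)

/-- shortcut instance -/
instance instAlgebraFullC : Algebra K (modularFunctionFieldFullC K N) := inferInstance

/-- shortcut instance -/
instance instModuleFullC : Module K (modularFunctionFieldFullC K N) := inferInstance

/-- shortcut instance -/
instance instSMulFullC : SMul K (modularFunctionFieldFullC K N) := inferInstance

end Shortcuts

/-- the fixed field of the inertia group of `A`, as a type -/
def Kz (A : ValuationSubring Qb) : Type := ↥(K0 A)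

variable {A : ValuationSubring Qb}

instance instFieldKz : Field (Kz A) := inferInstanceAs (Field ↥(K0 A))

instance instAlgebraKz : Algebra (Kz A) Qb := inferInstanceAs (Algebra ↥(K0 A) Qb)

theorem Kz.algebraMap_injective : Function.Injective (algebraMap (Kz A) Qb) :=
  (algebraMap (Kz A) Qb).injective

instance instCharZeroKz : CharZero (Kz A) :=
  ⟨fun a b h => by
    have h1 := congrArg (algebraMap (Kz A) Qb) h
    rw [map_natCast, map_natCast] at h1
    exact_mod_cast h1⟩

theorem Kz.mem (x : Kz A) : algebraMap (Kz A) Qb x ∈ K0 A := Subtype.property (p := (· ∈ K0 A)) x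

/-- elements of the fixed field -/
def Kz.mk (x : Qb) (hx : x ∈ K0 A) : Kz A := ⟨x, hx⟩

@[simp] theorem Kz.algebraMap_mk (x : Qb) (hx : x ∈ K0 A) :
    algebraMap (Kz A) Qb (Kz.mk x hx) = x := rfl

theorem Kz.mem_range_iff {x : Qb} : x ∈ Set.range (algebraMap (Kz A) Qb) ↔ x ∈ K0 A :=
  ⟨by rintro ⟨y, rfl⟩; exact y.mem, fun h => ⟨Kz.mk x h, rfl⟩⟩

theorem Kz.mem_range_iff_isFixed {x : Qb} :
    x ∈ Set.range (algebraMap (Kz A) Qb) ↔ IsFixed A x := by
  rw [Kz.mem_range_iff, mem_K0_iff]

instance : Algebra.IsAlgebraic (Kz A) Qb := by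
  have : Algebra.IsAlgebraic ↥(K0 A) Qb := inferInstance
  exact this

/-- the function field of `X₀(N)` over the fixed field `K₀` of the inertia group of `A` -/
abbrev FK (A : ValuationSubring Qb) (N : ℕ) : IntermediateField (Kz A) (LaurentSeries (Kz A)) :=
  modularFunctionFieldFullC (Kz A) N

/-! ### The valuation ring of `K₀` -/

/-- the valuation ring `A ∩ K₀` -/
def Az (A : ValuationSubring Qb) : ValuationSubring (Kz A) := A.comap (algebraMap (Kz A) Qb)

theorem mem_Az {x : Kz A} : x ∈ Az A ↔ algebraMap (Kz A) Qb x ∈ A := ValuationSubring.mem_comap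

/-- the reduction map `A ∩ K₀ → k` -/
def resz (A : ValuationSubring Qb) : Az A →+* IsLocalRing.ResidueField A :=
  (IsLocalRing.residue A).comp
    ((algebraMap (Kz A) Qb).restrict (Az A) A (fun _ hx => mem_Az.mp hx))

theorem resz_apply (x : Az A) :
    resz A x = IsLocalRing.residue A ⟨algebraMap (Kz A) Qb x, mem_Az.mp x.2⟩ := rfl

theorem resz_surjective {q : ℕ} (hq : q.Prime) (hA : A.LiesOverPrime q) :
    Function.Surjective (resz A) := by
  intro y
  obtain ⟨⟨a, ha⟩, rfl⟩ := IsLocalRing.residue_surjective y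
  obtain ⟨b, hb, hbf, hab⟩ := exists_fixed_sub_mem_nonunits hq hA ha
  refine ⟨⟨Kz.mk b (mem_K0_iff.mpr hbf), mem_Az.mpr hb⟩, ?_⟩
  rw [resz_apply, eq_comm, ← sub_eq_zero, ← map_sub, IsLocalRing.residue_eq_zero_iff]
  rw [ValuationSubring.mem_nonunits_iff_exists_mem_maximalIdeal] at hab
  obtain ⟨h1, h2⟩ := hab
  exact h2

theorem mem_nonunits_of_algebraMap {x : Kz A} :
    x ∈ (Az A).nonunits ↔ algebraMap (Kz A) Qb x ∈ A.nonunits := by
  rcases eq_or_ne x 0 with rfl | hx
  · simp
  have hx' : algebraMap (Kz A) Qb x ≠ 0 := (map_ne_zero _).mpr hx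
  rw [← not_iff_not]
  have key : ∀ {F : Type} [Field F] (B : ValuationSubring F) {y : F}, y ≠ 0 →
      (y ∉ B.nonunits ↔ y⁻¹ ∈ B) := by
    intro F _ B y hy
    rw [ValuationSubring.mem_nonunits_iff, not_lt, ← ValuationSubring.valuation_le_one_iff,
      map_inv₀, inv_le_one₀ (zero_lt_iff.mpr ((Valuation.ne_zero_iff _).mpr hy))]
  rw [key _ hx, key _ hx', mem_Az, map_inv₀]

theorem resz_eq_zero_iff (x : Az A) : resz A x = 0 ↔ (x : Kz A) ∈ (Az A).nonunits := by
  rw [resz_apply, IsLocalRing.residue_eq_zero_iff, mem_nonunits_of_algebraMap,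
    ValuationSubring.mem_nonunits_iff_exists_mem_maximalIdeal]
  exact ⟨fun h => ⟨mem_Az.mp x.2, h⟩, fun ⟨_, h⟩ => h⟩

theorem mem_nonunits_Az_iff {q : ℕ} (hq : q.Prime) (hA : A.LiesOverPrime q) (x : Kz A) :
    x ∈ (Az A).nonunits ↔ x / (q : Kz A) ∈ Az A := by
  rw [mem_nonunits_of_algebraMap, mem_Az, map_div₀, map_natCast]
  rcases eq_or_ne x 0 with rfl | hx
  · simp
  have hU := isUnif_K0 hq hA
  have hx' : algebraMap (Kz A) Qb x ≠ 0 := (map_ne_zero _).mpr hx
  obtain ⟨n, hn⟩ := hU.exists_zpow _ x.mem hx'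
  have hv0 : A.valuation ((q : ℕ) : Qb) ≠ 0 := (Valuation.ne_zero_iff _).mpr hU.ne_zero
  rw [ValuationSubring.mem_nonunits_iff, ← ValuationSubring.valuation_le_one_iff, map_div₀, hn]
  have h1 : A.valuation ((q : ℕ) : Qb) ^ n / A.valuation ((q : ℕ) : Qb) =
      A.valuation ((q : ℕ) : Qb) ^ (n - 1) := by
    rw [zpow_sub₀ hv0, zpow_one]
  rw [h1, hU.zpow_le_one_iff]
  have h2 := (zpow_right_strictAnti₀ (zero_lt_iff.mpr hv0) hU.lt_one).lt_iff_gt (a := n) (b := 0)
  rw [zpow_zero] at h2
  rw [h2]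
  omega

end Fermat.Agent.TriVal
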