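import Fermat.Agent.TriVal.GaussDV
import Fermat.Agent.LocE.K0

/-!
# Uniformizers of `K₀` and `K₀(ζ_q)`

`A` a place of `ℚ̄` above the prime `q`, `K₀` the fixed field of its inertia group.

* `isUnif_K0 : IsUnif A K₀ q`;
* `val_zeta_sub_one_pow : v(ζ - 1)^(q-1) = v(q)`;
* `isUnif_K1 : IsUnif A K₀(ζ) (ζ - 1)`.
-/

set_option autoImplicit false

noncomputable section

open Polynomial
open scoped IntermediateField

namespace Fermat.Agent.TriVal

open Fermat.Agent.GaussVal Fermat.Agent.LocE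

abbrev Qb := AlgebraicClosure ℚ

section Zeta

variable {K : Type*} [Field K] {A : ValuationSubring K} {q : ℕ}

theorem pow_mem_of_root {ζ : K} (h : ζ ^ q = 1) (hq : 0 < q) : ζ ∈ A := by
  rcases A.mem_or_inv_mem ζ with h1 | h1
  · exact h1
  · have h2 : ζ = ζ⁻¹ ^ (q - 1) := by
      have h0 : ζ ≠ 0 := by
        rintro rfl
        rw [zero_pow hq.ne'] at h
        exact zero_ne_one h
      rw [inv_pow]
      apply eq_inv_of_mul_eq_one_left
      rw [← pow_succ', Nat.sub_add_cancel hq, h]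
    rw [h2]
    exact pow_mem h1 _

/-- `v(1 - ζ^i) ≤ v(1 - ζ)`. -/
theorem val_one_sub_pow_le {ζ : K} (hζ : ζ ∈ A) (i : ℕ) :
    A.valuation (1 - ζ ^ i) ≤ A.valuation (1 - ζ) := by
  have h1 : 1 - ζ ^ i = (1 - ζ) * ∑ j ∈ Finset.range i, ζ ^ j := by
    have := geom_sum_mul_neg ζ i
    linear_combination -this
  rw [h1, map_mul]
  have h2 : A.valuation (∑ j ∈ Finset.range i, ζ ^ j) ≤ 1 := by
    rw [ValuationSubring.valuation_le_one_iff]
    exact sum_mem fun j _ => pow_mem hζ j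
  exact mul_le_of_le_one_right' h2

theorem val_one_sub_pow_eq {ζ : K} (hζ : IsPrimitiveRoot ζ q) (hq : q.Prime) {i : ℕ}
    (hi : i.Coprime q) : A.valuation (1 - ζ ^ i) = A.valuation (1 - ζ) := by
  have hζA : ζ ∈ A := pow_mem_of_root hζ.pow_eq_one hq.pos
  refine le_antisymm (val_one_sub_pow_le hζA i) ?_
  have : NeZero q := ⟨hq.ne_zero⟩
  obtain ⟨j, -, hj⟩ := (hζ.pow_of_coprime i hi).eq_pow_of_pow_eq_one hζ.pow_eq_one
  conv_lhs => rw [← hj]
  exact val_one_sub_pow_le (pow_mem hζA i) j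

theorem val_zeta_sub_one_pow {ζ : K} (hζ : IsPrimitiveRoot ζ q) (hq : q.Prime) :
    A.valuation (ζ - 1) ^ (q - 1) = A.valuation (q : K) := by
  obtain ⟨n, rfl⟩ : ∃ n, q = n + 1 := ⟨q - 1, (Nat.sub_add_cancel hq.pos).symm⟩
  have h1 := hζ.prod_one_sub_pow_eq_order
  have h2 := congrArg A.valuation h1
  rw [map_prod] at h2
  have h3 : ∀ k ∈ Finset.range n, A.valuation (1 - ζ ^ (k + 1)) = A.valuation (ζ - 1) := by
    intro k hk
    rw [val_one_sub_pow_eq hζ hq, ← Valuation.map_neg, neg_sub]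
    rw [Finset.mem_range] at hk
    exact (Nat.Coprime.symm ((Nat.Prime.coprime_iff_not_dvd hq).mpr fun hd =>
      absurd (Nat.le_of_dvd (Nat.succ_pos k) hd) (by omega)))
  rw [Finset.prod_congr rfl h3, Finset.prod_const, Finset.card_range] at h2
  rw [Nat.add_sub_cancel, h2]
  push_cast
  rfl

end Zeta

variable {q : ℕ} {A : ValuationSubring Qb}

theorem isUnif_K0 (hq : q.Prime) (hA : A.LiesOverPrime q) :
    IsUnif A (K0 A).toSubfield ((q : ℕ) : Qb) where
  ne_zero := by exact_mod_cast hq.ne_zero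
  lt_one := val_prime_lt_one A hA
  exists_zpow x hx hx0 := exists_valuation_eq_zpow hq hA (mem_K0_iff.mp hx) hx0

/-- `K₀(ζ)` -/
def K1 (A : ValuationSubring Qb) (ζ : Qb) : IntermediateField (K0 A) Qb := (K0 A)⟮ζ⟯

theorem mem_K1_of_mem_K0 {ζ x : Qb} (hx : x ∈ K0 A) : x ∈ K1 A ζ :=
  (K1 A ζ).algebraMap_mem ⟨x, hx⟩

theorem zeta_mem_K1 {ζ : Qb} : ζ ∈ K1 A ζ := IntermediateField.mem_adjoin_simple_self _ _

/-- elements of `K₀(ζ)` are polynomials of degree `< q - 1` in `ζ - 1`. -/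
theorem exists_sum_of_mem_K1 (hq : q.Prime) {ζ : Qb} (hζ : IsPrimitiveRoot ζ q) {x : Qb}
    (hx : x ∈ K1 A ζ) : ∃ a : ℕ → Qb, (∀ i, a i ∈ K0 A) ∧
      x = ∑ i ∈ Finset.range (q - 1), a i * (ζ - 1) ^ i := by
  classical
  -- the monic polynomial `Φ_q(X + 1)` of degree `q - 1`
  have hint : IsIntegral (K0 A) ζ := Algebra.IsIntegral.isIntegral ζ
  have hx' : x ∈ Algebra.adjoin (K0 A) {ζ} := by
    rw [← IntermediateField.adjoin_simple_toSubalgebra_of_isAlgebraic hint.isAlgebraic]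
    exact hx
  rw [Algebra.adjoin_singleton_eq_range_aeval] at hx'
  obtain ⟨P, rfl⟩ := hx'
  set M : (K0 A)[X] := (cyclotomic q (K0 A)).comp (X + 1) with hM
  have hMm : M.Monic := (cyclotomic.monic q _).comp (monic_X_add_C 1) (by
    rw [show (X + 1 : (K0 A)[X]) = X + C 1 by simp, natDegree_X_add_C]; exact one_ne_zero)
  have hMd : M.natDegree = q - 1 := by
    rw [hM, natDegree_comp, natDegree_cyclotomic, Nat.totient_prime hq,
      show (X + 1 : (K0 A)[X]) = X + C 1 by simp, natDegree_X_add_C, mul_one]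
  have hM0 : aeval (ζ - 1) M = 0 := by
    rw [hM, aeval_comp]
    simp only [map_add, aeval_X, map_one, sub_add_cancel]
    rw [aeval_def, eval₂_eq_eval_map, map_cyclotomic]
    have : NeZero ((q : ℕ) : Qb) := ⟨by exact_mod_cast hq.ne_zero⟩
    exact (isRoot_cyclotomic_iff.mpr hζ)
  set P' : (K0 A)[X] := P.comp (X + 1) with hP'
  have hPx : aeval (ζ - 1) P' = aeval ζ P := by
    rw [hP', aeval_comp]
    simp
  have hmod : aeval (ζ - 1) (P' %ₘ M) = aeval ζ P := by
    rw [← hPx]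
    conv_rhs => rw [← modByMonic_add_div P' M]
    rw [map_add, map_mul, hM0, zero_mul, add_zero]
  refine ⟨fun i => ((P' %ₘ M).coeff i : Qb), fun i => ((P' %ₘ M).coeff i).2, ?_⟩
  have hdeg : (P' %ₘ M).natDegree < q - 1 := by
    rw [← hMd]
    apply natDegree_modByMonic_lt _ hMm
    intro h1
    rw [h1, natDegree_one] at hMd
    have := hq.two_le
    omega
  change aeval ζ P = _
  rw [← hmod, aeval_eq_sum_range' hdeg]
  apply Finset.sum_congr rfl
  intro i _
  rw [Algebra.smul_def]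
  rfl

theorem isUnif_K1 (hq : q.Prime) (hA : A.LiesOverPrime q) {ζ : Qb} (hζ : IsPrimitiveRoot ζ q) :
    IsUnif A (K1 A ζ).toSubfield (ζ - 1) where
  ne_zero := sub_ne_zero.mpr (hζ.ne_one hq.one_lt)
  lt_one := by
    have h1 := val_zeta_sub_one_pow (A := A) hζ hq
    have h2 := val_prime_lt_one A hA
    by_contra hcon
    push Not at hcon
    rw [← h1] at h2
    exact absurd h2 (not_lt.mpr (one_le_pow_of_one_le' hcon _))
  exists_zpow x hx hx0 := by
    classical
    obtain ⟨a, ha, rfl⟩ := exists_sum_of_mem_K1 hq hζ hx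
    set π : Qb := ζ - 1 with hπ
    have hπ0 : π ≠ 0 := sub_ne_zero.mpr (hζ.ne_one hq.one_lt)
    have hv0 : A.valuation π ≠ 0 := (Valuation.ne_zero_iff _).mpr hπ0
    have hvq := val_zeta_sub_one_pow (A := A) hζ hq
    have hlt : A.valuation π < 1 := by
      have h2 := val_prime_lt_one A hA
      by_contra hcon
      push Not at hcon
      rw [← hvq] at h2
      exact absurd h2 (not_lt.mpr (one_le_pow_of_one_le' hcon _))
    have hinj : ∀ {m n : ℤ}, A.valuation π ^ m = A.valuation π ^ n → m = n := fun h =>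
      (zpow_right_strictAnti₀ (zero_lt_iff.mpr hv0) hlt).injective h
    -- the values of the nonzero terms
    have hterm : ∀ i, a i ≠ 0 → ∃ n : ℤ, A.valuation (a i * π ^ i) =
        A.valuation π ^ ((q - 1 : ℕ) * n + i) := by
      intro i hi
      obtain ⟨n, hn⟩ := exists_valuation_eq_zpow hq hA (mem_K0_iff.mp (ha i)) hi
      refine ⟨n, ?_⟩
      rw [map_mul, hn, map_pow, ← hvq, zpow_add₀ hv0, zpow_mul, zpow_natCast, zpow_natCast]
    -- the maximal term
    have hne : (Finset.range (q - 1)).Nonempty := by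
      rw [Finset.nonempty_range_iff]
      have := hq.two_le
      omega
    obtain ⟨i₀, hi₀, hmax⟩ := Finset.exists_max_image (Finset.range (q - 1))
      (fun i => A.valuation (a i * π ^ i)) hne
    have hi₀0 : a i₀ ≠ 0 := by
      intro h
      apply hx0
      apply Finset.sum_eq_zero
      intro i hi
      have := hmax i hi
      rw [h, zero_mul, map_zero, le_zero_iff, Valuation.zero_iff] at this
      exact this
    have hlt' : ∀ i ∈ (Finset.range (q - 1)).erase i₀,
        A.valuation (a i * π ^ i) < A.valuation (a i₀ * π ^ i₀) := by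
      intro i hi
      rw [Finset.mem_erase] at hi
      refine lt_of_le_of_ne (hmax i hi.2) ?_
      intro heq
      have hi0 : a i ≠ 0 := by
        intro h
        rw [h, zero_mul, map_zero] at heq
        exact (Valuation.ne_zero_iff _).mpr (mul_ne_zero hi₀0 (pow_ne_zero _ hπ0)) heq.symm
      obtain ⟨n, hn⟩ := hterm i hi0
      obtain ⟨m, hm⟩ := hterm i₀ hi₀0
      rw [hn, hm] at heq
      have h1 := hinj heq
      have h2 : (i : ℤ) % ((q - 1 : ℕ) : ℤ) = (i₀ : ℤ) % ((q - 1 : ℕ) : ℤ) := by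
        have h3 := congrArg (fun z : ℤ => z % ((q - 1 : ℕ) : ℤ)) h1
        simpa [Int.add_emod] using h3
      have hia := Finset.mem_range.mp hi.2
      have hib := Finset.mem_range.mp hi₀
      rw [Int.emod_eq_of_lt (by positivity) (by exact_mod_cast hia),
        Int.emod_eq_of_lt (by positivity) (by exact_mod_cast hib)] at h2
      exact hi.1 (by exact_mod_cast h2)
    obtain ⟨n, hn⟩ := hterm i₀ hi₀0
    refine ⟨_, Eq.trans ?_ hn⟩
    rw [← Finset.add_sum_erase _ _ hi₀]
    apply Valuation.map_add_eq_of_lt_left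
    exact Valuation.map_sum_lt _
      ((Valuation.ne_zero_iff _).mpr (mul_ne_zero hi₀0 (pow_ne_zero _ hπ0))) hlt'

end Fermat.Agent.TriVal
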