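import Fermat.Agent.TriVal.UnitPoly
import Fermat.Agent.TriVal.K0Unif
import Fermat.Agent.X0Emb.LExp

/-!
# Values and reductions of the units `u₁`, `u₂` and of `δ`
-/

set_option autoImplicit false
set_option linter.unusedSectionVars false

noncomputable section

open ModularCurve Polynomial

namespace Fermat.Agent.TriMod

open Fermat.Agent.S28aux Fermat.Agent.Igusa Fermat.Agent.GaussVal Fermat.Agent.TriVal
open Fermat.Agent.X0Emb (twist twist_coeff twist_coeffMap)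
open Fermat.Agent.S36norm

/-! ### Twists -/

theorem twist_one {R : Type*} [CommRing R] (Y : LaurentSeries R) : twist (1 : Rˣ) Y = Y := by
  ext n; simp

section Twist

variable {K : Type*} [Field K] {A : ValuationSubring K}

theorem redS_twist {z : Aˣ} (hz : IsLocalRing.residue A (z : A) = 1) (Y : LaurentSeries A) :
    redS A (twist z Y) = redS A Y := by
  have h1 : Units.map ((IsLocalRing.residue A : A →+* IsLocalRing.ResidueField A) :
      A →* IsLocalRing.ResidueField A) z = 1 := Units.ext hz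
  have h2 := twist_coeffMap (IsLocalRing.residue A) z Y
  rw [h1, twist_one] at h2
  exact h2

theorem incl_twist (z : Aˣ) (Y : LaurentSeries A) :
    incl A (twist z Y) = twist (Units.map (A.subtype : A →* K) z) (incl A Y) :=
  twist_coeffMap A.subtype z Y

/-- `ζⁿ - 1 = (ζ - 1) gₙ` with `gₙ ≡ n`. -/
theorem exists_zpow_sub_one {z : Aˣ} (hz : IsLocalRing.residue A (z : A) = 1) (n : ℤ) :
    ∃ g : A, ((z ^ n : Aˣ) : A) - 1 = ((z : A) - 1) * g ∧ IsLocalRing.residue A g = n := by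
  have hnat : ∀ n : ℕ, ∃ g : A, ((z ^ n : Aˣ) : A) - 1 = ((z : A) - 1) * g ∧
      IsLocalRing.residue A g = n := by
    intro n
    refine ⟨∑ i ∈ Finset.range n, (z : A) ^ i, ?_, ?_⟩
    · rw [Units.val_pow_eq_pow_val, mul_comm]
      exact (geom_sum_mul (z : A) n).symm
    · rw [map_sum]
      simp [hz]
  obtain ⟨m, rfl | rfl⟩ := n.eq_nat_or_neg
  · obtain ⟨g, h1, h2⟩ := hnat m
    exact ⟨g, by rw [zpow_natCast]; exact h1, by rw [h2]; simp⟩
  · obtain ⟨g, h1, h2⟩ := hnat m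
    refine ⟨-(((z ^ m)⁻¹ : Aˣ) : A) * g, ?_, ?_⟩
    · rw [zpow_neg, zpow_natCast]
      have h3 : (((z ^ m)⁻¹ : Aˣ) : A) * ((z ^ m : Aˣ) : A) = 1 := Units.inv_mul _
      linear_combination (-(((z ^ m)⁻¹ : Aˣ) : A)) * h1 + h3
    · rw [map_mul, map_neg, h2]
      have h3 : IsLocalRing.residue A (((z ^ m)⁻¹ : Aˣ) : A) = 1 := by
        have h4 : IsLocalRing.residue A ((((z ^ m)⁻¹ : Aˣ) : A) * ((z ^ m : Aˣ) : A)) = 1 := by
          rw [Units.inv_mul, map_one]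
        rw [map_mul, Units.val_pow_eq_pow_val, map_pow, hz, one_pow, mul_one] at h4
        exact h4
      rw [h3]
      push_cast
      ring

/-- **`f(ζ t) - f(t) ≡ (ζ - 1) θ f`.** -/
theorem exists_twist_sub {z : Aˣ} (hz : IsLocalRing.residue A (z : A) = 1)
    (Y : LaurentSeries A) :
    ∃ Z : LaurentSeries A, incl A (twist z Y) - incl A Y =
      algebraMap K (LaurentSeries K) ((z : A) - 1 : A) * incl A Z ∧
        redS A Z = theta (redS A Y) := by
  choose g hg1 hg2 using exists_zpow_sub_one hz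
  refine ⟨⟨fun n => g n * Y.coeff n, Y.isPWO_support'.mono fun n hn => ?_⟩, ?_, ?_⟩
  · simp only [Function.mem_support, ne_eq] at hn ⊢
    intro h
    exact hn (by rw [h, mul_zero])
  · ext n
    rw [algebraMap_laurentSeries_eq_single, HahnSeries.coeff_sub, HahnSeries.coeff_single_zero_mul]
    simp only [coeffMap_coeff, twist_coeff]
    have h1 := hg1 n
    have h2 : ((((z ^ n : Aˣ) : A) - 1 : A) : K) = ((((z : A) - 1) * g n : A) : K) :=
      congrArg _ h1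
    push_cast at h2
    change ((((z ^ n : Aˣ) : A) * Y.coeff n : A) : K) - (Y.coeff n : K) =
      ((((z : A) - 1 : A)) : K) * ((g n * Y.coeff n : A) : K)
    push_cast
    linear_combination (Y.coeff n : K) * h2
  · ext n
    rw [theta_coeff]
    simp only [coeffMap_coeff]
    rw [map_mul, hg2]

end Twist


/-! ### The root of unity -/

section Zeta

variable {K : Type*} [Field K] {A : ValuationSubring K} {q : ℕ} [hq : Fact q.Prime]
  [CharP (IsLocalRing.ResidueField A) q]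

theorem exists_zU {ζ : Kˣ} (hζ : ζ ^ q = 1) :
    ∃ z : Aˣ, Units.map (A.subtype : A →* K) z = ζ ∧ IsLocalRing.residue A (z : A) = 1 := by
  have h1 : (ζ : K) ^ q = 1 := by rw [← Units.val_pow_eq_pow_val, hζ, Units.val_one]
  have h2 : (ζ : K) ∈ A := pow_mem_of_root h1 hq.out.pos
  set x : A := ⟨ζ, h2⟩ with hx
  have h3 : x ^ q = 1 := Subtype.ext h1
  have h4 : x * x ^ (q - 1) = 1 := by
    rw [← pow_succ', Nat.sub_add_cancel hq.out.pos, h3]
  refine ⟨⟨x, x ^ (q - 1), h4, by rw [mul_comm, h4]⟩, Units.ext rfl, ?_⟩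
  have h5 : (IsLocalRing.residue A x - 1) ^ q = 0 := by
    rw [sub_pow_char, one_pow, ← map_pow, h3, map_one, sub_self]
  exact sub_eq_zero.1 ((pow_eq_zero_iff hq.out.ne_zero).1 h5)

theorem exists_zeta_pow {ζ : Kˣ} (hζ : IsPrimitiveRoot (ζ : K) q) :
    ∃ a : A, ((ζ : K) - 1) ^ (12 * (q - 1)) = (q : K) ^ 12 * a ∧ IsLocalRing.residue A a = 1 := by
  have hζ' : ζ ^ q = 1 := Units.ext (by push_cast; exact hζ.pow_eq_one)
  obtain ⟨z, hz1, hz2⟩ := exists_zU (A := A) hζ'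
  obtain ⟨n, hn⟩ : ∃ n, q = n + 1 := ⟨q - 1, (Nat.sub_add_cancel hq.out.pos).symm⟩
  have hz3 : ((z : A) : K) = ζ := congrArg Units.val hz1
  set s : A := ∏ k ∈ Finset.range n, ∑ j ∈ Finset.range (k + 1), (z : A) ^ j with hs
  have h1 : (q : K) = (1 - (ζ : K)) ^ n * (s : K) := by
    have h2 := (hn ▸ hζ : IsPrimitiveRoot (ζ : K) (n + 1)).prod_one_sub_pow_eq_order
    have h3 : ∀ k ∈ Finset.range n, 1 - (ζ : K) ^ (k + 1) =
        (1 - (ζ : K)) * ∑ j ∈ Finset.range (k + 1), (ζ : K) ^ j := by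
      intro k _
      have := geom_sum_mul_neg (ζ : K) (k + 1)
      linear_combination -this
    rw [Finset.prod_congr rfl h3, Finset.prod_mul_distrib, Finset.prod_const,
      Finset.card_range] at h2
    rw [hs, hn]
    push_cast
    rw [← h2, ← hz3]
  have hres : IsLocalRing.residue A s = -1 := by
    rw [hs, map_prod]
    have h2 : ∀ k ∈ Finset.range n, IsLocalRing.residue A
        (∑ j ∈ Finset.range (k + 1), (z : A) ^ j) = ((k + 1 : ℕ) : IsLocalRing.ResidueField A) := by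
      intro k _
      rw [map_sum]
      simp [hz2]
    rw [Finset.prod_congr rfl h2, ← Nat.cast_prod, Finset.prod_range_add_one_eq_factorial]
    have h3 := ZMod.wilsons_lemma q
    have h4 := congrArg (ZMod.castHom (dvd_refl q) (IsLocalRing.ResidueField A)) h3
    rw [map_neg, map_one, map_natCast] at h4
    rw [← h4, hn, Nat.add_sub_cancel]
  have hsu : IsUnit s := by
    rw [← IsLocalRing.residue_ne_zero_iff_isUnit, hres]
    exact neg_ne_zero.2 one_ne_zero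
  obtain ⟨u, hu⟩ := hsu
  refine ⟨((u⁻¹ : Aˣ) : A) ^ 12, ?_, ?_⟩
  · have h5 : ((s : A) : K) * (((u⁻¹ : Aˣ) : A) : K) = 1 := by
      rw [← hu]
      exact congrArg (Subtype.val) (Units.mul_inv u)
    rw [hn, Nat.add_sub_cancel, mul_comm 12 n, pow_mul]
    have h6 : ((ζ : K) - 1) ^ n * ((ζ : K) - 1) ^ n = (1 - (ζ : K)) ^ n * (1 - (ζ : K)) ^ n := by
      rw [← mul_pow, ← mul_pow]; congr 1; ring
    have h7 : (((ζ : K) - 1) ^ n) ^ 12 = ((1 - (ζ : K)) ^ n) ^ 12 := by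
      rw [show (12 : ℕ) = 2 * 6 by norm_num, pow_mul, pow_mul _ 2 6, sq, sq, h6]
    rw [h7, ← hn]
    rw [h1]
    push_cast
    calc ((1 - (ζ : K)) ^ n) ^ 12 = ((1 - (ζ : K)) ^ n) ^ 12 * 1 ^ 12 := by ring
      _ = _ := by rw [← h5]; ring
  · have h5 : IsLocalRing.residue A s * IsLocalRing.residue A ((u⁻¹ : Aˣ) : A) = 1 := by
      rw [← map_mul, ← hu, Units.mul_inv, map_one]
    rw [hres] at h5
    have h6 : IsLocalRing.residue A ((u⁻¹ : Aˣ) : A) = -1 := by linear_combination -h5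
    rw [map_pow, h6]
    norm_num

end Zeta

/-! ### Units of `LaurentSeries R` -/

section Units

variable (R : Type*) [CommRing R] (q : ℕ) [NeZero q]

/-- `Δ(t)/Δ(t^q)` -/
def U : LaurentSeries R := deltaC R * qExpand R q (deltaInvC R)

/-- `Δ(t^q)/Δ(t)` -/
def Ui : LaurentSeries R := qExpand R q (deltaC R) * deltaInvC R

theorem U_mul_Ui : U R q * Ui R q = 1 := by
  have h1 := deltaC_mul_deltaInvC R
  have h2 := congrArg (qExpand R q) h1
  rw [map_mul, map_one] at h2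
  rw [U, Ui]
  linear_combination (deltaC R * deltaInvC R) * h2 + h1

variable {R} in
theorem coeffMap_U {S : Type*} [CommRing S] (f : R →+* S) : coeffMap f (U R q) = U S q := by
  rw [U, map_mul, coeffMap_deltaC, coeffMap_qExpand, coeffMap_deltaInvC, U]

variable {R} in
theorem coeffMap_Ui {S : Type*} [CommRing S] (f : R →+* S) : coeffMap f (Ui R q) = Ui S q := by
  rw [Ui, map_mul, coeffMap_deltaInvC, coeffMap_qExpand, coeffMap_deltaC, Ui]

theorem U_ne_zero (k : Type*) [Field k] : U k q ≠ 0 := left_ne_zero_of_mul_eq_one (U_mul_Ui k q)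

theorem Ui_ne_zero (k : Type*) [Field k] : Ui k q ≠ 0 := right_ne_zero_of_mul_eq_one (U_mul_Ui k q)

theorem Ui_eq_inv (k : Type*) [Field k] : Ui k q = (U k q)⁻¹ :=
  eq_inv_of_mul_eq_one_right (U_mul_Ui k q)

/-- `Δ(t^q)/Δ(ζ t)` -/
def T (z : Rˣ) : LaurentSeries R := qExpand R q (deltaC R) * twist z (deltaInvC R)

/-- `Δ(ζ t)/Δ(t^q)` -/
def Ti (z : Rˣ) : LaurentSeries R := qExpand R q (deltaInvC R) * twist z (deltaC R)

theorem T_mul_Ti (z : Rˣ) : T R q z * Ti R q z = 1 := by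
  have h1 := deltaC_mul_deltaInvC R
  have h2 := congrArg (qExpand R q) h1
  have h3 := congrArg (twist z) h1
  rw [map_mul, map_one] at h2 h3
  rw [T, Ti]
  linear_combination (twist z (deltaC R) * twist z (deltaInvC R)) * h2 + h3

end Units

section RedUnits

variable {K : Type*} [Field K] {A : ValuationSubring K} (q : ℕ) [NeZero q]

theorem redS_T {z : Aˣ} (hz : IsLocalRing.residue A (z : A) = 1) :
    redS A (T A q z) = Ui (IsLocalRing.ResidueField A) q := by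
  rw [T, map_mul, redS_twist hz, coeffMap_deltaInvC, coeffMap_qExpand, coeffMap_deltaC, Ui]

theorem redS_Ti {z : Aˣ} (hz : IsLocalRing.residue A (z : A) = 1) :
    redS A (Ti A q z) = U (IsLocalRing.ResidueField A) q := by
  rw [Ti, map_mul, redS_twist hz, coeffMap_deltaC, coeffMap_qExpand, coeffMap_deltaInvC, U, mul_comm]

theorem incl_T (z : Aˣ) : incl A (T A q z) = T K q (Units.map (A.subtype : A →* K) z) := by
  rw [T, map_mul, incl_twist, coeffMap_deltaInvC, coeffMap_qExpand, coeffMap_deltaC, T]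

end RedUnits

/-! ### The expansions -/

/-- The expansions of `δ`, `u₁`, `u₂` at the three cusps. -/
structure Expan {K F : Type*} [Field K] [Field F] (q : ℕ) [NeZero q] (ζ : Kˣ)
    (ι₀ ι₁ ι₂ : F →+* LaurentSeries K) (δ u₁ u₂ : F) : Prop where
  e₁_δ : ι₁ δ = twist ζ (jqModC K) - jqModC K
  e₀_u₁ : ι₀ u₁ = U K q
  e₁_u₁ : ι₁ u₁ = U K q
  e₂_u₁ : ι₂ u₁ = algebraMap K _ ((q : K) ^ 12) * qExpand K q (Ui K q)
  e₀_u₂ : ι₀ u₂ = qExpand K q (U K q)
  e₁_u₂ : ι₁ u₂ = algebraMap K _ ((q : K) ^ 12) * T K q ζ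
  e₂_u₂ : ι₂ u₂ = algebraMap K _ ((q : K) ^ 12) * Ui K q

section Values

variable {K : Type*} [Field K] [CharZero K] [Algebra.IsAlgebraic ℚ K] {A : ValuationSubring K}
  {F : Type*} [Field F] {q : ℕ} [hq : Fact q.Prime] [NeZero q]
  [CharP (IsLocalRing.ResidueField A) q] {ζ : Kˣ} {ι₀ ι₁ ι₂ : F →+* LaurentSeries K} {δ u₁ u₂ : F}
  (E : Expan q ζ ι₀ ι₁ ι₂ δ u₁ u₂) {L₀ L₁ : Subfield K}
  (hA : A.LiesOverPrime q) (h₀ : IsUnif A L₀ (q : K)) (h₁ : IsUnif A L₁ ((ζ : K) - 1))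
  (hι₀ : ∀ x, ι₀ x ∈ ratSer L₀) (hι₁ : ∀ x, ι₁ x ∈ ratSer L₁) (hι₂ : ∀ x, ι₂ x ∈ ratSer L₀)

include E

omit [CharZero K] [Algebra.IsAlgebraic ℚ K] [CharP (IsLocalRing.ResidueField A) q] in
theorem Expan.u₁_ne_zero : u₁ ≠ 0 := by
  rintro rfl
  exact U_ne_zero q K (E.e₀_u₁.symm.trans (map_zero _))

omit [CharZero K] [Algebra.IsAlgebraic ℚ K] [CharP (IsLocalRing.ResidueField A) q] in
theorem Expan.u₂_ne_zero : u₂ ≠ 0 := by
  rintro rfl
  exact (map_ne_zero_iff _ (qExpand_injective q)).2 (U_ne_zero q K)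
    (E.e₀_u₂.symm.trans (map_zero _))

/-! component 0 -/

theorem ord0_u₁ : (gdv hq.out hA h₀ ι₀ hι₀).ord u₁ = 0 :=
  gdv_ord_of_incl (Y := U A q) (by rw [E.e₀_u₁, coeffMap_U]) (by
    rw [coeffMap_U]; exact U_ne_zero q _)

theorem ord0_u₂ : (gdv hq.out hA h₀ ι₀ hι₀).ord u₂ = 0 :=
  gdv_ord_of_incl (Y := qExpand A q (U A q)) (by rw [E.e₀_u₂, coeffMap_qExpand, coeffMap_U]) (by
    rw [coeffMap_qExpand, coeffMap_U]
    exact (map_ne_zero_iff _ (qExpand_injective q)).2 (U_ne_zero q _))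

theorem red0_u₁ : (gdv hq.out hA h₀ ι₀ hι₀).red u₁ = U (IsLocalRing.ResidueField A) q := by
  rw [gdv_red_of_incl (Y := U A q) (by rw [E.e₀_u₁, coeffMap_U]), coeffMap_U]

theorem red0_U : (gdv hq.out hA h₀ ι₀ hι₀).red (u₂ / u₁) =
    qExpand _ q (U (IsLocalRing.ResidueField A) q) * Ui (IsLocalRing.ResidueField A) q := by
  rw [gdv_red_of_incl (Y := qExpand A q (U A q) * Ui A q) (by
    rw [map_div₀, E.e₀_u₁, E.e₀_u₂, map_mul, coeffMap_qExpand, coeffMap_U, coeffMap_Ui,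
      Ui_eq_inv, div_eq_mul_inv]), map_mul, coeffMap_qExpand, coeffMap_U, coeffMap_Ui]

/-! component 1 -/

theorem ord1_u₁ : (gdv hq.out hA h₁ ι₁ hι₁).ord u₁ = 0 :=
  gdv_ord_of_incl (Y := U A q) (by rw [E.e₁_u₁, coeffMap_U]) (by
    rw [coeffMap_U]; exact U_ne_zero q _)

theorem red1_u₁ : (gdv hq.out hA h₁ ι₁ hι₁).red u₁ = U (IsLocalRing.ResidueField A) q := by
  rw [gdv_red_of_incl (Y := U A q) (by rw [E.e₁_u₁, coeffMap_U]), coeffMap_U]

theorem ord1_u₂ (hζ : IsPrimitiveRoot (ζ : K) q) :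
    (gdv hq.out hA h₁ ι₁ hι₁).ord u₂ = 12 * ((q : ℤ) - 1) := by
  have hζ' : ζ ^ q = 1 := Units.ext (by push_cast; exact hζ.pow_eq_one)
  obtain ⟨z, hz1, hz2⟩ := exists_zU (A := A) hζ'
  apply gdv_ord
  rw [E.e₁_u₂, ← hz1, ← incl_T]
  refine hasOrd_algebraMap_mul_incl (pow_ne_zero _ (by exact_mod_cast hq.out.ne_zero)) ?_
    (by rw [redS_T q hz2]; exact Ui_ne_zero q _)
  have h1 := val_zeta_sub_one_pow (A := A) hζ hq.out
  have h2 : (12 * ((q : ℤ) - 1)) = ((12 * (q - 1) : ℕ) : ℤ) := by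
    push_cast [Nat.cast_sub hq.out.pos]; ring
  rw [h2, zpow_natCast, mul_comm 12, pow_mul, map_pow, hz1, h1]

theorem red1_u₂_div (hζ : IsPrimitiveRoot (ζ : K) q) :
    (gdv hq.out hA h₁ ι₁ hι₁).red (u₂ / (q : F) ^ 12) = Ui (IsLocalRing.ResidueField A) q := by
  have hζ' : ζ ^ q = 1 := Units.ext (by push_cast; exact hζ.pow_eq_one)
  obtain ⟨z, hz1, hz2⟩ := exists_zU (A := A) hζ'
  rw [gdv_red_of_incl (Y := T A q z), redS_T q hz2]
  rw [map_div₀, E.e₁_u₂, map_pow, map_natCast, incl_T, hz1, map_pow, map_natCast]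
  have hq0 : ((q : LaurentSeries K)) ^ 12 ≠ 0 := by
    rw [← map_natCast (algebraMap K (LaurentSeries K))]
    exact pow_ne_zero _ ((_root_.map_ne_zero _).2 (by exact_mod_cast hq.out.ne_zero))
  rw [mul_div_cancel_left₀ _ hq0]

theorem exists_δ (hζ : IsPrimitiveRoot (ζ : K) q) :
    ∃ Z : LaurentSeries A, ι₁ δ = algebraMap K (LaurentSeries K) ((ζ : K) - 1) * incl A Z ∧
      redS A Z = theta (jqModC (IsLocalRing.ResidueField A)) := by
  have hζ' : ζ ^ q = 1 := Units.ext (by push_cast; exact hζ.pow_eq_one)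
  obtain ⟨z, hz1, hz2⟩ := exists_zU (A := A) hζ'
  obtain ⟨Z, h1, h2⟩ := exists_twist_sub hz2 (jqModC A)
  refine ⟨Z, ?_, ?_⟩
  · rw [E.e₁_δ, ← hz1]
    rw [incl_twist, coeffMap_jqModC] at h1
    rw [h1]
    rfl
  · rw [h2, coeffMap_jqModC]

theorem ord1_δ (hζ : IsPrimitiveRoot (ζ : K) q) : (gdv hq.out hA h₁ ι₁ hι₁).ord δ = 1 := by
  obtain ⟨Z, h1, h2⟩ := exists_δ (A := A) E hζ
  apply gdv_ord
  rw [h1]
  refine hasOrd_algebraMap_mul_incl h₁.ne_zero (by rw [zpow_one]) ?_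
  rw [h2]
  exact theta_jq_ne_zero _

theorem red1_δ (hζ : IsPrimitiveRoot (ζ : K) q) :
    (gdv hq.out hA h₁ ι₁ hι₁).red (δ ^ (12 * (q - 1)) * (u₁ / u₂)) =
      theta (jqModC (IsLocalRing.ResidueField A)) ^ (12 * (q - 1)) *
        U (IsLocalRing.ResidueField A) q ^ 2 := by
  have hζ' : ζ ^ q = 1 := Units.ext (by push_cast; exact hζ.pow_eq_one)
  obtain ⟨z, hz1, hz2⟩ := exists_zU (A := A) hζ'
  obtain ⟨Z, h1, h2⟩ := exists_δ (A := A) E hζ
  obtain ⟨a, ha1, ha2⟩ := exists_zeta_pow (A := A) hζ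
  have hq0 : ((q : K)) ^ 12 ≠ 0 := pow_ne_zero _ (by exact_mod_cast hq.out.ne_zero)
  have hT : T K q ζ ≠ 0 := left_ne_zero_of_mul_eq_one (T_mul_Ti K q ζ)
  have hTi : (T K q ζ)⁻¹ = Ti K q ζ := inv_eq_of_mul_eq_one_right (T_mul_Ti K q ζ)
  have hTi' : incl A (Ti A q z) = Ti K q ζ := by
    rw [Ti, map_mul, incl_twist, coeffMap_deltaC, coeffMap_qExpand, coeffMap_deltaInvC, hz1, Ti]
  rw [gdv_red_of_incl (Y := HahnSeries.single (0 : ℤ) a * Z ^ (12 * (q - 1)) *
    (U A q * Ti A q z))]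
  · rw [map_mul, map_mul, map_mul, map_pow, h2, coeffMap_U, redS_Ti q hz2]
    have h3 : redS A (HahnSeries.single (0 : ℤ) a) = 1 := by
      rw [coeffMap_single, ha2]; rfl
    rw [h3, one_mul, sq]
  · rw [map_mul, map_pow, h1, map_div₀, E.e₁_u₁, E.e₁_u₂, mul_pow, ← map_pow, ha1, map_mul, map_mul,
      map_mul, map_mul, map_pow, coeffMap_U, hTi', ← hTi]
    have h3 : incl A (HahnSeries.single (0 : ℤ) a) = algebraMap K (LaurentSeries K) (a : K) := by
      rw [algebraMap_laurentSeries_eq_single, coeffMap_single]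
      rfl
    rw [h3, map_pow]
    have h4 : algebraMap K (LaurentSeries K) (q : K) ≠ 0 :=
      (_root_.map_ne_zero _).2 (by exact_mod_cast hq.out.ne_zero)
    field_simp

/-! component 2 -/

theorem ord2_u₁ : (gdv hq.out hA h₀ ι₂ hι₂).ord u₁ = 12 := by
  apply gdv_ord
  rw [E.e₂_u₁]
  have h1 : incl A (qExpand A q (Ui A q)) = qExpand K q (Ui K q) := by
    rw [coeffMap_qExpand, coeffMap_Ui]
  rw [← h1]
  refine hasOrd_algebraMap_mul_incl (pow_ne_zero _ h₀.ne_zero) ?_ ?_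
  · rw [map_pow]
    exact (zpow_natCast _ 12).symm
  · rw [coeffMap_qExpand, coeffMap_Ui]
    exact (map_ne_zero_iff _ (qExpand_injective q)).2 (Ui_ne_zero q _)

theorem ord2_u₂ : (gdv hq.out hA h₀ ι₂ hι₂).ord u₂ = 12 := by
  apply gdv_ord
  rw [E.e₂_u₂]
  have h1 : incl A (Ui A q) = Ui K q := coeffMap_Ui q _
  rw [← h1]
  refine hasOrd_algebraMap_mul_incl (pow_ne_zero _ h₀.ne_zero) ?_ ?_
  · rw [map_pow]
    exact (zpow_natCast _ 12).symm
  · rw [coeffMap_Ui]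
    exact Ui_ne_zero q _

theorem red2_div_u₁ : (gdv hq.out hA h₀ ι₂ hι₂).red ((q : F) ^ 12 / u₁) =
    qExpand _ q (U (IsLocalRing.ResidueField A) q) := by
  rw [gdv_red_of_incl (Y := qExpand A q (U A q)), coeffMap_qExpand, coeffMap_U]
  rw [map_div₀, E.e₂_u₁, map_pow, map_natCast, coeffMap_qExpand, coeffMap_U, map_pow, map_natCast,
    Ui_eq_inv, map_inv₀]
  have hq0 : ((q : LaurentSeries K)) ≠ 0 := by
    rw [← map_natCast (algebraMap K (LaurentSeries K))]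
    exact (_root_.map_ne_zero _).2 (by exact_mod_cast hq.out.ne_zero)
  field_simp

theorem red2_div_u₂ : (gdv hq.out hA h₀ ι₂ hι₂).red ((q : F) ^ 12 / u₂) =
    U (IsLocalRing.ResidueField A) q := by
  rw [gdv_red_of_incl (Y := U A q), coeffMap_U]
  rw [map_div₀, E.e₂_u₂, map_pow, map_natCast, coeffMap_U, map_pow, map_natCast, Ui_eq_inv]
  have hq0 : ((q : LaurentSeries K)) ≠ 0 := by
    rw [← map_natCast (algebraMap K (LaurentSeries K))]
    exact (_root_.map_ne_zero _).2 (by exact_mod_cast hq.out.ne_zero)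
  field_simp

end Values

/-! ### In terms of the polynomials -/

section Poly

variable {k : Type*} [Field k] {q : ℕ} [hq : Fact q.Prime] [NeZero q] [CharP k q] {Pu : k[X]}
  (hPu : aeval (jqModC k) Pu = deltaInvC k ^ (q - 1))

include hPu

theorem U_eq : U k q = aeval (jqModC k) Pu := by rw [hPu, U, unit_eq]

theorem Ui_eq : Ui k q = (aeval (jqModC k) Pu)⁻¹ := by rw [Ui_eq_inv, U_eq hPu]

theorem qExpand_U_eq : qExpand k q (U k q) = aeval (jqModC k) Pu ^ q := by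
  rw [U_eq hPu, hPu, map_pow, qExpand_deltaInvC, ← pow_mul, ← pow_mul, mul_comm]

theorem qExpand_U_mul_Ui : qExpand k q (U k q) * Ui k q = aeval (jqModC k) Pu ^ (q - 1) := by
  have h0 : aeval (jqModC k) Pu ≠ 0 := by rw [hPu]; exact pow_ne_zero _ (deltaInvC_ne_zero k)
  rw [qExpand_U_eq hPu, Ui_eq hPu]
  have h1 : aeval (jqModC k) Pu ^ q = aeval (jqModC k) Pu ^ (q - 1) * aeval (jqModC k) Pu := by
    rw [← pow_succ, Nat.sub_add_cancel hq.out.pos]
  rw [h1, mul_assoc, mul_inv_cancel₀ h0, mul_one]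

/-- Verschiebung on `ũ` -/
theorem qExpand_aeval_Pu : qExpand k q (aeval (jqModC k) Pu) = aeval (jqModC k) Pu ^ q := by
  rw [← qExpand_U_eq hPu, U_eq hPu]

theorem theta_mul_U_sq : theta (jqModC k) ^ (12 * (q - 1)) * U k q ^ 2 =
    aeval (jqModC k) (Qpol k) ^ (2 * (q - 1)) := by
  rw [U_eq hPu, theta_pow_mul q hPu]

end Poly

end Fermat.Agent.TriMod
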