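import Fermat.Agent.Igusa.UnitPoly
import Fermat.Agent.Igusa.Theta
import Fermat.Agent.TwoGauss.Frob
import Fermat.Agent.GaussVal.Modular

/-!
# `Δ^{1-q}` is a polynomial in `j` in characteristic `q`, and `(θ j)⁶ = Δ Q(j)`
-/

set_option autoImplicit false

noncomputable section

open ModularCurve Polynomial

namespace Fermat.Agent.TriMod

open Fermat.Agent.S28aux Fermat.Agent.Igusa

section Frob

variable (q : ℕ) [hq : Fact q.Prime] (k : Type*) [Field k] [CharP k q]

theorem qExpand_deltaC [NeZero q] : qExpand k q (deltaC k) = deltaC k ^ q := by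
  have h := Fermat.Agent.TEll.qExpand_coeffMap_frobenius q (deltaC k)
  rwa [coeffMap_deltaC] at h

theorem qExpand_deltaInvC [NeZero q] : qExpand k q (deltaInvC k) = deltaInvC k ^ q := by
  have h := Fermat.Agent.TEll.qExpand_coeffMap_frobenius q (deltaInvC k)
  rwa [coeffMap_deltaInvC] at h

omit [CharP k q] in
theorem deltaC_mul_pow : deltaC k * deltaInvC k ^ q = deltaInvC k ^ (q - 1) := by
  obtain ⟨p, hp⟩ : ∃ p, q = p + 1 := ⟨q - 1, by have := hq.out.pos; omega⟩
  rw [hp, pow_succ, Nat.add_sub_cancel, mul_comm (deltaInvC k ^ p), ← mul_assoc,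
    deltaC_mul_deltaInvC, one_mul]

theorem unit_eq [NeZero q] :
    deltaC k * qExpand k q (deltaInvC k) = deltaInvC k ^ (q - 1) := by
  rw [qExpand_deltaInvC, deltaC_mul_pow]

end Frob

/-- degree in `j` = order of pole. -/
theorem natDegree_of_aeval_jq {k : Type*} [Field k] {P : k[X]} {n : ℕ}
    (h : (aeval (jqModC k) P).order = -(n : ℤ)) (hP : P ≠ 0) : P.natDegree = n := by
  have hc : ∀ m, P.natDegree ≤ m → (aeval (jqModC k) P).coeff (-(m : ℤ)) = P.coeff m := by
    intro m hm
    have h1 := coeff_eval₂_jq P hm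
    rw [aeval_def]
    convert h1 using 3
    exact RingHom.ext fun a => algebraMap_laurentSeries_eq_single k a
  have h2 : (aeval (jqModC k) P).coeff (-(P.natDegree : ℤ)) ≠ 0 := by
    rw [hc _ le_rfl]
    exact leadingCoeff_ne_zero.2 hP
  have h3 : aeval (jqModC k) P ≠ 0 := by
    intro h0; rw [h0] at h2; exact h2 rfl
  apply le_antisymm
  · have := HahnSeries.order_le_of_coeff_ne_zero h2
    rw [h] at this
    omega
  · by_contra hlt
    push Not at hlt
    have h4 := hc n hlt.le
    rw [coeff_eq_zero_of_natDegree_lt hlt, ← h] at h4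
    exact coeff_order_ne h3 h4

theorem deltaInvC_ne_zero (k : Type*) [Field k] : deltaInvC k ≠ 0 := by
  rw [deltaInvC_eq]; exact inv_ne_zero (deltaC_ne_zero k)

/-- evaluation of polynomials at a Laurent series, as a ring homomorphism -/
def evJ {k : Type*} [Field k] (y : LaurentSeries k) : k[X] →+* LaurentSeries k :=
  ((aeval y : k[X] →ₐ[k] LaurentSeries k) : k[X] →+* LaurentSeries k)

theorem evJ_apply {k : Type*} [Field k] (y : LaurentSeries k) (P : k[X]) :
    evJ y P = aeval y P := rfl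

theorem coeffMap_comp_eval₂ (k : Type*) [Field k] (y : LaurentSeries ℤ) :
    (coeffMap (Int.castRingHom k)).comp
      (eval₂RingHom (Int.castRingHom (LaurentSeries ℤ)) y) =
      (evJ (coeffMap (Int.castRingHom k) y)).comp (mapRingHom (Int.castRingHom k)) := by
  refine Polynomial.ringHom_ext' (RingHom.ext_int _ _) ?_
  simp [evJ]

theorem evJ_qExpand {k : Type*} [Field k] (q : ℕ) [NeZero q] (y : LaurentSeries k) :
    evJ (qExpand k q y) = (qExpand k q).comp (evJ y) := by
  refine Polynomial.ringHom_ext' ?_ ?_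
  · ext a : 1
    simp only [evJ, RingHom.comp_apply, RingHom.coe_coe, aeval_C]
    exact ((qExpandAlgHomC k q).commutes a).symm
  · simp [evJ]

/-- the reduction mod `q` of the modular unit polynomial. -/
theorem exists_reduction (q : ℕ) [hq : Fact q.Prime] [NeZero q] (k : Type*) [Field k] [CharP k q] :
    ∃ H' : k[X][X], H'.Monic ∧ H'.natDegree = q ∧
      H'.eval₂ (evJ (qExpand k q (jqModC k))) (deltaInvC k ^ (q - 1)) = 0 := by
  obtain ⟨H, hmon, hdeg, hr1, hr2⟩ := modUnitPoly q
  set c : ℤ →+* k := Int.castRingHom k with hc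
  set Hb : k[X][X] := H.map (mapRingHom c) with hHb
  have hHm : Hb.Monic := hmon.map _
  have hHd : Hb.natDegree = q + 1 := by rw [hHb, hmon.natDegree_map, hdeg]
  have e1 : Hb.eval₂ (evJ (jqModC k)) 0 = 0 := by
    have h := congrArg (coeffMap c) hr1
    rw [map_zero, Polynomial.hom_eval₂, coeffMap_comp_eval₂, coeffMap_jqModC, map_mul, map_pow,
      map_natCast, ← Polynomial.eval₂_map] at h
    have hq0 : ((q : LaurentSeries k)) = 0 := by
      rw [← map_natCast (algebraMap k (LaurentSeries k)), CharP.cast_eq_zero, map_zero]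
    rw [hq0, zero_pow (by norm_num), zero_mul] at h
    exact h
  have e2 : Hb.eval₂ (evJ (qExpand k q (jqModC k))) (deltaInvC k ^ (q - 1)) = 0 := by
    have h := congrArg (coeffMap c) hr2
    rw [map_zero, Polynomial.hom_eval₂, coeffMap_comp_eval₂, coeffMap_qExpand, coeffMap_jqModC,
      map_mul, coeffMap_deltaC, coeffMap_qExpand, coeffMap_deltaInvC, unit_eq q k,
      ← Polynomial.eval₂_map] at h
    exact h
  have e3 : Hb.coeff 0 = 0 := by
    rw [Polynomial.eval₂_at_zero] at e1
    exact (transcendental_iff.1 (Fermat.Agent.GaussVal.transcendental_jqModC k)) _ e1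
  have e4 : Hb.divX * X = Hb := by
    have := divX_mul_X_add Hb
    rwa [e3, C_0, add_zero] at this
  have hH'd : Hb.divX.natDegree = q := by
    rw [natDegree_divX_eq_natDegree_tsub_one, hHd]; rfl
  have hH'm : Hb.divX.Monic := by
    rw [Monic, Polynomial.leadingCoeff, hH'd, coeff_divX, ← hHd]
    exact hHm
  have hx0 : deltaInvC k ^ (q - 1) ≠ 0 := pow_ne_zero _ (deltaInvC_ne_zero k)
  refine ⟨Hb.divX, hH'm, hH'd, ?_⟩
  rw [← e4, eval₂_mul, eval₂_X] at e2
  exact (mul_eq_zero.1 e2).resolve_right hx0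

theorem not_dvd_order (q : ℕ) [hq : Fact q.Prime] (k : Type*) [Field k] :
    ¬ (q : ℤ) ∣ (deltaInvC k ^ (q - 1)).order := by
  have hq0 := hq.out.pos
  rw [HahnSeries.order_pow, order_deltaInvC]
  intro h
  have h1 : (q : ℤ) ∣ 1 := by
    have h2 : (q : ℤ) ∣ (q - 1 : ℕ) • (-1 : ℤ) + q := dvd_add h (dvd_refl _)
    rw [nsmul_eq_mul, Nat.cast_sub hq0] at h2
    have h3 : ((q : ℤ) - ((1 : ℕ) : ℤ)) * -1 + q = 1 := by push_cast; ring
    rwa [h3] at h2
  have h2 := Int.le_of_dvd one_pos h1
  have := hq.out.two_le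
  omega

/-- **`Δ^{1-q}` is a polynomial of degree `q - 1` in `j`** in characteristic `q`. -/
theorem exists_Pu (q : ℕ) [hq : Fact q.Prime] (k : Type*) [Field k] [CharP k q] :
    ∃ Pu : k[X], Pu.natDegree = q - 1 ∧ Pu ≠ 0 ∧
      aeval (jqModC k) Pu = deltaInvC k ^ (q - 1) := by
  have _ : NeZero q := ⟨hq.out.ne_zero⟩
  obtain ⟨H', hH'm, hH'd, e5⟩ := exists_reduction q k
  have hx0 : deltaInvC k ^ (q - 1) ≠ 0 := pow_ne_zero _ (deltaInvC_ne_zero k)
  have hq0 := hq.out.pos
  set D : (LaurentSeries k)[X] :=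
    H'.map (evJ (jqModC k)) - (X ^ q - Polynomial.C (deltaInvC k ^ (q - 1))) with hD
  have hm1 : (H'.map (evJ (jqModC k))).Monic := hH'm.map _
  have hd1 : (H'.map (evJ (jqModC k))).natDegree = q := by rw [hH'm.natDegree_map, hH'd]
  have hm2 : (X ^ q - Polynomial.C (deltaInvC k ^ (q - 1)) : (LaurentSeries k)[X]).Monic :=
    monic_X_pow_sub_C _ hq0.ne'
  have hd2 : (X ^ q - Polynomial.C (deltaInvC k ^ (q - 1)) :
      (LaurentSeries k)[X]).natDegree = q := natDegree_X_pow_sub_C
  have hDlt : D = 0 ∨ D.natDegree < q := by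
    by_cases h0 : D = 0
    · exact Or.inl h0
    right
    have h1 : (H'.map (evJ (jqModC k))).degree =
        (X ^ q - Polynomial.C (deltaInvC k ^ (q - 1)) : (LaurentSeries k)[X]).degree := by
      rw [degree_eq_natDegree hm1.ne_zero, degree_eq_natDegree hm2.ne_zero, hd1, hd2]
    have h2 := Polynomial.degree_sub_lt_left h1 hm1.ne_zero (by rw [hm1, hm2])
    rw [degree_eq_natDegree hm1.ne_zero, hd1, degree_eq_natDegree h0] at h2
    exact_mod_cast h2
  have hD0 : D = 0 := by
    rcases hDlt with h | h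
    · exact h
    refine eq_zero_of_eval_eq_zero q D h hx0 (not_dvd_order q k) ?_
    rw [hD, Polynomial.map_sub, eval_sub, Polynomial.map_map, ← evJ_qExpand, eval_map, e5,
      Polynomial.map_sub, Polynomial.map_pow, map_X, map_C, eval_sub, eval_pow, eval_X,
      eval_C, map_pow, qExpand_deltaInvC, ← pow_mul, ← pow_mul, mul_comm, sub_self, sub_zero]
  have e6 : evJ (jqModC k) (H'.coeff 0) = -(deltaInvC k ^ (q - 1)) := by
    have h1 := congrArg (fun P => Polynomial.coeff P 0) hD0
    simp only [hD, coeff_sub, coeff_map, coeff_X_pow, Polynomial.coeff_zero, coeff_C_zero] at h1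
    rw [if_neg hq0.ne, zero_sub, sub_neg_eq_add] at h1
    exact eq_neg_of_add_eq_zero_left h1
  have e7 : aeval (jqModC k) (-H'.coeff 0) = deltaInvC k ^ (q - 1) := by
    have : aeval (jqModC k) (H'.coeff 0) = -(deltaInvC k ^ (q - 1)) := e6
    rw [map_neg, this, neg_neg]
  have hP0 : -H'.coeff 0 ≠ 0 := by
    intro h
    rw [h, map_zero] at e7
    exact hx0 e7.symm
  refine ⟨-H'.coeff 0, natDegree_of_aeval_jq ?_ hP0, hP0, e7⟩
  rw [e7, HahnSeries.order_pow, order_deltaInvC]
  simp

section Q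

variable (k : Type*) [Field k]

/-- the polynomial `X⁴ (X - 1728)³`. -/
def Qpol : k[X] := X ^ 4 * (X - Polynomial.C 1728) ^ 3

theorem natDegree_Qpol : (Qpol k).natDegree = 7 := by
  rw [Qpol, Polynomial.natDegree_mul (pow_ne_zero _ X_ne_zero) (pow_ne_zero _ (X_sub_C_ne_zero _)),
    natDegree_pow, natDegree_pow, natDegree_X, natDegree_X_sub_C]

theorem theta_pow_six : theta (jqModC k) ^ 6 = deltaC k * aeval (jqModC k) (Qpol k) := by
  rw [theta_jq_pow_six, Qpol, map_mul, map_pow, map_pow, map_sub, aeval_X, aeval_C, mul_assoc]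
  congr 4
  rw [map_ofNat]

/-- the combined identity at the middle component -/
theorem theta_pow_mul (q : ℕ) {k : Type*} [Field k] {Pu : k[X]}
    (hPu : aeval (jqModC k) Pu = deltaInvC k ^ (q - 1)) :
    theta (jqModC k) ^ (12 * (q - 1)) * aeval (jqModC k) Pu ^ 2 =
      aeval (jqModC k) (Qpol k) ^ (2 * (q - 1)) := by
  rw [hPu, show 12 * (q - 1) = 6 * (2 * (q - 1)) by ring, pow_mul, theta_pow_six, mul_pow,
    ← pow_mul, mul_comm (q - 1) 2, mul_right_comm, ← mul_pow, deltaC_mul_deltaInvC, one_pow,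
    one_mul]

end Q

end Fermat.Agent.TriMod
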