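import Fermat.Agent.TriVal.K0Unif
import Fermat.Agent.TriVal.Base
import Fermat.Agent.TriComp.Exhaust
import Fermat.Agent.Igusa.Degree
import Fermat.Agent.S18.Main

/-!
# The function field of `X₀(m)` over `K₀`, good reduction

`A` a place of `ℚ̄` above `q`, `L` a field with an embedding `L → ℚ̄` whose image is the fixed field
`K₀` of the inertia group of `A`, `A₀ = A ∩ L`.
The Gauss valuation of the function field of `X₀(m)` over `L`: discrete with uniformizer `q`,
residue field the function field over the residue field, orthonormal bases.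
-/

set_option autoImplicit false

noncomputable section

open ModularCurve HahnSeries Module Polynomial
open scoped IntermediateField
open Fermat.Agent.GaussVal Fermat.Agent.LocE Fermat.Agent.TriVal Fermat.Agent.S36norm
open Fermat.Agent.TriComp Fermat.Agent.TwoComp

namespace Fermat.Agent.TriGlue

/-- `L` is (isomorphic to) the fixed field of the inertia group of `A` -/
def IsK0 (A : ValuationSubring Qb) (L : Type*) [Field L] [Algebra L Qb] : Prop :=
  ∀ x : Qb, x ∈ Set.range (algebraMap L Qb) ↔ x ∈ K0 A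

theorem isK0_K0 (A : ValuationSubring Qb) : IsK0 A (K0 A) := fun x =>
  ⟨fun ⟨y, hy⟩ => hy ▸ y.2, fun h => ⟨⟨x, h⟩, rfl⟩⟩

section A0

variable (A : ValuationSubring Qb) (L : Type*) [Field L] [Algebra L Qb]

/-- `A ∩ L` -/
def A0 : ValuationSubring L := A.comap (algebraMap L Qb)

variable {A L}

theorem mem_A0 {a : L} : a ∈ A0 A L ↔ algebraMap L Qb a ∈ A := Iff.rfl

variable (A L) in
/-- the inclusion `A ∩ L → A` -/
def A0incl : A0 A L →+* A where
  toFun a := ⟨algebraMap L Qb (a : L), a.2⟩
  map_one' := Subtype.ext (map_one (algebraMap L Qb))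
  map_mul' _ _ := Subtype.ext (map_mul (algebraMap L Qb) _ _)
  map_zero' := Subtype.ext (map_zero (algebraMap L Qb))
  map_add' _ _ := Subtype.ext (map_add (algebraMap L Qb) _ _)

@[simp] theorem coe_A0incl (a : A0 A L) : (A0incl A L a : Qb) = algebraMap L Qb (a : L) := rfl

variable (A L) in
/-- the residue map of `A ∩ L` -/
def res0 : A0 A L →+* IsLocalRing.ResidueField A := (IsLocalRing.residue A).comp (A0incl A L)

theorem res0_apply (a : A0 A L) : res0 A L a = IsLocalRing.residue A (A0incl A L a) := rfl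

variable {q : ℕ} (hq : q.Prime) (hA : A.LiesOverPrime q) (hL : IsK0 A L)

include hq hA hL in
theorem res0_surj : Function.Surjective (res0 A L) := by
  intro y
  obtain ⟨a, rfl⟩ := IsLocalRing.residue_surjective y
  obtain ⟨x, hxA, hx, hxa⟩ := exists_fixed_sub_mem_nonunits hq hA a.2
  obtain ⟨z, rfl⟩ := (hL x).mpr (mem_K0_iff.mpr hx)
  refine ⟨⟨z, hxA⟩, ?_⟩
  rw [res0_apply, eq_comm, ← sub_eq_zero, ← map_sub, IsLocalRing.residue_eq_zero_iff]
  exact (A.valuation_lt_one_iff _).mpr hxa

theorem mem_nonunits_A0 {a : L} : a ∈ (A0 A L).nonunits ↔ algebraMap L Qb a ∈ A.nonunits := by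
  rw [ValuationSubring.mem_nonunits_iff_or, ValuationSubring.mem_nonunits_iff_or, map_eq_zero,
    mem_A0, map_inv₀]

theorem res0_eq_zero_iff (a : A0 A L) : res0 A L a = 0 ↔ (a : L) ∈ (A0 A L).nonunits := by
  rw [res0_apply, IsLocalRing.residue_eq_zero_iff, mem_nonunits_A0]
  exact (A.valuation_lt_one_iff _)

include hq hA hL in
theorem mem_nonunits_iff (a : L) : a ∈ (A0 A L).nonunits ↔ a / (q : L) ∈ A0 A L := by
  rw [mem_nonunits_A0, mem_A0]
  rcases eq_or_ne a 0 with rfl | h0
  · simp
  · have h0' : algebraMap L Qb a ≠ 0 := (_root_.map_ne_zero _).mpr h0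
    have hU := isUnif_K0 (A := A) hq hA
    obtain ⟨n, hn⟩ := hU.exists_zpow (algebraMap L Qb a) ((hL _).mp ⟨a, rfl⟩) h0'
    have hv0 : A.valuation ((q : ℕ) : Qb) ≠ 0 := (Valuation.ne_zero_iff _).mpr hU.ne_zero
    rw [map_div₀, map_natCast, ValuationSubring.mem_nonunits_iff,
      ← ValuationSubring.valuation_le_one_iff, map_div₀, hn, div_eq_mul_inv, ← zpow_sub_one₀ hv0,
      hU.zpow_le_one_iff]
    have h2 : A.valuation ((q : ℕ) : Qb) ^ n < 1 ↔ 0 < n := by
      have := (zpow_right_strictAnti₀ (zero_lt_iff.mpr hv0) hU.lt_one).lt_iff_gt (a := n) (b := 0)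
      rwa [zpow_zero] at this
    rw [h2]
    omega

end A0

section LevelM

variable {A : ValuationSubring Qb} {L : Type*} [Field L] [Algebra L Qb]
  {q : ℕ} (hq : q.Prime) (hA : A.LiesOverPrime q) (hL : IsK0 A L)

variable (L) in
/-- the `q`-expansion in `ℚ̄((t))` of an element of the function field over `L` -/
def iota0 (m : ℕ) : modularFunctionFieldFullC L m →+* LaurentSeries Qb :=
  (coeffMap (algebraMap L Qb)).comp
    (algebraMap (modularFunctionFieldFullC L m) (LaurentSeries L))

theorem iota0_apply {m : ℕ} (x : modularFunctionFieldFullC L m) :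
    iota0 L m x = coeffMap (algebraMap L Qb) (x : LaurentSeries L) := rfl

theorem iota0_algebraMap {m : ℕ} (c : L) :
    iota0 L m (algebraMap L _ c) = algebraMap Qb (LaurentSeries Qb) (algebraMap L Qb c) :=
  coeffMap_algebraMap' _ _ c

include hL in
theorem iota0_mem {m : ℕ} (x : modularFunctionFieldFullC L m) :
    iota0 L m x ∈ ratSer (K0 A).toSubfield := by
  rw [iota0_apply]
  obtain ⟨x, hx⟩ := x
  change coeffMap (algebraMap L Qb) x ∈ _
  rw [modularFunctionFieldFullC] at hx
  induction hx using IntermediateField.adjoin_induction with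
  | mem y hy =>
    obtain ⟨d, hne, hd, rfl⟩ := hy
    rw [coeffMap_qExpand, coeffMap_jqModC]
    exact jqd_mem_ratSer d
  | algebraMap c =>
    rw [coeffMap_algebraMap']
    exact algebraMap_mem_ratSer ((hL _).mp ⟨c, rfl⟩)
  | add y z _ _ hy hz => rw [map_add]; exact add_mem hy hz
  | mul y z _ _ hy hz => rw [map_mul]; exact mul_mem hy hz
  | inv y _ hy => rw [map_inv₀]; exact inv_mem hy

/-- the Gauss valuation of the function field of `X₀(m)` over `L` -/
def vm (m : ℕ) : DV (modularFunctionFieldFullC L m)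
    (LaurentSeries (IsLocalRing.ResidueField A)) :=
  gdv hq hA (isUnif_K0 hq hA) (iota0 L m) (iota0_mem hL)

theorem mem_vm {m : ℕ} {x : modularFunctionFieldFullC L m} :
    x ∈ (vm hq hA hL m).O ↔ iota0 L m x ∈ gaussSubring A := Iff.rfl

theorem vm_red {m : ℕ} {x : modularFunctionFieldFullC L m}
    (hx : iota0 L m x ∈ gaussSubring A) : (vm hq hA hL m).red x = gaussRed A ⟨_, hx⟩ :=
  gdv_red_eq hx

theorem vm_ord_q (m : ℕ) : (vm hq hA hL m).ord (algebraMap L _ (q : L)) = 1 :=
  gdv_ord_of_algebraMap (iota0_algebraMap (q : L)) (by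
      rw [map_natCast]
      exact_mod_cast hq.ne_zero) (by rw [zpow_one, map_natCast])

/-- the data of one Gauss valuation -/
def preM (m : ℕ) : Pre L (modularFunctionFieldFullC L m) (IsLocalRing.ResidueField A)
    (LaurentSeries (IsLocalRing.ResidueField A)) Unit where
  A := A0 A L
  res := res0 A L
  res_surj := res0_surj hq hA hL
  res_eq_zero_iff := res0_eq_zero_iff
  ϖ := (q : L)
  ϖ_ne_zero := by
    have : CharZero L := (algebraMap L Qb).charZero
    exact_mod_cast hq.ne_zero
  mem_nonunits_iff := mem_nonunits_iff hq hA hL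
  v _ := vm hq hA hL m
  mem_vO _ a ha := (mem_gdv_algebraMap (iota0_algebraMap a)).mpr ha
  red_algebraMap _ a := gdv_red_algebraMap (iota0_algebraMap (a : L)) a.2
  exists_unif _ := ⟨algebraMap L _ (q : L), by
      have : CharZero L := (algebraMap L Qb).charZero
      rw [map_ne_zero_iff _ (algebraMap L _).injective]
      exact_mod_cast hq.ne_zero,
    vm_ord_q hq hA hL m⟩
  ne i j h := absurd (Subsingleton.elim i j) h

/-- reduction of an element with expansion `j(q^d)` -/
theorem vm_jd {m : ℕ} {d : ℕ} [NeZero d] {x : modularFunctionFieldFullC L m}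
    (hx : (x : LaurentSeries L) = qExpand L d (jqModC L)) :
    (vm hq hA hL m).ord x = 0 ∧ (vm hq hA hL m).red x =
      qExpand (IsLocalRing.ResidueField A) d (jqModC (IsLocalRing.ResidueField A)) := by
  have h1 : iota0 L m x = incl A (qExpand A d (jqModC A)) := by
    rw [iota0_apply, hx, coeffMap_qExpand, coeffMap_jqModC]
    change _ = coeffMap A.subtype (qExpand A d (jqModC A))
    rw [coeffMap_qExpand, coeffMap_jqModC]
  have h2 : redS A (qExpand A d (jqModC A)) =
      qExpand (IsLocalRing.ResidueField A) d (jqModC (IsLocalRing.ResidueField A)) := by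
    change coeffMap (IsLocalRing.residue A) (qExpand A d (jqModC A)) = _
    rw [coeffMap_qExpand, coeffMap_jqModC]
  refine ⟨gdv_ord_of_incl h1 ?_, ?_⟩
  · rw [h2]
    intro h0
    have h3 : jqModC (IsLocalRing.ResidueField A) = 0 := by
      apply qExpand_injective d
      rw [h0, map_zero]
    have h4 := transcendental_jqModC (IsLocalRing.ResidueField A)
    rw [h3] at h4
    exact h4 isAlgebraic_zero
  · refine (gdv_red_of_incl h1).trans h2

/-- every element of the function field over the residue field is a reduction -/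
theorem vm_surj (m : ℕ) (z : modularFunctionFieldFullC (IsLocalRing.ResidueField A) m) :
    ∃ f ∈ (vm hq hA hL m).O, (vm hq hA hL m).red f = z := by
  obtain ⟨z, hz⟩ := z
  change ∃ f ∈ (vm hq hA hL m).O, (vm hq hA hL m).red f = z
  rw [modularFunctionFieldFullC] at hz
  induction hz using IntermediateField.adjoin_induction with
  | mem y hy =>
    obtain ⟨d, hne, hd, rfl⟩ := hy
    let x : modularFunctionFieldFullC L m := ⟨qExpand L d (jqModC L), jqModCd_mem_full L m hd⟩
    have h := vm_jd hq hA hL (x := x) (d := d) rfl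
    have hx0 : x ≠ 0 := by
      intro h0
      have h3 : jqModC L = 0 := by
        apply qExpand_injective d
        rw [map_zero]
        exact congrArg Subtype.val h0
      have h4 := transcendental_jqModC L
      rw [h3] at h4
      exact h4 isAlgebraic_zero
    exact ⟨x, (vm hq hA hL m).mem_of_ord_eq_zero hx0 h.1, h.2⟩
  | algebraMap c =>
    obtain ⟨a, rfl⟩ := res0_surj hq hA hL c
    exact ⟨_, (preM hq hA hL m).mem_vO () _ a.2, (preM hq hA hL m).red_algebraMap () a⟩
  | add y z _ _ hy hz =>
    obtain ⟨f, hf, rfl⟩ := hy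
    obtain ⟨g, hg, rfl⟩ := hz
    exact ⟨f + g, add_mem hf hg, (vm hq hA hL m).red_add hf hg⟩
  | mul y z _ _ hy hz =>
    obtain ⟨f, hf, rfl⟩ := hy
    obtain ⟨g, hg, rfl⟩ := hz
    exact ⟨f * g, mul_mem hf hg, (vm hq hA hL m).red_mul hf hg⟩
  | inv y _ hy =>
    obtain ⟨f, hf, rfl⟩ := hy
    rcases eq_or_ne ((vm hq hA hL m).red f) 0 with h0 | h0
    · exact ⟨0, zero_mem _, by rw [h0, inv_zero, DV.red_zero]⟩
    · have hf0 : f ≠ 0 := by
        rintro rfl
        exact h0 (DV.red_zero _)
      have h1 := ((vm hq hA hL m).red_ne_zero_iff hf0 hf).mp h0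
      exact ⟨f⁻¹, (vm hq hA hL m).inv_mem_of_ord_eq_zero hf0 h1, (vm hq hA hL m).red_inv hf0 h1⟩

theorem tr_jm (k : Type*) [Field k] (m : ℕ) :
    Transcendental k (⟨jqModC k, jqModC_mem_full k m⟩ : modularFunctionFieldFullC k m) :=
  transcendental_jEl k (modularFunctionFieldFullC k m) m rfl

theorem exists_indepM (k : Type*) [Field k] (m : ℕ) (h2 : S18aux.DegThm k m) :
    ∃ y : Fin (dedekindPsi m) → modularFunctionFieldFullC k m,
      IndepPoly (k := k) (⟨jqModC k, jqModC_mem_full k m⟩ : modularFunctionFieldFullC k m) y :=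
  IndepPoly.exists_of_finrank (tr_jm k m) h2

/-- exhaustion data at level `m` -/
def exhM (m : ℕ) (hm : m ≠ 0) (h1 : S18aux.DegThm L m)
    (h2 : S18aux.DegThm (IsLocalRing.ResidueField A) m) :
    Exh (preM hq hA hL m) (modularFunctionFieldFullC (IsLocalRing.ResidueField A) m) where
  x := ⟨jqModC L, jqModC_mem_full L m⟩
  x_ne_zero h := by
    have h4 := transcendental_jqModC L
    rw [show jqModC L = 0 from congrArg Subtype.val h] at h4
    exact h4 isAlgebraic_zero
  ord_x _ := (vm_jd hq hA hL (d := 1) (qExpand_one_apply _).symm).1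
  t _ := ⟨jqModC _, jqModC_mem_full _ m⟩
  red_x _ := (vm_jd hq hA hL (d := 1) (qExpand_one_apply _).symm).2.trans (qExpand_one_apply _)
  tr _ := tr_jm _ m
  surj _ := vm_surj hq hA hL m
  m _ := dedekindPsi m
  y _ := (exists_indepM _ m h2).choose
  ind _ := (exists_indepM _ m h2).choose_spec
  finrank_pos := by
    rw [h1]
    exact S18aux.dedekindPsi_pos hm
  finrank_le := by
    rw [h1, Finset.univ_unique, Finset.sum_singleton]
    exact Nat.le_mul_of_pos_left _ ((preM hq hA hL m).e_pos _)

end LevelM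

end Fermat.Agent.TriGlue
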