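import Fermat.Agent.TriVal.Kz
import Fermat.Agent.TriVal.GaussDV
import Fermat.Agent.TriGauss.E1
import Fermat.Agent.TriGauss.AL
import Fermat.Agent.Igusa.Degree

/-!
# The three expansions of the function field of `X₀(q² m)` over `K₀`
-/

set_option autoImplicit false

noncomputable section

open ModularCurve HahnSeries Module

namespace Fermat.Agent.TriVal

open Fermat.Agent.GaussVal Fermat.Agent.S36norm Fermat.Agent.LocE
open Fermat.Agent.TwoGauss (Dv FB jdB coeffMap_jd)
open Fermat.Agent.X0Emb (twist twist_coeff)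
open Fermat.Agent.TriGauss (S1)

/-! ### Expansions with coefficients in a smaller field -/

section Rat

variable {L₀ K : Type*} [Field L₀] [Field K] {N : ℕ} {L : Subfield K}

/-- a ring homomorphism from the function field to `K((q))` takes values in `ratSer L` if it
does so on constants and on the `j_d`. -/
theorem mem_ratSer_of_gens (ι : modularFunctionFieldFullC L₀ N →+* LaurentSeries K)
    (hc : ∀ c : L₀, ι (algebraMap L₀ _ c) ∈ ratSer L)
    (hj : ∀ (d : ℕ) (_ : NeZero d) (hd : d ∣ N), ι (jd L₀ N d hd) ∈ ratSer L)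
    (x : modularFunctionFieldFullC L₀ N) : ι x ∈ ratSer L := by
  let T : IntermediateField L₀ (modularFunctionFieldFullC L₀ N) :=
    { (ratSer L).comap ι with algebraMap_mem' := fun c => hc c }
  have h1 : IntermediateField.adjoin L₀ (Igusa.genSet L₀ N) ≤ T := by
    rw [IntermediateField.adjoin_le_iff]
    rintro y ⟨d, hne, hd, hy⟩
    have h2 : y = jd L₀ N d hd := Subtype.ext hy
    rw [h2]
    exact hj d hne hd
  rw [Igusa.adjoin_genSet] at h1
  exact h1 (IntermediateField.mem_top (F := L₀))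

end Rat

section Twist

variable {K : Type*} [Field K] {L : Subfield K}

/-- the part of a series with exponents `≡ r mod q` -/
def resPart (q : ℕ) (r : ℤ) (Y : LaurentSeries ℤ) : LaurentSeries ℤ where
  coeff n := if n % q = r then Y.coeff n else 0
  isPWO_support' := Y.isPWO_support.mono fun n hn => by
    simp only [Function.mem_support, ne_eq, HahnSeries.mem_support] at hn ⊢
    intro h
    apply hn
    split_ifs
    · exact h
    · rfl

theorem twist_eq_sum {q : ℕ} (hq : 0 < q) {ζ : Kˣ} (hζ : ζ ^ q = 1) (Y : LaurentSeries ℤ) :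
    twist ζ (coeffMap (Int.castRingHom K) Y) = ∑ r ∈ Finset.range q,
      algebraMap K (LaurentSeries K) ((ζ : K) ^ r) *
        coeffMap (Int.castRingHom K) (resPart q r Y) := by
  ext n
  rw [twist_coeff, HahnSeries.coeff_sum]
  simp only [coeff_algebraMap_mul, coeffMap_coeff, resPart]
  have hq' : (0 : ℤ) < q := by exact_mod_cast hq
  obtain ⟨r, hr⟩ := Int.eq_ofNat_of_zero_le (Int.emod_nonneg n hq'.ne')
  have hrq : r < q := by
    have := Int.emod_lt_of_pos n hq'
    omega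
  rw [Finset.sum_eq_single r]
  · rw [if_pos hr]
    congr 1
    have h1 : n = r + q * (n / q) := by
      rw [← hr]; exact (Int.emod_add_mul_ediv n q).symm
    conv_lhs => rw [h1]
    rw [zpow_add, zpow_mul, zpow_natCast, zpow_natCast, hζ, one_zpow, mul_one, Units.val_pow_eq_pow_val]
  · intro s hs hsr
    rw [if_neg, map_zero, mul_zero]
    rw [hr]
    exact_mod_cast hsr.symm
  · intro h
    exact absurd (Finset.mem_range.mpr hrq) h

theorem twist_int_mem_ratSer {q : ℕ} (hq : 0 < q) {ζ : Kˣ} (hζ : ζ ^ q = 1) (hL : (ζ : K) ∈ L)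
    (Y : LaurentSeries ℤ) : twist ζ (coeffMap (Int.castRingHom K) Y) ∈ ratSer L := by
  rw [twist_eq_sum hq hζ]
  exact sum_mem fun r _ => mul_mem (algebraMap_mem_ratSer (pow_mem hL r))
    (intAlgL_le_ratSer (coeffMap_int_mem_intAlgL _))

theorem twist_jd_mem_ratSer {q : ℕ} (hq : 0 < q) {ζ : Kˣ} (hζ : ζ ^ q = 1) (hL : (ζ : K) ∈ L)
    (d : ℕ) [NeZero d] : twist ζ (TwoGauss.jd K d) ∈ ratSer L := by
  rw [← coeffMap_jd (Int.castRingHom K) d]
  exact twist_int_mem_ratSer hq hζ hL _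

theorem S1_mem_ratSer {q m : ℕ} [NeZero (m * q * q)] (hq : 0 < q) {ζ : Kˣ} (hζ : ζ ^ q = 1)
    (hL : (ζ : K) ∈ L) (d : Dv (m * q * q)) : S1 ζ d ∈ ratSer L := by
  rw [S1]
  split_ifs with h
  · have := TriGauss.neZero_div d h
    exact twist_jd_mem_ratSer hq hζ hL _
  · exact jqd_mem_ratSer _

end Twist


section Emb

variable (A : ValuationSubring Qb) (N : ℕ)

/-- the expansion at `∞` -/
def e0 : FK A N →+* LaurentSeries Qb :=
  (algebraMap (modularFunctionFieldFullC Qb N) (LaurentSeries Qb)).comp (bc (Kz A) Qb N)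

variable {A N}

theorem e0_apply (x : FK A N) :
    e0 A N x = coeffMap (algebraMap (Kz A) Qb) (x : LaurentSeries (Kz A)) := rfl

theorem e0_algebraMap (c : Kz A) :
    e0 A N (algebraMap (Kz A) (FK A N) c) = algebraMap Qb (LaurentSeries Qb) (algebraMap (Kz A) Qb c) := by
  change ((bc (Kz A) Qb N (algebraMap (Kz A) (FK A N) c) : _) : LaurentSeries Qb) = _
  rw [bc_algebraMap]
  rfl

theorem e0_jd (d : ℕ) [NeZero d] (hd : d ∣ N) :
    e0 A N (jd (Kz A) N d hd) = qExpand Qb d (jqModC Qb) := by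
  change ((bc (Kz A) Qb N (jd (Kz A) N d hd) : _) : LaurentSeries Qb) = _
  rw [bc_jd, coe_jd]

theorem algebraMap_mem_ratSer_K0 {c : Kz A} :
    algebraMap Qb (LaurentSeries Qb) (algebraMap (Kz A) Qb c) ∈ ratSer (K0 A).toSubfield :=
  algebraMap_mem_ratSer c.mem

theorem e0_mem (x : FK A N) : e0 A N x ∈ ratSer (K0 A).toSubfield := by
  apply mem_ratSer_of_gens
  · intro c
    rw [e0_algebraMap]
    exact algebraMap_mem_ratSer_K0
  · intro d _ hd
    rw [e0_jd]
    exact jqd_mem_ratSer d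

/-- the embedding of `K₀` in `ℂ` -/
def iota0 (A : ValuationSubring Qb) : Kz A →+* ℂ := TwoGauss.iotaBar.comp (algebraMap (Kz A) Qb)

/-- the two models of the function field of `X₀(N)` -/
def toFB (K : Type*) [Field K] [Algebra ℚ K] (N : ℕ) :
    modularFunctionFieldFullC K N ≃ₐ[K] FB K N :=
  IntermediateField.equivOfEq (TwoGauss.laurentBaseChange_full K N).symm

theorem coe_equivOfEq {F E : Type*} [Field F] [Field E] [Algebra F E]
    {S T : IntermediateField F E} (h : S = T) (x : S) :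
    ((IntermediateField.equivOfEq h x : T) : E) = x := by subst h; rfl

theorem coe_equivOfEq_symm {F E : Type*} [Field F] [Field E] [Algebra F E]
    {S T : IntermediateField F E} (h : S = T) (x : T) :
    (((IntermediateField.equivOfEq h).symm x : S) : E) = x := by subst h; rfl

@[simp] theorem coe_toFB (K : Type*) [Field K] [Algebra ℚ K] (N : ℕ)
    (x : modularFunctionFieldFullC K N) : (toFB K N x : LaurentSeries K) = x :=
  coe_equivOfEq _ x

theorem toFB_jd (K : Type*) [Field K] [Algebra ℚ K] (N : ℕ) [NeZero N] (d : Dv N) :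
    toFB K N (jd K N d.1 d.2) = jdB K N d := Subtype.ext (coe_toFB K N _)

@[simp] theorem coe_toFB_symm (K : Type*) [Field K] [Algebra ℚ K] (N : ℕ)
    (x : FB K N) : ((toFB K N).symm x : LaurentSeries K) = x :=
  coe_equivOfEq_symm _ x

theorem toFB_symm_jd (K : Type*) [Field K] [Algebra ℚ K] (N : ℕ) [NeZero N] (d : Dv N) :
    (toFB K N).symm (jdB K N d) = jd K N d.1 d.2 := Subtype.ext (coe_toFB_symm K N _)

end Emb

section Zeta

/-- a primitive `q`-th root of unity -/
def zt (q : ℕ) : Qbˣ :=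
  open Classical in if h : ∃ ζ : Qbˣ, IsPrimitiveRoot ζ q then h.choose else 1

theorem zt_spec {q : ℕ} (hq : q.Prime) : IsPrimitiveRoot (zt q) q := by
  have h : ∃ ζ : Qbˣ, IsPrimitiveRoot ζ q := by
    have : NeZero ((q : ℕ) : Qb) := ⟨by exact_mod_cast hq.ne_zero⟩
    have : NeZero q := ⟨hq.ne_zero⟩
    obtain ⟨ζ, hζ⟩ := HasEnoughRootsOfUnity.exists_primitiveRoot Qb q
    refine ⟨(hζ.isUnit hq.ne_zero).unit, ?_⟩
    rw [← IsPrimitiveRoot.coe_units_iff]
    exact hζ
  rw [zt, dif_pos h]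
  exact h.choose_spec

theorem zt_spec' {q : ℕ} (hq : q.Prime) : IsPrimitiveRoot ((zt q : Qbˣ) : Qb) q :=
  IsPrimitiveRoot.coe_units_iff.mpr (zt_spec hq)

end Zeta

section Level

variable {A : ValuationSubring Qb} {q m : ℕ} [NeZero (m * q * q)] (hq : q.Prime) (hm : ¬ q ∣ m)

/-- the expansion at the cusp `1/(qm)` of the function field over `ℚ̄` -/
def e1Qb : modularFunctionFieldFullC Qb (m * q * q) →ₐ[Qb] LaurentSeries Qb :=
  (TriGauss.exists_e1 TwoGauss.iotaBar hq hm (zt q) (zt_spec hq)).choose.comp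
    ((toFB Qb (m * q * q)) : _ →ₐ[Qb] _)

theorem e1Qb_jd (d : Dv (m * q * q)) :
    e1Qb hq hm (jd Qb (m * q * q) d.1 d.2) = S1 (zt q) d := by
  change (TriGauss.exists_e1 TwoGauss.iotaBar hq hm (zt q) (zt_spec hq)).choose
    (toFB Qb (m * q * q) (jd Qb (m * q * q) d.1 d.2)) = _
  rw [toFB_jd]
  exact (TriGauss.exists_e1 TwoGauss.iotaBar hq hm (zt q) (zt_spec hq)).choose_spec d

variable (A) in
/-- the expansion at the cusp `1/(qm)` -/
def e1 : FK A (m * q * q) →+* LaurentSeries Qb :=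
  ((e1Qb hq hm : modularFunctionFieldFullC Qb (m * q * q) →ₐ[Qb] LaurentSeries Qb) :
    modularFunctionFieldFullC Qb (m * q * q) →+* LaurentSeries Qb).comp (bc (Kz A) Qb (m * q * q))

theorem e1_apply (x : FK A (m * q * q)) : e1 A hq hm x = e1Qb hq hm (bc (Kz A) Qb _ x) := rfl

theorem e1_algebraMap (c : Kz A) :
    e1 A hq hm (algebraMap (Kz A) (FK A _) c) = algebraMap Qb (LaurentSeries Qb) (algebraMap (Kz A) Qb c) := by
  rw [e1_apply, bc_algebraMap, AlgHom.commutes]

theorem e1_jd (d : Dv (m * q * q)) :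
    e1 A hq hm (jd (Kz A) (m * q * q) d.1 d.2) = S1 (zt q) d := by
  rw [e1_apply, bc_jd, e1Qb_jd]

theorem e1_mem (x : FK A (m * q * q)) :
    e1 A hq hm x ∈ ratSer (K1 A ((zt q : Qbˣ) : Qb)).toSubfield := by
  apply mem_ratSer_of_gens
  · intro c
    rw [e1_algebraMap]
    exact algebraMap_mem_ratSer (mem_K1_of_mem_K0 c.mem)
  · intro d hne hd
    rw [e1_jd hq hm ⟨d, hd⟩]
    exact S1_mem_ratSer hq.pos (zt_spec hq).pow_eq_one zeta_mem_K1 _

omit [NeZero (m * q * q)] in
include hq hm in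
theorem coprime_sq : (q * q).Coprime m :=
  Nat.Coprime.mul_left ((Nat.Prime.coprime_iff_not_dvd hq).mpr hm)
    ((Nat.Prime.coprime_iff_not_dvd hq).mpr hm)

/-- the involution of the divisors of `m q²` -/
def sw (d : Dv (m * q * q)) : Dv (m * q * q) :=
  TriGauss.swapQ (m * q * q) (q * q) m (mul_assoc _ _ _) (mul_ne_zero hq.ne_zero hq.ne_zero)
    (coprime_sq hq hm) d

omit [NeZero (m * q * q)] in
theorem sw_sw (d : Dv (m * q * q)) : sw hq hm (sw hq hm d) = d :=
  TriGauss.swapQ_swapQ _ _ _ d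

omit [NeZero (m * q * q)] in
theorem sw_mul {a b b' : ℕ} (ha : a ∣ m) (hb : b' * b = q * q) (h : a * b ∣ m * q * q)
    (h' : a * b' ∣ m * q * q) : sw hq hm ⟨a * b, h⟩ = ⟨a * b', h'⟩ :=
  TriGauss.swapQ_mul _ _ _ ha hb h h'

/-- the Atkin-Lehner involution `w_{q²}` over `ℚ̄` -/
theorem exists_w (A : ValuationSubring Qb) : ∃ w : FK A (m * q * q) ≃ₐ[Kz A] FK A (m * q * q),
    (∀ d : Dv (m * q * q), w (jd (Kz A) _ d.1 d.2) =
      jd (Kz A) _ (sw hq hm d).1 (sw hq hm d).2) ∧ ∀ f, w (w f) = f := by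
  obtain ⟨w, hw, hw2⟩ := TriGauss.exists_atkinLehnerQ (N := m * q * q) (Q := q * q) (m := m)
    (iota0 A) (mul_assoc _ _ _) (mul_ne_zero hq.ne_zero hq.ne_zero) (coprime_sq hq hm)
  refine ⟨((toFB (Kz A) _).trans w).trans (toFB (Kz A) _).symm, fun d => ?_, fun f => ?_⟩
  · simp only [AlgEquiv.trans_apply]
    rw [toFB_jd, hw, toFB_symm_jd]
    rfl
  · simp only [AlgEquiv.trans_apply, AlgEquiv.apply_symm_apply]
    rw [hw2, AlgEquiv.symm_apply_apply]

variable (A) in
/-- the Atkin-Lehner involution `w_{q²}` -/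
def wK : FK A (m * q * q) ≃ₐ[Kz A] FK A (m * q * q) := (exists_w hq hm A).choose

theorem wK_jd (d : Dv (m * q * q)) : wK A hq hm (jd (Kz A) _ d.1 d.2) =
      jd (Kz A) _ (sw hq hm d).1 (sw hq hm d).2 := (exists_w hq hm A).choose_spec.1 d

theorem wK_wK (f : FK A (m * q * q)) : wK A hq hm (wK A hq hm f) = f :=
  (exists_w hq hm A).choose_spec.2 f

variable (A) in
/-- the expansion at the cusp `0`-/
def e2 : FK A (m * q * q) →+* LaurentSeries Qb :=
  (e0 A (m * q * q)).comp (wK A hq hm).toRingEquiv.toRingHom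

theorem e2_apply (x : FK A (m * q * q)) : e2 A hq hm x = e0 A _ (wK A hq hm x) := rfl

theorem e2_algebraMap (c : Kz A) :
    e2 A hq hm (algebraMap (Kz A) (FK A _) c) = algebraMap Qb (LaurentSeries Qb) (algebraMap (Kz A) Qb c) := by
  rw [e2_apply, AlgEquiv.commutes, e0_algebraMap]

theorem e2_jd (d : Dv (m * q * q)) :
    e2 A hq hm (jd (Kz A) (m * q * q) d.1 d.2) = qExpand Qb (sw hq hm d).1 (jqModC Qb) := by
  rw [e2_apply, wK_jd, e0_jd]

theorem e2_mem (x : FK A (m * q * q)) : e2 A hq hm x ∈ ratSer (K0 A).toSubfield := e0_mem _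

end Level

end Fermat.Agent.TriVal
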