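import Fermat.Agent.TriVal.GlueK0
import Fermat.Agent.TriVal.Exp
import Fermat.Agent.TriGauss.ExpanInst

/-!
# The three discrete valuations of the function field of `X₀(q² m)` over `K₀`

`L` is a field with an embedding in `ℚ̄` whose image is the fixed field of the inertia group of `A`.
-/

set_option autoImplicit false

noncomputable section

open ModularCurve HahnSeries Module

namespace Fermat.Agent.TriVal

open Fermat.Agent.GaussVal Fermat.Agent.S36norm Fermat.Agent.LocE Fermat.Agent.TriGlue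
open Fermat.Agent.TwoGauss (Dv iotaBar)
open Fermat.Agent.TriGauss

local notation "κ" A => IsLocalRing.ResidueField A

section

variable {q m : ℕ} [NeZero (m * q * q)] [NeZero q] (hq : q.Prime) (hm : ¬ q ∣ m)

/-- the embedding attached to the cusp `1/(qm)`, over `ℚ̄` -/
def eQ : modularFunctionFieldFullC Qb (m * q * q) →ₐ[Qb] LaurentSeries Qb :=
  (exists_e1_full iotaBar hq hm (zt q) (zt_spec hq)).choose

theorem eQ_jd (d : Dv (m * q * q)) : eQ hq hm (jd Qb _ d.1 d.2) = S1 (zt q) d :=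
  (exists_e1_full iotaBar hq hm (zt q) (zt_spec hq)).choose_spec.1 d

theorem eQ_u₁ : eQ hq hm (u₁ Qb q m) = rS Qb 1 q :=
  (exists_e1_full iotaBar hq hm (zt q) (zt_spec hq)).choose_spec.2.1

theorem eQ_u₂ : eQ hq hm (u₂ Qb q m) = algebraMap Qb _ ((q : Qb) ^ 12) *
        (qExpand Qb q (S28aux.deltaC Qb) * X0Emb.twist (zt q) (S28aux.deltaInvC Qb)) :=
  (exists_e1_full iotaBar hq hm (zt q) (zt_spec hq)).choose_spec.2.2

include hq in
omit [NeZero (m * q * q)] [NeZero q] in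
theorem qq_ne_zero : q * q ≠ 0 := mul_ne_zero hq.ne_zero hq.ne_zero

/-- the Atkin-Lehner involution `w_{q²}`, over `ℚ̄` -/
def wQ : modularFunctionFieldFullC Qb (m * q * q) ≃ₐ[Qb] modularFunctionFieldFullC Qb (m * q * q) :=
  (exists_w_full (m := m) iotaBar hq (mul_assoc _ _ _) (qq_ne_zero hq) (coprime_sq hq hm)).choose

theorem wQ_jd (d : Dv (m * q * q)) : wQ hq hm (jd Qb _ d.1 d.2) =
    jd Qb _ (sw hq hm d).1 (sw hq hm d).2 :=
  (exists_w_full (m := m) iotaBar hq (mul_assoc _ _ _) (qq_ne_zero hq)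
    (coprime_sq hq hm)).choose_spec.1 d

theorem wQ_wQ (f : modularFunctionFieldFullC Qb (m * q * q)) : wQ hq hm (wQ hq hm f) = f :=
  (exists_w_full (m := m) iotaBar hq (mul_assoc _ _ _) (qq_ne_zero hq)
    (coprime_sq hq hm)).choose_spec.2.1 f

theorem wQ_u₁ : wQ hq hm (u₁ Qb q m) = algebraMap Qb _ ((q : Qb) ^ 12) / u₂ Qb q m :=
  (exists_w_full (m := m) iotaBar hq (mul_assoc _ _ _) (qq_ne_zero hq)
    (coprime_sq hq hm)).choose_spec.2.2.1

theorem wQ_u₂ : wQ hq hm (u₂ Qb q m) = algebraMap Qb _ ((q : Qb) ^ 12) / u₁ Qb q m :=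
  (exists_w_full (m := m) iotaBar hq (mul_assoc _ _ _) (qq_ne_zero hq)
    (coprime_sq hq hm)).choose_spec.2.2.2

end

section Level

variable {A : ValuationSubring Qb} {L : Type*} [Field L] [Algebra L Qb] {q m : ℕ}
  [NeZero (m * q * q)] [NeZero q] (hq : q.Prime) (hm : ¬ q ∣ m) (hA : A.LiesOverPrime q)
  (hL : IsK0 A L)

theorem i0_algebraMap {N : ℕ} (c : L) : i0 L Qb N (algebraMap L _ c) =
    algebraMap Qb (LaurentSeries Qb) (algebraMap L Qb c) := by
  rw [i0_apply, bc_algebraMap]; rfl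

theorem i0_jd {N : ℕ} (d : ℕ) [NeZero d] (hd : d ∣ N) :
    i0 L Qb N (jd L N d hd) = qExpand Qb d (jqModC Qb) := by
  rw [i0_apply, bc_jd, coe_jd]

include hL in
theorem i0_mem {N : ℕ} (x : modularFunctionFieldFullC L N) :
    i0 L Qb N x ∈ ratSer (K0 A).toSubfield := by
  apply mem_ratSer_of_gens
  · intro c
    rw [i0_algebraMap]
    exact algebraMap_mem_ratSer ((hL _).mp ⟨c, rfl⟩)
  · intro d _ hd
    rw [i0_jd]
    exact jqd_mem_ratSer d

/-- the expansion at the cusp `1/(qm)` -/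
abbrev I1 (L : Type*) [Field L] [Algebra L Qb] :
    modularFunctionFieldFullC L (m * q * q) →+* LaurentSeries Qb := i1 L (eQ hq hm)

/-- the expansion at the cusp `0` -/
abbrev I2 (L : Type*) [Field L] [Algebra L Qb] :
    modularFunctionFieldFullC L (m * q * q) →+* LaurentSeries Qb := i2 L (wQ hq hm)

theorem I1_algebraMap (c : L) : I1 hq hm L (algebraMap L _ c) =
    algebraMap Qb (LaurentSeries Qb) (algebraMap L Qb c) := by
  rw [i1_apply, bc_algebraMap, AlgHom.commutes]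

theorem I1_jd (d : Dv (m * q * q)) : I1 hq hm L (jd L _ d.1 d.2) = S1 (zt q) d := by
  rw [i1_apply, bc_jd, eQ_jd]

theorem I2_algebraMap (c : L) : I2 hq hm L (algebraMap L _ c) =
    algebraMap Qb (LaurentSeries Qb) (algebraMap L Qb c) := by
  rw [i2_apply, bc_algebraMap, AlgEquiv.commutes]; rfl

theorem I2_jd (d : Dv (m * q * q)) : I2 hq hm L (jd L _ d.1 d.2) =
    qExpand Qb (sw hq hm d).1 (jqModC Qb) := by
  rw [i2_apply, bc_jd, wQ_jd, coe_jd]

include hL in
theorem I1_mem (x : modularFunctionFieldFullC L (m * q * q)) :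
    I1 hq hm L x ∈ ratSer (K1 A ((zt q : Qbˣ) : Qb)).toSubfield := by
  apply mem_ratSer_of_gens
  · intro c
    rw [I1_algebraMap]
    exact algebraMap_mem_ratSer (mem_K1_of_mem_K0 ((hL _).mp ⟨c, rfl⟩))
  · intro d hne hd
    rw [I1_jd hq hm ⟨d, hd⟩]
    exact S1_mem_ratSer hq.pos (zt_spec hq).pow_eq_one zeta_mem_K1 _

include hL in
theorem I2_mem (x : modularFunctionFieldFullC L (m * q * q)) :
    I2 hq hm L x ∈ ratSer (K0 A).toSubfield := by
  apply mem_ratSer_of_gens
  · intro c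
    rw [I2_algebraMap]
    exact algebraMap_mem_ratSer ((hL _).mp ⟨c, rfl⟩)
  · intro d hne hd
    rw [I2_jd hq hm ⟨d, hd⟩]
    exact jqd_mem_ratSer _

/-- the Gauss valuation at `∞` -/
def v0 : DV (modularFunctionFieldFullC L (m * q * q)) (LaurentSeries (κ A)) :=
  gdv hq hA (isUnif_K0 hq hA) (i0 L Qb (m * q * q)) (i0_mem hL)

/-- the Gauss valuation at the cusp `1/(qm)` -/
def v1 : DV (modularFunctionFieldFullC L (m * q * q)) (LaurentSeries (κ A)) :=
  gdv hq hA (isUnif_K1 hq hA (zt_spec' hq)) (I1 hq hm L) (I1_mem hq hm hL)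

/-- the Gauss valuation at the cusp `0` -/
def v2 : DV (modularFunctionFieldFullC L (m * q * q)) (LaurentSeries (κ A)) :=
  gdv hq hA (isUnif_K0 hq hA) (I2 hq hm L) (I2_mem hq hm hL)

/-- the three valuations -/
def vv : Fin 3 → DV (modularFunctionFieldFullC L (m * q * q)) (LaurentSeries (κ A)) :=
  ![v0 hq hA hL, v1 hq hm hA hL, v2 hq hm hA hL]

theorem vv_zero : vv hq hm hA hL 0 = v0 hq hA hL := rfl
theorem vv_one : vv hq hm hA hL 1 = v1 hq hm hA hL := rfl
theorem vv_two : vv hq hm hA hL 2 = v2 hq hm hA hL := rfl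

/-! ### Constants -/

theorem mem_vv_algebraMap (i : Fin 3) {c : L} (hc : c ∈ A0 A L) :
    algebraMap L _ c ∈ (vv hq hm hA hL i).O := by
  fin_cases i
  · exact (mem_gdv_algebraMap (hℓ := hq) (hA := hA) (h := isUnif_K0 hq hA) (hι := i0_mem hL)
      (i0_algebraMap c)).mpr hc
  · exact (mem_gdv_algebraMap (hℓ := hq) (hA := hA) (h := isUnif_K1 hq hA (zt_spec' hq))
      (hι := I1_mem hq hm hL) (I1_algebraMap hq hm c)).mpr hc
  · exact (mem_gdv_algebraMap (hℓ := hq) (hA := hA) (h := isUnif_K0 hq hA)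
      (hι := I2_mem hq hm hL) (I2_algebraMap hq hm c)).mpr hc

theorem vv_red_algebraMap (i : Fin 3) (c : A0 A L) :
    (vv hq hm hA hL i).red (algebraMap L _ (c : L)) =
      algebraMap (κ A) (LaurentSeries (κ A)) (res0 A L c) := by
  fin_cases i
  · exact gdv_red_algebraMap (hℓ := hq) (hA := hA) (h := isUnif_K0 hq hA) (hι := i0_mem hL)
      (i0_algebraMap (c : L)) c.2
  · exact gdv_red_algebraMap (hℓ := hq) (hA := hA) (h := isUnif_K1 hq hA (zt_spec' hq))
      (hι := I1_mem hq hm hL) (I1_algebraMap hq hm (c : L)) c.2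
  · exact gdv_red_algebraMap (hℓ := hq) (hA := hA) (h := isUnif_K0 hq hA)
      (hι := I2_mem hq hm hL) (I2_algebraMap hq hm (c : L)) c.2

theorem q_eq (L : Type*) [Field L] (N : ℕ) : ((q : ℕ) : modularFunctionFieldFullC L N) =
    algebraMap L _ ((q : ℕ) : L) := (map_natCast _ q).symm

include hq in
omit [NeZero q] in
theorem qQb_ne_zero : ((q : ℕ) : Qb) ≠ 0 := by exact_mod_cast hq.ne_zero

theorem ord_q0 : (vv hq hm hA hL 0).ord ((q : ℕ) : modularFunctionFieldFullC L (m * q * q)) = 1 := by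
  rw [vv_zero, q_eq]
  refine gdv_ord_of_algebraMap (i0_algebraMap ((q : ℕ) : L)) ?_ ?_
  · rw [map_natCast]; exact qQb_ne_zero hq
  · rw [map_natCast, zpow_one]

theorem ord_q2 : (vv hq hm hA hL 2).ord ((q : ℕ) : modularFunctionFieldFullC L (m * q * q)) = 1 := by
  rw [vv_two, q_eq]
  refine gdv_ord_of_algebraMap (I2_algebraMap hq hm ((q : ℕ) : L)) ?_ ?_
  · rw [map_natCast]; exact qQb_ne_zero hq
  · rw [map_natCast, zpow_one]

theorem ord_q1 : (vv hq hm hA hL 1).ord ((q : ℕ) : modularFunctionFieldFullC L (m * q * q)) =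
    (q : ℤ) - 1 := by
  rw [vv_one, q_eq]
  refine gdv_ord_of_algebraMap (I1_algebraMap hq hm ((q : ℕ) : L)) ?_ ?_
  · rw [map_natCast]; exact qQb_ne_zero hq
  · rw [map_natCast, ← val_zeta_sub_one_pow (zt_spec' hq) hq, ← zpow_natCast,
      Nat.cast_sub hq.one_lt.le, Nat.cast_one]

/-! ### The `j_d` -/

theorem incl_jd (d : ℕ) [NeZero d] :
    incl A (qExpand A d (jqModC A)) = qExpand Qb d (jqModC Qb) := by
  rw [coeffMap_qExpand, coeffMap_jqModC]

theorem redS_jd (d : ℕ) [NeZero d] :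
    redS A (qExpand A d (jqModC A)) = qExpand (κ A) d (jqModC (κ A)) := by
  rw [coeffMap_qExpand, coeffMap_jqModC]

theorem qExpand_jq_ne_zero (k : Type*) [Field k] (d : ℕ) [NeZero d] :
    qExpand k d (jqModC k) ≠ 0 :=
  (map_ne_zero_iff _ (qExpand_injective d)).mpr (fun h => by
    have h1 := coeff_jqModC_neg_one k
    rw [h] at h1
    simp at h1)

end Level

end Fermat.Agent.TriVal
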