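import Fermat.Agent.TriVal.GlueAB
import Fermat.Agent.TriVal.Kz

/-! # `Kz A` satisfies `IsK0`; `qExpand (q * q)` as an iterate of `verMap` -/

set_option autoImplicit false

noncomputable section

open ModularCurve HahnSeries AlgebraicCurve

namespace Fermat.Agent.TriGlue

open Fermat.Agent.TriVal Fermat.Agent.LocE

theorem isK0_Kz (A : ValuationSubring Qb) : IsK0 A (Kz A) := fun _ => Kz.mem_range_iff

theorem qExpand_sq_eq (K : Type*) [Field K] (q : ℕ) [NeZero q] [NeZero (q * q)]
    (x : LaurentSeries K) : qExpand K (q * q) x = qExpand K q (qExpand K q x) :=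
  (qExpand_qExpand (R := K) q q x).symm

end Fermat.Agent.TriGlue
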