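import Fermat.Agent.TriVal.Inst
import Fermat.Agent.TriComp.Defs

/-!
# The instance of `TriComp.Data`
-/

set_option autoImplicit false
set_option linter.unusedSectionVars false

noncomputable section

open ModularCurve HahnSeries Module Polynomial
open scoped IntermediateField

namespace Fermat.Agent.TriVal

open Fermat.Agent.GaussVal Fermat.Agent.S36norm Fermat.Agent.LocE Fermat.Agent.TriGlue
open Fermat.Agent.TwoGauss (Dv iotaBar)
open Fermat.Agent.TriGauss Fermat.Agent.TriComp

local notation "κ" A => IsLocalRing.ResidueField A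

section Level

variable {A : ValuationSubring Qb} {L : Type*} [Field L] [CharZero L] [Algebra L Qb] {q m : ℕ}
  [NeZero (m * q * q)] [NeZero q] [NeZero m] (hq : q.Prime) (hm : ¬ q ∣ m)
  (hA : A.LiesOverPrime q) (hL : IsK0 A L)

/-- the embedding of `L` in `ℂ` -/
def iotaL (L : Type*) [Field L] [Algebra L Qb] : L →+* ℂ := iotaBar.comp (algebraMap L Qb)

theorem coe_exh_red (i : Fin 3) (f : modularFunctionFieldFullC L (m * q * q)) :
    (((exh hq hm hA hL).v' i).red f : LaurentSeries (κ A)) = (vv hq hm hA hL i).red f :=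
  (exh hq hm hA hL).coe_v'_red i f

/-- transfer of value computations -/
theorem exh_red_eq (i : Fin 3) {f : modularFunctionFieldFullC L (m * q * q)}
    {z : modularFunctionFieldFullC (κ A) m} (h : (vv hq hm hA hL i).red f = z) :
    ((exh hq hm hA hL).v' i).red f = z :=
  Subtype.ext ((coe_exh_red hq hm hA hL i f).trans h)

local notation "PU" => PuC hq hA

/-- **The three-component reduction data of `X₀(q² m)`.** -/
def triData : Data L (modularFunctionFieldFullC L (m * q * q)) (κ A) (pre hq hm hA hL).E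
    (modularFunctionFieldFullC (κ A) m) q :=
  haveI : Fact q.Prime := ⟨hq⟩
  haveI : CharP (κ A) q := FrobDensity.charP_residue hq hA
  { R := (pre hq hm hA hL).R
    ρ_surj := (pre hq hm hA hL).ρ_surj
    q_two_le := hq.two_le
    q_ne_zero := NeZero.natCast_ne q L
    mem_nonunits_iff := (pre hq hm hA hL).mem_nonunits_iff
    ρ_eq_zero_iff := fun x => by
      have h := (pre hq hm hA hL).ρ_eq_zero_iff x
      have h1 : algebraMap L (modularFunctionFieldFullC L (m * q * q)) (pre hq hm hA hL).ϖ =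
        (q : modularFunctionFieldFullC L (m * q * q)) := map_natCast _ q
      rw [h1] at h
      exact h
    v := (exh hq hm hA hL).v'
    mem_O_iff := (exh hq hm hA hL).mem_O_iff
    red_algebraMap := (exh hq hm hA hL).v'_red_algebraMap
    ord_q0 := ord_q0 hq hm hA hL
    ord_q1 := ord_q1 hq hm hA hL
    ord_q2 := ord_q2 hq hm hA hL
    surj := (exh hq hm hA hL).surj_joint
    ortho := (exh hq hm hA hL).ortho
    j := jF L (m * q * q)
    jt := jtm (κ A) m
    j_ne_zero := jF_ne_zero L q m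
    ord_j := fun i => (jF_data hq hm hA hL i).1
    red_j0 := exh_red_eq hq hm hA hL 0 ((jF_data hq hm hA hL 0).2.2)
    red_j1 := exh_red_eq hq hm hA hL 1 ((jF_data hq hm hA hL 1).2.2)
    red_j2 := exh_red_eq hq hm hA hL 2 ((jF_data hq hm hA hL 2).2.2)
    jt_transcendental := tr_jm (κ A) m
    isIntegral_red := fun f hf h i => (exh hq hm hA hL).isIntegral_red hf h i
    isIntegral_red_inv := fun f hf h i => (exh hq hm hA hL).isIntegral_red_inv hf h i
    ψ := dedekindPsi m
    ψ_pos := S18aux.dedekindPsi_pos (NeZero.ne _)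
    finrank_F' := Igusa.finrank_full (κ A) m (natCast_m_ne_zero hq hm hA)
    δ := δF L q m
    δ_ne_zero := δF_ne_zero hq hm
    ord_δ := ord_δF hq hm hA hL
    u₁ := u₁ L q m
    u₂ := u₂ L q m
    u₁_ne_zero := TriGauss.u₁_ne_zero
    u₂_ne_zero := TriGauss.u₂_ne_zero
    isIntegral_u₁ := TriGauss.isIntegral_u₁ (iotaL L) hq
    isIntegral_u₁_inv := TriGauss.isIntegral_u₁_inv (iotaL L) hq
    isIntegral_u₂ := TriGauss.isIntegral_u₂ (iotaL L) hq
    isIntegral_u₂_inv := TriGauss.isIntegral_u₂_inv (iotaL L) hq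
    ord_u₁ := fun i => by
      fin_cases i
      · exact TriMod.ord0_u₁ (expanL hq hm) hA (isUnif_K0 hq hA) (i0_mem hL)
      · exact TriMod.ord1_u₁ (expanL hq hm) hA (isUnif_K1 hq hA (zt_spec' hq)) (I1_mem hq hm hL)
      · exact TriMod.ord2_u₁ (expanL hq hm) hA (isUnif_K0 hq hA) (I2_mem hq hm hL)
    ord_u₂ := fun i => by
      fin_cases i
      · exact TriMod.ord0_u₂ (expanL hq hm) hA (isUnif_K0 hq hA) (i0_mem hL)
      · exact TriMod.ord1_u₂ (expanL hq hm) hA (isUnif_K1 hq hA (zt_spec' hq)) (I1_mem hq hm hL)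
          (zt_spec' hq)
      · exact TriMod.ord2_u₂ (expanL hq hm) hA (isUnif_K0 hq hA) (I2_mem hq hm hL)
    Pu := PU
    natDegree_Pu := (PuC_spec hq hA).1
    Pu_ne_zero := (PuC_spec hq hA).2.1
    Q := TriMod.Qpol (κ A)
    natDegree_Q := TriMod.natDegree_Qpol (κ A)
    red_u₁ := exh_red_eq hq hm hA hL 1 (by
      rw [coe_aeval_jtm, ← TriMod.U_eq (PuC_spec hq hA).2.2]
      exact TriMod.red1_u₁ (expanL hq hm) hA (isUnif_K1 hq hA (zt_spec' hq)) (I1_mem hq hm hL))
    red_u₁' := exh_red_eq hq hm hA hL 0 (by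
      rw [coe_aeval_jtm, ← TriMod.U_eq (PuC_spec hq hA).2.2]
      exact TriMod.red0_u₁ (expanL hq hm) hA (isUnif_K0 hq hA) (i0_mem hL))
    red_U := exh_red_eq hq hm hA hL 0 (by
      rw [SubmonoidClass.coe_pow, coe_aeval_jtm, ← TriMod.qExpand_U_mul_Ui (PuC_spec hq hA).2.2]
      exact TriMod.red0_U (expanL hq hm) hA (isUnif_K0 hq hA) (i0_mem hL))
    red_q_div_u₁ := exh_red_eq hq hm hA hL 2 (by
      rw [SubmonoidClass.coe_pow, coe_aeval_jtm, ← TriMod.qExpand_U_eq (PuC_spec hq hA).2.2]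
      exact TriMod.red2_div_u₁ (expanL hq hm) hA (isUnif_K0 hq hA) (I2_mem hq hm hL))
    red_u₂_div_q := exh_red_eq hq hm hA hL 1 (by
      rw [IntermediateField.coe_inv, coe_aeval_jtm, ← TriMod.Ui_eq (PuC_spec hq hA).2.2]
      exact TriMod.red1_u₂_div (expanL hq hm) hA (isUnif_K1 hq hA (zt_spec' hq)) (I1_mem hq hm hL)
        (zt_spec' hq))
    red_δ := exh_red_eq hq hm hA hL 1 (by
      rw [SubmonoidClass.coe_pow, coe_aeval_jtm, ← TriMod.theta_mul_U_sq (PuC_spec hq hA).2.2]
      exact TriMod.red1_δ (expanL hq hm) hA (isUnif_K1 hq hA (zt_spec' hq)) (I1_mem hq hm hL)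
        (zt_spec' hq))
    isIntegral_U_inv := isIntegral_U_inv_cusp (iotaL L) hq }

end Level

end Fermat.Agent.TriVal
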