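import Mathlib
import Fermat.Prelude.Def_ModularCurve_X0ModL
import Fermat.Agent.GaussVal.Ortho

/-!
# Galois descent for Laurent series and for the function field of `X₀(N)`

`L → K` an extension of fields.

* `exists_preimage_fullC`: an element of the function field of level `N` over `K` all of whose
  coefficients lie in `L` comes from the function field of level `N` over `L`.
* `exists_fixed_basis`: a finite dimensional space of functions `I → K` which is stable under a
  set of automorphisms of `K` (acting on values) with fixed field `L` has a basis of functions with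
  values in `L`.
-/

set_option autoImplicit false

noncomputable section

open ModularCurve HahnSeries Module

namespace Fermat.Agent.TriVal

section Func

variable {L K : Type*} [Field L] [Field K] [Algebra L K]

/-- apply an `L`-linear functional to the coefficients -/
def fmap (φ : K →ₗ[L] L) (y : LaurentSeries K) : LaurentSeries L :=
  ⟨fun n => φ (y.coeff n), y.isPWO_support'.mono fun n hn => by
    simp only [Function.mem_support, ne_eq] at hn ⊢
    intro h
    exact hn (by rw [h, map_zero])⟩

@[simp] theorem fmap_coeff (φ : K →ₗ[L] L) (y : LaurentSeries K) (n : ℤ) :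
    (fmap φ y).coeff n = φ (y.coeff n) := rfl

theorem fmap_add (φ : K →ₗ[L] L) (x y : LaurentSeries K) :
    fmap φ (x + y) = fmap φ x + fmap φ y := by
  ext n; simp

theorem fmap_zero (φ : K →ₗ[L] L) : fmap φ (0 : LaurentSeries K) = 0 := by
  ext n; simp

theorem support_coeffMap_subset (x : LaurentSeries L) :
    (coeffMap (algebraMap L K) x).support ⊆ x.support := by
  intro n hn h
  apply hn
  rw [coeffMap_coeff, h, map_zero]

theorem support_fmap_subset (φ : K →ₗ[L] L) (y : LaurentSeries K) :
    (fmap φ y).support ⊆ y.support := by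
  intro n hn h
  apply hn
  rw [fmap_coeff, h, map_zero]

theorem fmap_mul_coeffMap (φ : K →ₗ[L] L) (x : LaurentSeries L) (y : LaurentSeries K) :
    fmap φ (coeffMap (algebraMap L K) x * y) = x * fmap φ y := by
  ext n
  rw [fmap_coeff, HahnSeries.coeff_mul_left' x.isPWO_support (support_coeffMap_subset x),
    HahnSeries.coeff_mul_right' y.isPWO_support (support_fmap_subset φ y), map_sum]
  apply Finset.sum_congr rfl
  intro p _
  rw [coeffMap_coeff, ← Algebra.smul_def, map_smul, smul_eq_mul, fmap_coeff]

theorem fmap_algebraMap_mul (φ : K →ₗ[L] L) (c : K) (x : LaurentSeries L) :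
    fmap φ (algebraMap K (LaurentSeries K) c * coeffMap (algebraMap L K) x) =
      algebraMap L (LaurentSeries L) (φ c) * x := by
  ext n
  rw [fmap_coeff, algebraMap_laurentSeries_eq_single, HahnSeries.coeff_single_zero_mul,
    coeffMap_coeff, mul_comm, ← Algebra.smul_def, map_smul, smul_eq_mul,
    algebraMap_laurentSeries_eq_single, HahnSeries.coeff_single_zero_mul, mul_comm]

/-- the coefficients of elements of the `K`-algebra generated by series over `L`. -/
theorem fmap_mem_adjoin {S : Set (LaurentSeries L)} (φ : K →ₗ[L] L) {y : LaurentSeries K}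
    (hy : y ∈ Algebra.adjoin K (coeffMap (algebraMap L K) '' S)) :
    fmap φ y ∈ Algebra.adjoin L S := by
  -- every element of the adjoin is a sum of `c * coeffMap x`, `x ∈ adjoin L S`
  have key : ∃ (ι : Type) (_ : Fintype ι) (c : ι → K) (G : ι → LaurentSeries L),
      (∀ i, G i ∈ Algebra.adjoin L S) ∧
      y = ∑ i, algebraMap K (LaurentSeries K) (c i) * coeffMap (algebraMap L K) (G i) := by
    induction hy using Algebra.adjoin_induction with
    | mem x hx =>
      obtain ⟨G, hG, rfl⟩ := hx
      exact ⟨Unit, inferInstance, fun _ => 1, fun _ => G, fun _ => Algebra.subset_adjoin hG,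
        by simp⟩
    | algebraMap a =>
      exact ⟨Unit, inferInstance, fun _ => a, fun _ => 1, fun _ => one_mem _, by simp⟩
    | add x y _ _ hx hy =>
      obtain ⟨ι, _, c, G, hG, rfl⟩ := hx
      obtain ⟨κ, _, d, H, hH, rfl⟩ := hy
      refine ⟨ι ⊕ κ, inferInstance, Sum.elim c d, Sum.elim G H, ?_, ?_⟩
      · rintro (i | i)
        · exact hG i
        · exact hH i
      · rw [Fintype.sum_sum_type]; rfl
    | mul x y _ _ hx hy =>
      obtain ⟨ι, _, c, G, hG, rfl⟩ := hx
      obtain ⟨κ, _, d, H, hH, rfl⟩ := hy
      refine ⟨ι × κ, inferInstance, fun p => c p.1 * d p.2, fun p => G p.1 * H p.2,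
        fun p => mul_mem (hG _) (hH _), ?_⟩
      rw [Finset.sum_mul_sum, Fintype.sum_prod_type]
      apply Finset.sum_congr rfl
      intro i _
      apply Finset.sum_congr rfl
      intro j _
      rw [map_mul, map_mul]
      ring
  obtain ⟨ι, _, c, G, hG, rfl⟩ := key
  have h1 : fmap φ (∑ i, algebraMap K (LaurentSeries K) (c i) * coeffMap (algebraMap L K) (G i)) =
      ∑ i, algebraMap L (LaurentSeries L) (φ (c i)) * G i := by
    ext n
    rw [fmap_coeff, HahnSeries.coeff_sum, HahnSeries.coeff_sum, map_sum]
    apply Finset.sum_congr rfl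
    intro i _
    rw [← fmap_coeff, fmap_algebraMap_mul]
  rw [h1]
  exact sum_mem fun i _ => mul_mem (Subalgebra.algebraMap_mem _ _) (hG i)

/-- **Descent of elements**: an element of the field generated over `K` by series over `L`, all of
whose coefficients lie in `L`, lies in the field generated over `L`. -/
theorem exists_preimage_adjoin {S : Set (LaurentSeries L)} {x : LaurentSeries L}
    (hx : coeffMap (algebraMap L K) x ∈
      IntermediateField.adjoin K (coeffMap (algebraMap L K) '' S)) :
    x ∈ IntermediateField.adjoin L S := by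
  classical
  rw [IntermediateField.mem_adjoin_iff_div] at hx
  obtain ⟨a, ha, b, hb, hab⟩ := hx
  rcases eq_or_ne b 0 with rfl | hb0
  · rw [div_zero] at hab
    have : x = 0 := by
      ext n
      have := congrArg (fun z : LaurentSeries K => z.coeff n) hab
      simp only [coeffMap_coeff, HahnSeries.coeff_zero] at this
      simpa using this
    rw [this]
    exact zero_mem _
  have hab' : coeffMap (algebraMap L K) x * b = a := by
    rw [hab, div_mul_cancel₀ _ hb0]
  obtain ⟨n, hn⟩ : ∃ n, b.coeff n ≠ 0 := by
    by_contra h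
    push Not at h
    exact hb0 (HahnSeries.ext (funext h))
  obtain ⟨φ, hφ⟩ : ∃ φ : K →ₗ[L] L, φ (b.coeff n) ≠ 0 := by
    have h := (Module.forall_dual_apply_eq_zero_iff L (b.coeff n)).not.mpr hn
    push Not at h
    exact h
  have h1 : x * fmap φ b = fmap φ a := by
    rw [← fmap_mul_coeffMap, hab']
  have h2 : fmap φ b ≠ 0 := by
    intro h
    apply hφ
    have := congrArg (fun z : LaurentSeries L => z.coeff n) h
    simpa using this
  have h3 : x = fmap φ a / fmap φ b := by
    rw [← h1, mul_div_cancel_right₀ _ h2]
  rw [h3]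
  exact div_mem (IntermediateField.algebra_adjoin_le_adjoin _ _ (fmap_mem_adjoin φ ha))
    (IntermediateField.algebra_adjoin_le_adjoin _ _ (fmap_mem_adjoin φ hb))

end Func

section Basis

open Fermat.Agent.GaussVal

variable {L K : Type*} [Field L] [Field K] [Algebra L K]

/-- **Descent of finite dimensional spaces** (with orthonormality with respect to a valuation ring
`A` of `K`, which may be `⊤`). -/
theorem exists_fixed_pivotFamily {A : ValuationSubring K} {V : Type*} [AddCommGroup V]
    [Module K V] [FiniteDimensional K V] {I : Type*} (co : I → V →ₗ[K] K)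
    (hsc : ∀ v : V, v ≠ 0 → ∃ n₀, co n₀ v ≠ 0 ∧ ∀ n, A.valuation (co n v) ≤ A.valuation (co n₀ v))
    (Γ : Set (K → K)) (hΓ : ∀ x : K, (∀ σ ∈ Γ, σ x = x) → x ∈ Set.range (algebraMap L K))
    (hΓ0 : ∀ σ ∈ Γ, σ 0 = 0) (hΓ1 : ∀ σ ∈ Γ, σ 1 = 1)
    (hs : ∀ σ ∈ Γ, ∀ v : V, ∃ w : V, ∀ i, co i w = σ (co i v)) :
    ∃ (b : Fin (finrank K V) → V) (p : Fin (finrank K V) → I), PivotFamily A co _ b p ∧
      ∀ i j, co i (b j) ∈ Set.range (algebraMap L K) := by
  classical
  obtain ⟨b, p, hb⟩ := exists_pivotFamily (A := A) (co := co) hsc (finrank K V) le_rfl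
  refine ⟨b, p, hb, fun i j => hΓ _ fun σ hσ => ?_⟩
  obtain ⟨w, hw⟩ := hs σ hσ (b j)
  have hcard : Fintype.card (Fin (finrank K V)) = finrank K V := Fintype.card_fin _
  let B : Basis (Fin (finrank K V)) K V :=
    basisOfLinearIndependentOfCardEqFinrank' b hb.linearIndependent hcard
  have hB : ∀ i, B i = b i := fun i => by simp [B]
  have hwb : w = b j := by
    have h1 : ∀ k, co (p k) (w - b j) = 0 := by
      intro k
      rw [map_sub, hw, hb.2]
      split_ifs
      · rw [hΓ1 σ hσ, sub_self]
      · rw [hΓ0 σ hσ, sub_self]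
    have h2 : w - b j = ∑ i, B.repr (w - b j) i • b i := by
      conv_lhs => rw [← B.sum_repr (w - b j)]
      simp only [hB]
    have h3 : ∀ k, B.repr (w - b j) k = 0 := by
      intro k
      have h4 := h1 k
      rw [h2, map_sum] at h4
      simp only [map_smul, hb.2, smul_eq_mul] at h4
      simpa using h4
    rw [← sub_eq_zero, h2]
    apply Finset.sum_eq_zero
    intro k _
    rw [h3, zero_smul]
  rw [← hw i, hwb]

end Basis

end Fermat.Agent.TriVal
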