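import Fermat.Agent.TriVal.GlueLift
import Fermat.Agent.TriGauss.ExpanInst
import Fermat.Agent.TwoGauss.Frob
import Fermat.Agent.TwoGauss.QExp
import Fermat.Agent.S36.GlueInst

/-!
# Liftings from level `m` to level `q² m`

`al`, `be`: `f(τ)`, `f(q²τ)` for `f` a lift of `g ∈ F'`, with the three reductions.
-/

set_option autoImplicit false

noncomputable section

open ModularCurve HahnSeries Module Polynomial AlgebraicCurve
open scoped IntermediateField
open Fermat.Agent.GaussVal Fermat.Agent.LocE Fermat.Agent.TriVal Fermat.Agent.S36norm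
open Fermat.Agent.TriGauss
open Fermat.Agent.TwoGauss (Dv)
open Fermat.Agent.X0Emb (twist twist_coeff twist_coeffMap)

namespace Fermat.Agent.TriGlue

/-! ### The degeneracy maps -/

section Deg

variable (K : Type*) [Field K] {N M : ℕ} [NeZero N] [NeZero M]

omit [NeZero N] [NeZero M] in
theorem jd_memC {d : ℕ} [NeZero d] (hd : d ∣ N) :
    qExpand K d (jqModC K) ∈ modularFunctionFieldFullC K N := jqModCd_mem_full K N hd

/-- `f(τ) ↦ f(τ)` -/
def alF (h : N ∣ M) : modularFunctionFieldFullC K N →ₐ[K] modularFunctionFieldFullC K M where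
  toFun x := ⟨(x : LaurentSeries K), full_degeneracyC_le K h x.2⟩
  map_one' := rfl
  map_mul' _ _ := rfl
  map_zero' := rfl
  map_add' _ _ := rfl
  commutes' _ := rfl

@[simp] theorem coe_alF (h : N ∣ M) (x : modularFunctionFieldFullC K N) :
    (alF K h x : LaurentSeries K) = x :=
  Subtype.coe_mk (p := fun y => y ∈ modularFunctionFieldFullC K M) (x : LaurentSeries K)
    (full_degeneracyC_le K h x.2)

omit [NeZero N] [NeZero M] in
theorem qExpand_mem (e : ℕ) [NeZero e] (h : N * e ∣ M) {x : LaurentSeries K}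
    (hx : x ∈ modularFunctionFieldFullC K N) : qExpand K e x ∈ modularFunctionFieldFullC K M := by
  rw [modularFunctionFieldFullC] at hx
  induction hx using IntermediateField.adjoin_induction with
  | mem y hy =>
    obtain ⟨d, hne, hd, rfl⟩ := hy
    rw [qExpand_qExpand]
    have : NeZero (e * d) := ⟨Nat.mul_ne_zero (NeZero.ne e) (NeZero.ne d)⟩
    refine jd_memC K ?_
    rw [mul_comm]
    exact (Nat.mul_dvd_mul_right hd e).trans h
  | algebraMap c =>
    have h1 := (qExpandAlgHomC K e).commutes c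
    change qExpand K e (algebraMap K (LaurentSeries K) c) ∈ _
    rw [show qExpand K e (algebraMap K (LaurentSeries K) c) = algebraMap K _ c from h1]
    exact IntermediateField.algebraMap_mem _ _
  | add y z _ _ hy hz => rw [map_add]; exact add_mem hy hz
  | mul y z _ _ hy hz => rw [map_mul]; exact mul_mem hy hz
  | inv y _ hy => rw [map_inv₀]; exact inv_mem hy

/-- `f(τ) ↦ f(eτ)` -/
def beF (e : ℕ) [NeZero e] (h : N * e ∣ M) :
    modularFunctionFieldFullC K N →ₐ[K] modularFunctionFieldFullC K M where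
  toFun x := ⟨qExpand K e x, qExpand_mem K e h x.2⟩
  map_one' := Subtype.ext (map_one (qExpand K e))
  map_mul' _ _ := Subtype.ext (map_mul (qExpand K e) _ _)
  map_zero' := Subtype.ext (map_zero (qExpand K e))
  map_add' _ _ := Subtype.ext (map_add (qExpand K e) _ _)
  commutes' c := Subtype.ext ((qExpandAlgHomC K e).commutes c)

omit [NeZero N] [NeZero M] in
@[simp] theorem coe_beF (e : ℕ) [NeZero e] (h : N * e ∣ M) (x : modularFunctionFieldFullC K N) :
    (beF K e h x : LaurentSeries K) = qExpand K e x := rfl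

variable {K}

omit [NeZero N] in
theorem algHom_ext_full {E : Type*} [Field E] [Algebra K E]
    {f g : modularFunctionFieldFullC K N →ₐ[K] E}
    (h : ∀ (d : ℕ) [NeZero d] (hd : d ∣ N), f (TriVal.jd K N d hd) = g (TriVal.jd K N d hd)) :
    f = g := by
  apply IntermediateField.algHom_ext_of_eq_adjoin K (S := modularFunctionFieldFullC K N)
    (s := divisorExpansionsC K N) rfl
  rintro _ ⟨d, hne, hd, rfl⟩
  exact h d hd

variable {L : Type*} [Field L] [Algebra L K]

theorem bc_alF (h : N ∣ M) (x : modularFunctionFieldFullC L N) :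
    bc L K M (alF L h x) = alF K h (bc L K N x) := by
  apply Subtype.ext
  rw [coe_bc, coe_alF, coe_alF, coe_bc]

omit [NeZero N] [NeZero M] in
theorem bc_beF (e : ℕ) [NeZero e] (h : N * e ∣ M) (x : modularFunctionFieldFullC L N) :
    bc L K M (beF L e h x) = beF K e h (bc L K N x) := by
  apply Subtype.ext
  rw [coe_bc, coe_beF, coeffMap_qExpand, coe_beF, coe_bc]

end Deg

/-! ### The three expansions -/

section Exp

variable {K : Type*} [Field K] {q m : ℕ} [NeZero m] [NeZero (m * q * q)] [NeZero (q * q)]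
  (hq : q.Prime) (hm : ¬ q ∣ m) {ζ : Kˣ}
  {e : modularFunctionFieldFullC K (m * q * q) →ₐ[K] LaurentSeries K}
  (he : ∀ d : Dv (m * q * q), e (TriVal.jd K _ d.1 d.2) = S1 ζ d)
  (hN : m * q * q = m * (q * q)) (hQ : q * q ≠ 0) (hc : (q * q).Coprime m)
  {w : modularFunctionFieldFullC K (m * q * q) ≃ₐ[K] modularFunctionFieldFullC K (m * q * q)}
  (hw : ∀ d : Dv (m * q * q), w (TriVal.jd K _ d.1 d.2) =
        TriVal.jd K _ (TriGauss.swapQ _ (q * q) m hN hQ hc d).1
          (TriGauss.swapQ _ (q * q) m hN hQ hc d).2)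

omit [NeZero m] [NeZero (m * q * q)] [NeZero (q * q)] in
theorem dvd_al : m ∣ m * q * q := Dvd.intro (q * q) (by ring)

omit [NeZero m] [NeZero (m * q * q)] [NeZero (q * q)] in
theorem dvd_be : m * (q * q) ∣ m * q * q := dvd_of_eq (by ring)

variable (K) in
/-- `f(τ)` -/
abbrev al2 (q m : ℕ) [NeZero m] [NeZero (m * q * q)] :
    modularFunctionFieldFullC K m →ₐ[K] modularFunctionFieldFullC K (m * q * q) :=
  alF K dvd_al

variable (K) in
/-- `f(q²τ)` -/
abbrev be2 (q m : ℕ) [NeZero (q * q)] :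
    modularFunctionFieldFullC K m →ₐ[K] modularFunctionFieldFullC K (m * q * q) :=
  beF K (q * q) dvd_be

omit [NeZero (q * q)] in
theorem al2_jd (d : ℕ) [NeZero d] (hd : d ∣ m) :
    al2 K q m (TriVal.jd K m d hd) = TriVal.jd K (m * q * q) d (hd.trans dvd_al) := by
  apply Subtype.ext
  rw [coe_alF, coe_jd, coe_jd]

omit [NeZero m] [NeZero (m * q * q)] in
theorem be2_jd (d : ℕ) [NeZero d] (hd : d ∣ m) [NeZero (q * q * d)] :
    be2 K q m (TriVal.jd K m d hd) = TriVal.jd K (m * q * q) (q * q * d) (sq_mul_dvd hd) := by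
  apply Subtype.ext
  rw [coe_beF, coe_jd, coe_jd, qExpand_qExpand]

include hq hm he in
omit [NeZero (q * q)] in
theorem e_al2 (f : modularFunctionFieldFullC K m) : e (al2 K q m f) = (f : LaurentSeries K) := by
  have h : e.comp (al2 K q m) = (modularFunctionFieldFullC K m).val := by
    apply algHom_ext_full
    intro d _ hd
    rw [AlgHom.comp_apply, al2_jd]
    have h1 := he ⟨d, hd.trans dvd_al⟩
    rw [S1_of_dvd_mq hq hm ζ ⟨d, hd.trans dvd_al⟩ (hd.trans (dvd_mul_right m q))] at h1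
    exact h1
  exact DFunLike.congr_fun h f

/-- `twist` as an algebra homomorphism -/
def twistAlg (ζ : Kˣ) : LaurentSeries K →ₐ[K] LaurentSeries K :=
  { twist ζ with
    commutes' := fun c => by
      change twist ζ (algebraMap K (LaurentSeries K) c) = _
      rw [algebraMap_laurentSeries_eq_single]
      ext n
      rw [twist_coeff]
      rcases eq_or_ne n 0 with rfl | hn
      · simp
      · rw [HahnSeries.coeff_single_of_ne hn, mul_zero] }

include hq he in
omit [NeZero m] in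
theorem e_be2 (f : modularFunctionFieldFullC K m) :
    e (be2 K q m f) = twist ζ (f : LaurentSeries K) := by
  have h : e.comp (be2 K q m) = (twistAlg ζ).comp (modularFunctionFieldFullC K m).val := by
    apply algHom_ext_full
    intro d _ hd
    have : NeZero (q * q * d) := ⟨Nat.mul_ne_zero (NeZero.ne _) (NeZero.ne d)⟩
    rw [AlgHom.comp_apply, be2_jd]
    have h1 := he ⟨q * q * d, sq_mul_dvd hd⟩
    rw [S1_sq_mul hq] at h1
    exact h1
  exact DFunLike.congr_fun h f

include hw in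
theorem w_al2 (f : modularFunctionFieldFullC K m) : w (al2 K q m f) = be2 K q m f := by
  have h : (w : _ →ₐ[K] modularFunctionFieldFullC K (m * q * q)).comp (al2 K q m) =
      be2 K q m := by
    apply algHom_ext_full
    intro d _ hd
    have : NeZero (q * q * d) := ⟨Nat.mul_ne_zero (NeZero.ne _) (NeZero.ne d)⟩
    rw [AlgHom.comp_apply, be2_jd]
    have h1 := hw ⟨d, hd.trans dvd_al⟩
    have h2 := swapQ_mul hN hQ hc (a := d) (b := 1) (b' := q * q) hd (mul_one _)
      (by rw [mul_one]; exact hd.trans dvd_al) (by rw [mul_comm]; exact sq_mul_dvd hd)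
    have h3 : swapQ (m * q * q) (q * q) m hN hQ hc ⟨d, hd.trans dvd_al⟩ =
        ⟨q * q * d, sq_mul_dvd hd⟩ := by
      have h4 : (⟨d, hd.trans dvd_al⟩ : Dv (m * q * q)) =
        ⟨d * 1, by rw [mul_one]; exact hd.trans dvd_al⟩ := by
        apply Subtype.ext; exact (mul_one d).symm
      rw [h4, h2]
      apply Subtype.ext
      exact mul_comm _ _
    exact h1.trans (Tjd_congr h3)
  exact DFunLike.congr_fun h f

include hw in
theorem w_be2 (hww : ∀ f, w (w f) = f) (f : modularFunctionFieldFullC K m) :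
    w (be2 K q m f) = al2 K q m f := by
  rw [← w_al2 hN hQ hc hw, hww]

end Exp

/-! ### Reductions -/

section Twist

variable {K : Type*} [Field K] {A : ValuationSubring K}

theorem twist_mem_gaussSubring {z : Aˣ} (hz : IsLocalRing.residue A (z : A) = 1) {ζ : Kˣ}
    (hζ : Units.map (A.subtype : A →* K) z = ζ) {y : LaurentSeries K} (hy : y ∈ gaussSubring A) :
    twist ζ y ∈ gaussSubring A := by
  obtain ⟨Y₁, Y₂, hY, h⟩ := hy
  refine ⟨twist z Y₁, twist z Y₂, ?_, ?_⟩
  · rw [TriMod.redS_twist hz]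
    exact hY
  · rw [TriMod.incl_twist, TriMod.incl_twist, hζ, ← map_mul, h]

theorem gaussRed_twist {z : Aˣ} (hz : IsLocalRing.residue A (z : A) = 1) {ζ : Kˣ}
    (hζ : Units.map (A.subtype : A →* K) z = ζ) {y : LaurentSeries K} (hy : y ∈ gaussSubring A)
    (hy' : twist ζ y ∈ gaussSubring A) : gaussRed A ⟨twist ζ y, hy'⟩ = gaussRed A ⟨y, hy⟩ := by
  have hy2 := hy
  obtain ⟨Y₁, Y₂, hY, h⟩ := hy2
  rw [gaussRed_eq (y := ⟨y, hy⟩) hY h,
    gaussRed_eq (y := ⟨twist ζ y, hy'⟩) (Y₁ := twist z Y₁) (Y₂ := twist z Y₂)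
      (by rw [TriMod.redS_twist hz]; exact hY)
      (by
        change twist ζ y * _ = _
        rw [TriMod.incl_twist, TriMod.incl_twist, hζ, ← map_mul, h]),
    TriMod.redS_twist hz, TriMod.redS_twist hz]

end Twist

section Final

variable {A : ValuationSubring Qb} {L : Type*} [Field L] [Algebra L Qb]
  {q m : ℕ} [NeZero m] [NeZero (m * q * q)] [NeZero (q * q)]
  (hq : q.Prime) (hA : A.LiesOverPrime q) (hL : IsK0 A L) (hm : ¬ q ∣ m)
  {ζ : Qbˣ} (hζ : IsPrimitiveRoot (ζ : Qb) q)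
  {e : modularFunctionFieldFullC Qb (m * q * q) →ₐ[Qb] LaurentSeries Qb}
  (he : ∀ d : Dv (m * q * q), e (TriVal.jd Qb _ d.1 d.2) = S1 ζ d)
  (hN : m * q * q = m * (q * q)) (hQ : q * q ≠ 0) (hc : (q * q).Coprime m)
  {w : modularFunctionFieldFullC Qb (m * q * q) ≃ₐ[Qb] modularFunctionFieldFullC Qb (m * q * q)}
  (hw : ∀ d : Dv (m * q * q), w (TriVal.jd Qb _ d.1 d.2) =
        TriVal.jd Qb _ (TriGauss.swapQ _ (q * q) m hN hQ hc d).1
          (TriGauss.swapQ _ (q * q) m hN hQ hc d).2)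
  (hww : ∀ f, w (w f) = f)

/-- the residue field -/
local notation "κ" => IsLocalRing.ResidueField A

/-- `f` has reduction `g` for the expansion `ι` -/
def RedTo {F : Type*} [Field F] (A : ValuationSubring Qb) (ι : F →+* LaurentSeries Qb) (f : F)
    (g : LaurentSeries (IsLocalRing.ResidueField A)) : Prop :=
  ∃ h : ι f ∈ gaussSubring A, gaussRed A ⟨ι f, h⟩ = g

omit [NeZero (q * q)] in
theorem RedTo.gdv {F : Type*} [Field F] {L' : Subfield Qb} {ϖ : Qb} {hU : IsUnif A L' ϖ}
    {ι : F →+* LaurentSeries Qb} {hι : ∀ x, ι x ∈ ratSer L'} {f : F}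
    {g : LaurentSeries (IsLocalRing.ResidueField A)} (h : RedTo A ι f g) :
    f ∈ (gdv hq hA hU ι hι).O ∧ (gdv hq hA hU ι hι).red f = g := by
  obtain ⟨h1, h2⟩ := h
  exact ⟨h1, (gdv_red_eq h1).trans h2⟩

variable {f : modularFunctionFieldFullC L m}
    {g : LaurentSeries (IsLocalRing.ResidueField A)} (hfg : RedTo A (iota0 L m) f g)

include hfg in
omit [NeZero (q * q)] in
theorem red0_al2 : RedTo A (i0 L Qb (m * q * q)) (al2 L q m f) g := by
  obtain ⟨h1, h2⟩ := hfg
  have h3 : i0 L Qb (m * q * q) (al2 L q m f) = iota0 L m f := by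
    rw [i0_apply, bc_alF, coe_alF, iota0_apply, coe_bc]
  refine ⟨h3 ▸ h1, ?_⟩
  rw [← h2]
  congr 1

include hfg hq hm he in
omit [NeZero (q * q)] in
theorem red1_al2 : RedTo A (i1 L e) (al2 L q m f) g := by
  obtain ⟨h1, h2⟩ := hfg
  have h3 : i1 L e (al2 L q m f) = iota0 L m f := by
    rw [i1_apply, bc_alF]
    exact e_al2 hq hm he _
  refine ⟨h3 ▸ h1, ?_⟩
  rw [← h2]
  congr 1
  exact Subtype.ext h3

include hfg hw in
theorem red2_al2 : RedTo A (i2 L w) (al2 L q m f) (qExpand κ (q * q) g) := by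
  obtain ⟨h1, h2⟩ := hfg
  have h3 : i2 L w (al2 L q m f) = qExpand Qb (q * q) (iota0 L m f) := by
    rw [i2_apply, bc_alF]
    exact congrArg (fun x : modularFunctionFieldFullC Qb (m * q * q) => (x : LaurentSeries Qb))
      (w_al2 hN hQ hc hw _)
  have h4 := TwoGauss.qExpand_mem_gaussSubring (q * q) h1
  refine ⟨h3 ▸ h4, ?_⟩
  rw [← h2]
  refine Eq.trans ?_ (TwoGauss.gaussRed_qExpand (q * q) ⟨_, h1⟩)
  congr 1
  exact Subtype.ext h3

include hfg in
omit [NeZero m] [NeZero (m * q * q)] in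
theorem red0_be2 : RedTo A (i0 L Qb (m * q * q)) (be2 L q m f) (qExpand κ (q * q) g) := by
  obtain ⟨h1, h2⟩ := hfg
  have h3 : i0 L Qb (m * q * q) (be2 L q m f) = qExpand Qb (q * q) (iota0 L m f) := by
    rw [i0_apply, bc_beF, coe_beF, iota0_apply, coe_bc]
  have h4 := TwoGauss.qExpand_mem_gaussSubring (q * q) h1
  refine ⟨h3 ▸ h4, ?_⟩
  rw [← h2]
  refine Eq.trans ?_ (TwoGauss.gaussRed_qExpand (q * q) ⟨_, h1⟩)
  congr 1
  exact Subtype.ext h3

include hfg hq hζ he in
omit [NeZero m] in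
theorem red1_be2 [Fact q.Prime] [CharP κ q] : RedTo A (i1 L e) (be2 L q m f) g := by
  obtain ⟨h1, h2⟩ := hfg
  obtain ⟨z, hz1, hz2⟩ := TriMod.exists_zU (A := A) (q := q) (ζ := ζ)
    (Units.ext (by push_cast; exact hζ.pow_eq_one))
  have h3 : i1 L e (be2 L q m f) = twist ζ (iota0 L m f) := by
    rw [i1_apply, bc_beF]
    exact e_be2 hq he _
  have h4 := twist_mem_gaussSubring hz2 hz1 h1
  refine ⟨h3 ▸ h4, ?_⟩
  rw [← h2, ← gaussRed_twist hz2 hz1 h1 h4]
  congr 1
  exact Subtype.ext h3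

include hfg hw hww in
theorem red2_be2 : RedTo A (i2 L w) (be2 L q m f) g := by
  obtain ⟨h1, h2⟩ := hfg
  have h3 : i2 L w (be2 L q m f) = iota0 L m f := by
    rw [i2_apply, bc_beF]
    exact congrArg (fun x : modularFunctionFieldFullC Qb (m * q * q) => (x : LaurentSeries Qb))
      (w_be2 hN hQ hc hw hww _)
  refine ⟨h3 ▸ h1, ?_⟩
  rw [← h2]
  congr 1
  exact Subtype.ext h3

omit [NeZero (q * q)] in
theorem jF_eq (K : Type*) [Field K] (N : ℕ) [NeZero N] :
    jF K N = ⟨jqModC K, jqModC_mem_full K N⟩ := Subtype.ext (qExpand_one_apply _)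

omit [NeZero (q * q)] in
theorem al2_jm (K : Type*) [Field K] :
    al2 K q m ⟨jqModC K, jqModC_mem_full K m⟩ = jF K (m * q * q) := by
  apply Subtype.ext
  rw [jF_eq, coe_alF]

omit [NeZero m] in
theorem be2_jm (K : Type*) [Field K] :
    be2 K q m ⟨jqModC K, jqModC_mem_full K m⟩ = jq2 K q m := by
  apply Subtype.ext
  rw [coe_beF]
  rfl

omit [NeZero m] in
/-- `j(q²τ)` is integral over `L[j]`. -/
theorem isIntegral_jq2 (L : Type*) [Field L] (ι : L →+* ℂ) :
    IsIntegral (Algebra.adjoin L {jF L (m * q * q)}) (jq2 L q m) := by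
  obtain ⟨n, P, hPn, -, hP⟩ := TwoGauss.exists_modPoly ι (q * q)
  have hrel : ∑ i ∈ Finset.range (n + 1), aeval (jF L (m * q * q)) (P i) * jq2 L q m ^ i = 0 := by
    apply (show Function.Injective (modularFunctionFieldFullC L (m * q * q)).val from
      (modularFunctionFieldFullC L (m * q * q)).val.injective)
    rw [map_sum, map_zero, ← hP]
    refine Finset.sum_congr rfl fun i _ => ?_
    rw [map_mul, map_pow, ← Polynomial.aeval_algHom_apply]
    have e1 : (modularFunctionFieldFullC L (m * q * q)).val (jF L (m * q * q)) = jqModC L :=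
      qExpand_one_apply _
    rw [e1]
    rfl
  rw [Finset.sum_range_succ, hPn, map_one, one_mul, add_comm] at hrel
  exact isIntegral_of_rel (fun i => aeval (jF L (m * q * q)) (P i))
    (fun i => aeval_mem_adjoin_singleton L _) hrel

variable (hm0 : m ≠ 0) (h0 : S18aux.DegThm Qb m) (h1 : S18aux.DegThm L m)
  (h2 : S18aux.DegThm (IsLocalRing.ResidueField A) m)

include hA hL hm0 h0 h1 h2 hq hm he hw in
/-- **(al)** -/
theorem exists_al [IsAlgClosed κ]
    (hg : genusFF Qb (modularFunctionFieldFullC Qb m) ≤ genusFF κ (modularFunctionFieldFullC κ m))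
    (g : modularFunctionFieldFullC κ m)
    (hgi : IsIntegral (Algebra.adjoin κ
      {(⟨jqModC κ, jqModC_mem_full κ m⟩ : modularFunctionFieldFullC κ m)}) g) :
    ∃ f : modularFunctionFieldFullC L (m * q * q),
      IsIntegral (Algebra.adjoin L {jF L (m * q * q)}) f ∧
      RedTo A (i0 L Qb (m * q * q)) f g ∧ RedTo A (i1 L e) f g ∧
      RedTo A (i2 L w) f (qExpand κ (q * q) (g : LaurentSeries κ)) := by
  obtain ⟨f, hf, hfi, hfg⟩ := exists_lift_j hq hA hL hm0 h0 h1 h2 hg g hgi
  have hf' : RedTo A (iota0 L m) f g := ⟨hf, (vm_red hq hA hL hf).symm.trans hfg⟩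
  refine ⟨al2 L q m f, ?_, red0_al2 hf', red1_al2 hq hm he hf', red2_al2 hN hQ hc hw hf'⟩
  have h3 := S36norm.isIntegral_adjoin_map (al2 L q m) hfi
  rwa [al2_jm] at h3

include hA hL hm0 h0 h1 h2 hq hm he hw in
/-- **(al_inv)** -/
theorem exists_al_inv [IsAlgClosed κ]
    (hg : genusFF Qb (modularFunctionFieldFullC Qb m) ≤ genusFF κ (modularFunctionFieldFullC κ m))
    (g : modularFunctionFieldFullC κ m)
    (hgi : IsIntegral (Algebra.adjoin κ
      {(⟨jqModC κ, jqModC_mem_full κ m⟩ : modularFunctionFieldFullC κ m)⁻¹}) g) :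
    ∃ f : modularFunctionFieldFullC L (m * q * q),
      IsIntegral (Algebra.adjoin L {(jF L (m * q * q))⁻¹}) f ∧
      RedTo A (i0 L Qb (m * q * q)) f g ∧ RedTo A (i1 L e) f g ∧
      RedTo A (i2 L w) f (qExpand κ (q * q) (g : LaurentSeries κ)) := by
  obtain ⟨f, hf, hfi, hfg⟩ := exists_lift_j_inv hq hA hL hm0 h0 h1 h2 hg g hgi
  have hf' : RedTo A (iota0 L m) f g := ⟨hf, (vm_red hq hA hL hf).symm.trans hfg⟩
  refine ⟨al2 L q m f, ?_, red0_al2 hf', red1_al2 hq hm he hf', red2_al2 hN hQ hc hw hf'⟩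
  have h3 := S36norm.isIntegral_adjoin_map (al2 L q m) hfi
  rwa [map_inv₀, al2_jm] at h3

include hA hL hm0 h0 h1 h2 hq hζ he hw hww in
/-- **(be)** -/
theorem exists_be [Fact q.Prime] [CharP κ q] [IsAlgClosed κ]
    (hg : genusFF Qb (modularFunctionFieldFullC Qb m) ≤ genusFF κ (modularFunctionFieldFullC κ m))
    (g : modularFunctionFieldFullC κ m)
    (hgi : IsIntegral (Algebra.adjoin κ
      {(⟨jqModC κ, jqModC_mem_full κ m⟩ : modularFunctionFieldFullC κ m)}) g) :
    ∃ f : modularFunctionFieldFullC L (m * q * q),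
      IsIntegral (Algebra.adjoin L {jF L (m * q * q)}) f ∧
      RedTo A (i0 L Qb (m * q * q)) f (qExpand κ (q * q) (g : LaurentSeries κ)) ∧
      RedTo A (i1 L e) f g ∧ RedTo A (i2 L w) f g := by
  obtain ⟨f, hf, hfi, hfg⟩ := exists_lift_j hq hA hL hm0 h0 h1 h2 hg g hgi
  have hf' : RedTo A (iota0 L m) f g := ⟨hf, (vm_red hq hA hL hf).symm.trans hfg⟩
  refine ⟨be2 L q m f, ?_, red0_be2 hf', red1_be2 hq hζ he hf', red2_be2 hN hQ hc hw hww hf'⟩
  have h3 := S36norm.isIntegral_adjoin_map (be2 L q m) hfi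
  rw [be2_jm] at h3
  exact S36norm.isIntegral_adjoin_trans h3
    (isIntegral_jq2 L (TwoGauss.iotaBar.comp (algebraMap L Qb)))

include hA hL hm0 h0 h1 h2 hq hζ he hw hww in
/-- **(be_inv)** -/
theorem exists_be_inv [Fact q.Prime] [CharP κ q] [IsAlgClosed κ]
    (hg : genusFF Qb (modularFunctionFieldFullC Qb m) ≤ genusFF κ (modularFunctionFieldFullC κ m))
    (g : modularFunctionFieldFullC κ m)
    (hgi : IsIntegral (Algebra.adjoin κ
      {(⟨jqModC κ, jqModC_mem_full κ m⟩ : modularFunctionFieldFullC κ m)⁻¹}) g) :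
    ∃ f : modularFunctionFieldFullC L (m * q * q),
      IsIntegral (Algebra.adjoin L {(jq2 L q m)⁻¹}) f ∧
      RedTo A (i0 L Qb (m * q * q)) f (qExpand κ (q * q) (g : LaurentSeries κ)) ∧
      RedTo A (i1 L e) f g ∧ RedTo A (i2 L w) f g := by
  obtain ⟨f, hf, hfi, hfg⟩ := exists_lift_j_inv hq hA hL hm0 h0 h1 h2 hg g hgi
  have hf' : RedTo A (iota0 L m) f g := ⟨hf, (vm_red hq hA hL hf).symm.trans hfg⟩
  refine ⟨be2 L q m f, ?_, red0_be2 hf', red1_be2 hq hζ he hf', red2_be2 hN hQ hc hw hww hf'⟩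
  have h3 := S36norm.isIntegral_adjoin_map (be2 L q m) hfi
  rwa [map_inv₀, be2_jm] at h3

end Final

end Fermat.Agent.TriGlue
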