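import Fermat.Agent.TriVal.Base
import Fermat.Agent.TwoComp.Lp

/-!
# Integrality over `K[x]` : semilinear maps and descent
-/

set_option autoImplicit false

noncomputable section

open ModularCurve HahnSeries Module Polynomial
open Fermat.Agent.TriVal Fermat.Agent.TwoComp

namespace Fermat.Agent.TriGlue

section Map

variable {K F K' F' : Type*} [Field K] [Field F] [Algebra K F] [Field K'] [Field F']
  [Algebra K' F']

/-- Integrality over `K[x]` passes to images under semilinear ring homomorphisms. -/
theorem isIntegral_adjoin_map (σ : K →+* K') (φ : F →+* F')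
    (hφ : ∀ c : K, φ (algebraMap K F c) = algebraMap K' F' (σ c)) {x f : F}
    (h : IsIntegral (Algebra.adjoin K {x}) f) :
    IsIntegral (Algebra.adjoin K' {φ x}) (φ f) := by
  have hm : ∀ a : Algebra.adjoin K {x}, φ a ∈ Algebra.adjoin K' {φ x} := by
    rintro ⟨a, ha⟩
    change φ a ∈ _
    induction ha using Algebra.adjoin_induction with
    | mem y hy =>
      rw [Set.mem_singleton_iff] at hy
      subst hy
      exact Algebra.self_mem_adjoin_singleton K' (φ y)
    | algebraMap c => rw [hφ]; exact Subalgebra.algebraMap_mem _ _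
    | add y z _ _ hy hz => rw [map_add]; exact add_mem hy hz
    | mul y z _ _ hy hz => rw [map_mul]; exact mul_mem hy hz
  let ψ : Algebra.adjoin K {x} →+* Algebra.adjoin K' {φ x} :=
    (φ.comp (Algebra.adjoin K {x}).subtype).codRestrict (Algebra.adjoin K' {φ x}).toSubring hm
  exact IsIntegral.map_of_comp_eq ψ φ (RingHom.ext fun z => rfl) h

end Map

section Rel

variable {K F : Type*} [Field K] [Field F] [Algebra K F]

theorem isIntegral_of_rel {A : Subalgebra K F} {y : F} {n : ℕ} (c : ℕ → F) (hc : ∀ i, c i ∈ A)
    (hrel : y ^ n + ∑ i ∈ Finset.range n, c i * y ^ i = 0) : IsIntegral A y := by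
  classical
  let c' : ℕ → A := fun i => ⟨c i, hc i⟩
  let p : A[X] := X ^ n + ∑ i ∈ Finset.range n, Polynomial.C (c' i) * X ^ i
  have hdeg : (∑ i ∈ Finset.range n, Polynomial.C (c' i) * X ^ i : A[X]).degree < n := by
    refine (degree_sum_le _ _).trans_lt ?_
    rw [Finset.sup_lt_iff (by simp)]
    intro i hi
    rw [Finset.mem_range] at hi
    exact (degree_C_mul_X_pow_le _ _).trans_lt (by exact_mod_cast hi)
  refine ⟨p, monic_X_pow_add hdeg, ?_⟩
  rw [← hrel, eval₂_add, eval₂_finsetSum, eval₂_X_pow]
  congr 1
  refine Finset.sum_congr rfl fun i _ => ?_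
  rw [eval₂_mul, eval₂_C, eval₂_X_pow]
  rfl

end Rel

section Desc

variable {L K : Type*} [Field L] [Field K] [Algebra L K] {N : ℕ}

/-- the coefficients of an element of `K[x]` -/
theorem exists_aeval_of_mem_adjoin {F : Type*} [Field F] [Algebra K F] {x a : F}
    (ha : a ∈ Algebra.adjoin K {x}) : ∃ P : K[X], a = aeval x P := by
  rw [Algebra.adjoin_singleton_eq_range_aeval] at ha
  obtain ⟨P, rfl⟩ := ha
  exact ⟨P, rfl⟩

theorem fmap_sub (φ : K →ₗ[L] L) (x y : LaurentSeries K) :
    fmap φ (x - y) = fmap φ x - fmap φ y := by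
  ext n; simp

theorem fmap_sum (φ : K →ₗ[L] L) {ι : Type*} (s : Finset ι) (x : ι → LaurentSeries K) :
    fmap φ (∑ i ∈ s, x i) = ∑ i ∈ s, fmap φ (x i) := by
  ext n
  simp [HahnSeries.coeff_sum]

/-- **Descent of integrality.** -/
theorem isIntegral_descent {x f : modularFunctionFieldFullC L N}
    (h : IsIntegral (Algebra.adjoin K {bc L K N x}) (bc L K N f)) :
    IsIntegral (Algebra.adjoin L {x}) f := by
  classical
  obtain ⟨φ, hφ⟩ := exists_functional (L := L) (K := K)
  obtain ⟨p, hpm, hp⟩ := h
  set n := p.natDegree with hn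
  choose P hP using fun i => exists_aeval_of_mem_adjoin (p.coeff i).2
  -- the polynomial over `L`
  let Q : ℕ → L[X] := fun i => ∑ k ∈ Finset.range ((P i).natDegree + 1),
    monomial k (φ ((P i).coeff k))
  have key : ∀ i, fmap φ ((aeval (bc L K N x) (P i) * (bc L K N f) ^ i :
      modularFunctionFieldFullC K N) : LaurentSeries K) =
      ((aeval x (Q i) * f ^ i : modularFunctionFieldFullC L N) : LaurentSeries L) := by
    intro i
    have e1 : ((aeval (bc L K N x) (P i) * (bc L K N f) ^ i : modularFunctionFieldFullC K N) :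
        LaurentSeries K) = ∑ k ∈ Finset.range ((P i).natDegree + 1),
          algebraMap K (LaurentSeries K) ((P i).coeff k) *
            coeffMap (algebraMap L K) ((x ^ k * f ^ i : modularFunctionFieldFullC L N) :
              LaurentSeries L) := by
      rw [aeval_eq_sum_range, Finset.sum_mul]
      push_cast
      refine Finset.sum_congr rfl fun k _ => ?_
      rw [Algebra.smul_def, mul_assoc]
      congr 1
      rw [map_mul, map_pow, map_pow, coe_bc, coe_bc]
    have e2 : ((aeval x (Q i) * f ^ i : modularFunctionFieldFullC L N) : LaurentSeries L) =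
        ∑ k ∈ Finset.range ((P i).natDegree + 1),
          algebraMap L (LaurentSeries L) (φ ((P i).coeff k)) *
            ((x ^ k * f ^ i : modularFunctionFieldFullC L N) : LaurentSeries L) := by
      rw [map_sum, Finset.sum_mul]
      push_cast
      refine Finset.sum_congr rfl fun k _ => ?_
      rw [aeval_monomial]
      push_cast
      rw [mul_assoc]
    rw [e1, e2, fmap_sum]
    exact Finset.sum_congr rfl fun k _ => fmap_algebraMap_mul φ _ _
  -- the relation over `L`
  have hrel : f ^ n + ∑ i ∈ Finset.range n, aeval x (Q i) * f ^ i = 0 := by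
    apply Subtype.ext
    have h1 : (bc L K N f) ^ n + ∑ i ∈ Finset.range n, aeval (bc L K N x) (P i) *
        (bc L K N f) ^ i = 0 := by
      rw [← hp, eval₂_eq_sum_range, Finset.sum_range_succ, ← hn]
      have h2 : p.coeff n = 1 := hpm
      rw [h2, map_one, one_mul, add_comm]
      congr 1
      refine Finset.sum_congr rfl fun i _ => ?_
      rw [← hP]
      rfl
    have h2 := congrArg (fun z : modularFunctionFieldFullC K N => fmap φ (z : LaurentSeries K)) h1
    simp only [AddMemClass.coe_add, AddSubmonoidClass.coe_finsetSum, ZeroMemClass.coe_zero] at h2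
    rw [fmap_add, fmap_sum, fmap_zero] at h2
    push_cast
    rw [← h2]
    congr 1
    · have h3 : ((bc L K N f ^ n : modularFunctionFieldFullC K N) : LaurentSeries K) =
          algebraMap K (LaurentSeries K) 1 *
            coeffMap (algebraMap L K) ((f ^ n : modularFunctionFieldFullC L N) :
              LaurentSeries L) := by
        rw [map_one, one_mul, ← coe_bc, map_pow]
      rw [h3, fmap_algebraMap_mul, hφ, map_one, one_mul]
      push_cast
      rfl
    · exact Finset.sum_congr rfl fun i _ => (key i).symm
  -- conclusion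
  exact isIntegral_of_rel (fun i => aeval x (Q i)) (fun i => aeval_mem_adjoin_singleton L x) hrel

theorem isIntegral_bc_iff {x f : modularFunctionFieldFullC L N} :
    IsIntegral (Algebra.adjoin K {bc L K N x}) (bc L K N f) ↔
      IsIntegral (Algebra.adjoin L {x}) f :=
  ⟨isIntegral_descent, isIntegral_adjoin_map (algebraMap L K) (bc L K N) (bc_algebraMap L K N)⟩

end Desc

end Fermat.Agent.TriGlue
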