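import Fermat.Agent.TriVal.GlueK0
import Fermat.Agent.TriVal.GlueDesc
import Fermat.Agent.TwoGauss.Good
import Fermat.Agent.TwoComp.Affine
import Fermat.Agent.TwoComp.Red

/-!
# Lifting over `K₀` at good reduction

Every element of the function field `F'` of `X₀(m)` over the residue field, integral over `k[x̃]`,
is the reduction of an element of the function field over `K₀`, integral over `K₀[x]`.
-/

set_option autoImplicit false

noncomputable section

open ModularCurve HahnSeries Module Polynomial AlgebraicCurve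
open scoped IntermediateField
open Fermat.Agent.GaussVal Fermat.Agent.LocE Fermat.Agent.TriVal Fermat.Agent.S36norm
open Fermat.Agent.TriComp Fermat.Agent.TwoComp Fermat.Agent.FF Fermat.Agent.RR

namespace Fermat.Agent.TriGlue

section Gal

variable {K : Type*} [Field K] {N : ℕ}

/-- `L(n(x)_∞)` is stable under semilinear endomorphisms fixing `x`. -/
theorem exists_conj_mem_Lp [IsFF K (modularFunctionFieldFullC K N)] (σ : K →+* K)
    {x : modularFunctionFieldFullC K N} (hx0 : x ≠ 0)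
    (hx : coeffMap σ (x : LaurentSeries K) = x) (n : ℕ) {f : modularFunctionFieldFullC K N}
    (hf : f ∈ Lp (K := K) x n) :
    ∃ w ∈ Lp (K := K) x n, (w : LaurentSeries K) = coeffMap σ (f : LaurentSeries K) := by
  let φ : modularFunctionFieldFullC K N →+* modularFunctionFieldFullC K N :=
    @bc K K _ _ σ.toAlgebra N
  have hφ : ∀ y : modularFunctionFieldFullC K N, ((φ y : modularFunctionFieldFullC K N) :
      LaurentSeries K) = coeffMap σ (y : LaurentSeries K) := fun y => rfl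
  have hφx : φ x = x := Subtype.ext hx
  have hφc : ∀ c : K, φ (algebraMap K _ c) = algebraMap K _ (σ c) := fun c =>
    @bc_algebraMap K K _ _ σ.toAlgebra N c
  refine ⟨φ f, ?_, hφ f⟩
  rw [mem_Lp_iff_isIntegral hx0] at hf ⊢
  obtain ⟨h1, h2⟩ := hf
  have h3 := isIntegral_adjoin_map σ φ hφc h1
  have h4 := isIntegral_adjoin_map σ φ hφc h2
  rw [map_mul, map_pow, map_inv₀, hφx] at h4
  rw [hφx] at h3
  exact ⟨h3, h4⟩

end Gal

section Lift

variable {A : ValuationSubring Qb} {L : Type*} [Field L] [Algebra L Qb]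
  {q : ℕ} (hq : q.Prime) (hA : A.LiesOverPrime q) (hL : IsK0 A L)
  {m : ℕ} (hm : m ≠ 0) (h0 : S18aux.DegThm Qb m) (h1 : S18aux.DegThm L m)
  (h2 : S18aux.DegThm (IsLocalRing.ResidueField A) m)

/-- the residue field -/
local notation "κ" => IsLocalRing.ResidueField A

/-- the coefficient maps of the inertia group -/
def Gam (A : ValuationSubring Qb) : Set (Qb →+* Qb) :=
  {σ | ∃ τ ∈ A.inertiaSubgroupIn ℚ, σ = ((τ : Qb ≃ₐ[ℚ] Qb) : Qb →+* Qb)}

include hL in
theorem mem_range_of_Gam (x : Qb) (hx : ∀ σ ∈ Gam A, σ x = x) :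
    x ∈ Set.range (algebraMap L Qb) := by
  rw [hL, mem_K0_iff]
  intro σ hσ
  exact hx _ ⟨σ, hσ, rfl⟩

include hm h0 in
theorem isFF_Qb : IsFF Qb (modularFunctionFieldFullC Qb m) := by
  have : FiniteDimensional Qb⟮(⟨jqModC Qb, jqModC_mem_full Qb m⟩ :
      modularFunctionFieldFullC Qb m)⟯ (modularFunctionFieldFullC Qb m) := by
    apply FiniteDimensional.of_finrank_pos
    rw [h0]
    exact S18aux.dedekindPsi_pos hm
  exact IsFF.of_finite (tr_jm Qb m)

include hm h2 in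
theorem isFF_κ : IsFF κ (modularFunctionFieldFullC κ m) := by
  have : FiniteDimensional κ⟮(⟨jqModC κ, jqModC_mem_full κ m⟩ :
      modularFunctionFieldFullC κ m)⟯ (modularFunctionFieldFullC κ m) := by
    apply FiniteDimensional.of_finrank_pos
    rw [h2]
    exact S18aux.dedekindPsi_pos hm
  exact IsFF.of_finite (tr_jm κ m)

/-- the reduction data at level `m` over `ℚ̄` -/
def GQ : Deuring.GaussData Qb (modularFunctionFieldFullC Qb m) κ (modularFunctionFieldFullC κ m) :=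
  haveI : FiniteDimensional Qb⟮jEl Qb (modularFunctionFieldFullC Qb m) m rfl⟯
      (modularFunctionFieldFullC Qb m) := FiniteDimensional.of_finrank_pos
        ((S18aux.dedekindPsi_pos hm).trans_eq h0.symm)
  modGauss hq hA (modularFunctionFieldFullC Qb m) m rfl (h0.trans h2.symm).le

theorem mem_GQ_O {x : modularFunctionFieldFullC Qb m} :
    x ∈ (GQ hq hA hm h0 h2).O ↔ (x : LaurentSeries Qb) ∈ gaussSubring A := Iff.rfl

theorem coe_GQ_ρ {x : modularFunctionFieldFullC Qb m} (hx : x ∈ (GQ hq hA hm h0 h2).O) :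
    ((GQ hq hA hm h0 h2).ρ ⟨x, hx⟩ : LaurentSeries κ) = gaussRed A ⟨(x : LaurentSeries Qb), hx⟩ :=
  haveI : FiniteDimensional Qb⟮jEl Qb (modularFunctionFieldFullC Qb m) m rfl⟯
      (modularFunctionFieldFullC Qb m) := FiniteDimensional.of_finrank_pos
        ((S18aux.dedekindPsi_pos hm).trans_eq h0.symm)
  coe_modGauss_ρ (hE := rfl) (hdeg := (h0.trans h2.symm).le) ⟨x, hx⟩

theorem bc_mem_GQ_O {f : modularFunctionFieldFullC L m} :
    bc L Qb m f ∈ (GQ hq hA hm h0 h2).O ↔ f ∈ (vm hq hA hL m).O := Iff.rfl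

theorem GQ_ρ_bc {f : modularFunctionFieldFullC L m} (hf : f ∈ (vm hq hA hL m).O)
    (hf' : bc L Qb m f ∈ (GQ hq hA hm h0 h2).O) :
    ((GQ hq hA hm h0 h2).ρ ⟨bc L Qb m f, hf'⟩ : LaurentSeries κ) = (vm hq hA hL m).red f := by
  rw [coe_GQ_ρ, vm_red hq hA hL hf]
  rfl

theorem redE'_injective :
    Function.Injective ((exhM hq hA hL m hm h1 h2).redE' ()) := by
  rw [injective_iff_map_eq_zero]
  intro e he
  obtain ⟨f, rfl⟩ := (preM hq hA hL m).ρ_surj e
  have h3 := (exhM hq hA hL m hm h1 h2).redE'_ρ () f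
  have h4 : (vm hq hA hL m).red (f : modularFunctionFieldFullC L m) = 0 := by
    have h5 := (exhM hq hA hL m hm h1 h2).coe_v'_red () (f : modularFunctionFieldFullC L m)
    rw [← h3] at h5
    refine h5.symm.trans ?_
    exact congrArg Subtype.val he
  have hfO : (f : modularFunctionFieldFullC L m) ∈ (vm hq hA hL m).O :=
    (preM hq hA hL m).mem_O.mp f.2 ()
  rw [(preM hq hA hL m).ρ_eq_zero_iff, (preM hq hA hL m).mem_O]
  intro i
  have hord := vm_ord_q hq hA hL m
  have : CharZero L := (algebraMap L Qb).charZero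
  have hq0 : algebraMap L (modularFunctionFieldFullC L m) (q : L) ≠ 0 := by
    rw [map_ne_zero_iff _ (algebraMap L _).injective]
    exact_mod_cast hq.ne_zero
  rcases (DV.mem_I _).mp ((DV.red_eq_zero_iff_mem_I _ hfO).mp h4) with h6 | h6
  · rw [h6, zero_div]
    exact zero_mem _
  · rcases eq_or_ne (f : modularFunctionFieldFullC L m) 0 with h7 | h7
    · rw [h7, zero_div]
      exact zero_mem _
    change (f : modularFunctionFieldFullC L m) / algebraMap L _ (q : L) ∈ (vm hq hA hL m).O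
    rw [(vm hq hA hL m).mem_iff _ (div_ne_zero h7 hq0), (vm hq hA hL m).ord_div h7 hq0, hord]
    omega

include hm h0 h1 h2 in
/-- **Lifting over `L = K₀`** with bounded poles. -/
theorem exists_lift_pole [IsAlgClosed κ]
    (hg : genusFF Qb (modularFunctionFieldFullC Qb m) ≤ genusFF κ (modularFunctionFieldFullC κ m))
    {x : modularFunctionFieldFullC L m} {xt : modularFunctionFieldFullC κ m}
    (hx : x ∈ (vm hq hA hL m).O) (hxr : (vm hq hA hL m).red x = xt) (htr : Transcendental κ xt)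
    (hdeg : finrank Qb⟮bc L Qb m x⟯ (modularFunctionFieldFullC Qb m) =
      finrank κ⟮xt⟯ (modularFunctionFieldFullC κ m))
    (hpos : 0 < finrank Qb⟮bc L Qb m x⟯ (modularFunctionFieldFullC Qb m)) :
    ∃ c₀ : ℕ, ∀ c : ℕ, c₀ ≤ c → ∀ g ∈ @Lp κ _ _ _ _ (isFF_κ hm h2) xt c,
      ∃ f ∈ (vm hq hA hL m).O, bc L Qb m f ∈ @Lp Qb _ _ _ _ (isFF_Qb hm h0) (bc L Qb m x) c ∧
        (vm hq hA hL m).red f = g := by
  have := isFF_Qb hm h0
  have := isFF_κ hm h2
  have hxt0 : xt ≠ 0 := by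
    rintro rfl
    exact htr isAlgebraic_zero
  have hx0 : x ≠ 0 := by
    rintro rfl
    apply hxt0
    apply Subtype.ext
    rw [← hxr, DV.red_zero]
    rfl
  have hbx0 : bc L Qb m x ≠ 0 := (map_ne_zero_iff _ (bc_injective L Qb m)).mpr hx0
  have hxG : bc L Qb m x ∈ (GQ hq hA hm h0 h2).O := (bc_mem_GQ_O hq hA hL hm h0 h2).mpr hx
  have hρx : (GQ hq hA hm h0 h2).ρ ⟨bc L Qb m x, hxG⟩ = xt :=
    Subtype.ext ((GQ_ρ_bc hq hA hL hm h0 h2 hx hxG).trans hxr)
  obtain ⟨c₀, hc₀⟩ := TwoGauss.exists_good (G := GQ hq hA hm h0 h2) hg hxG (by rw [hρx]; exact htr)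
    (by rw [hρx]; exact hdeg) hpos
  refine ⟨c₀, fun c hc g hgc => ?_⟩
  set V : Submodule Qb (modularFunctionFieldFullC Qb m) := Lp (K := Qb) (bc L Qb m x) c with hV
  -- the dimension over `L`
  obtain ⟨hfd, hdim⟩ := finrank_ratSub (L := L) (K := Qb) (Gam A) (mem_range_of_Gam hL) V (by
    intro σ hσ v hv
    refine exists_conj_mem_Lp σ hbx0 ?_ c hv
    ext n
    rw [coeffMap_coeff, coe_bc, coeffMap_coeff]
    obtain ⟨τ, hτ, rfl⟩ := hσ
    have h3 : algebraMap L Qb ((x : LaurentSeries L).coeff n) ∈ K0 A := (hL _).mp ⟨_, rfl⟩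
    exact mem_K0_iff.mp h3 τ hτ)
  set E := exhM hq hA hL m hm h1 h2 with hE
  set P := preM hq hA hL m with hP
  set W := (P.R.red (ratSub L V)).map (E.redE' ()).toLinearMap with hW
  have hWle : W ≤ (GQ hq hA hm h0 h2).redSpace V := by
    rintro _ ⟨_, ⟨f, hf, rfl⟩, rfl⟩
    have hfO : (f : modularFunctionFieldFullC L m) ∈ (vm hq hA hL m).O := P.mem_O.mp f.2 ()
    refine ⟨bc L Qb m f, hf, (bc_mem_GQ_O hq hA hL hm h0 h2).mpr hfO, ?_⟩
    apply Subtype.ext
    rw [GQ_ρ_bc hq hA hL hm h0 h2 hfO]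
    change _ = ((E.redE' () (P.R.ρ f) : modularFunctionFieldFullC κ m) : LaurentSeries κ)
    rw [E.redE'_ρ, E.coe_v'_red]
    rfl
  have hWdim : finrank κ W = finrank κ ((GQ hq hA hm h0 h2).redSpace V) := by
    rw [(GQ hq hA hm h0 h2).finrank_redSpace, ← hdim, ← RedRing.finrank_red E.ortho (ratSub L V)]
    exact (Submodule.equivMapOfInjective (E.redE' ()).toLinearMap
      (redE'_injective hq hA hL hm h1 h2) _).finrank_eq.symm
  have hWeq : W = (GQ hq hA hm h0 h2).redSpace V :=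
    Submodule.eq_of_le_of_finrank_eq hWle hWdim
  have hgW : g ∈ W := by
    rw [hWeq]
    obtain ⟨f, hf, hfV, hfg⟩ := hc₀ c hc g (by
      rw [hρx]
      exact mem_Lp.mp hgc)
    exact ⟨f, mem_Lp.mpr hfV, hf, hfg⟩
  obtain ⟨_, ⟨f, hf, rfl⟩, rfl⟩ := hgW
  refine ⟨f, P.mem_O.mp f.2 (), hf, ?_⟩
  change _ = ((E.redE' () (P.R.ρ f) : modularFunctionFieldFullC κ m) : LaurentSeries κ)
  rw [E.redE'_ρ, E.coe_v'_red]
  rfl

include hm h0 h1 h2 in
theorem exists_lift_int [IsAlgClosed κ]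
    (hg : genusFF Qb (modularFunctionFieldFullC Qb m) ≤ genusFF κ (modularFunctionFieldFullC κ m))
    {x : modularFunctionFieldFullC L m} {xt : modularFunctionFieldFullC κ m}
    (hx : x ∈ (vm hq hA hL m).O) (hxr : (vm hq hA hL m).red x = xt) (htr : Transcendental κ xt)
    (hdeg : finrank Qb⟮bc L Qb m x⟯ (modularFunctionFieldFullC Qb m) =
      finrank κ⟮xt⟯ (modularFunctionFieldFullC κ m))
    (hpos : 0 < finrank Qb⟮bc L Qb m x⟯ (modularFunctionFieldFullC Qb m))
    (g : modularFunctionFieldFullC κ m) (hgi : IsIntegral (Algebra.adjoin κ {xt}) g) :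
    ∃ f ∈ (vm hq hA hL m).O, IsIntegral (Algebra.adjoin L {x}) f ∧ (vm hq hA hL m).red f = g := by
  have := isFF_Qb hm h0
  have := isFF_κ hm h2
  have hxt0 : xt ≠ 0 := by
    rintro rfl
    exact htr isAlgebraic_zero
  obtain ⟨c₀, hc₀⟩ := exists_lift_pole hq hA hL hm h0 h1 h2 hg hx hxr htr hdeg hpos
  obtain ⟨n, hn⟩ := exists_mem_Lp hxt0 (show g ∈ integralClosure (Algebra.adjoin κ {xt}) _ from hgi)
  obtain ⟨f, hf, hfV, hfg⟩ := hc₀ (max c₀ n) (le_max_left _ _) g
    (Lp_mono (by exact_mod_cast le_max_right c₀ n) hn)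
  exact ⟨f, hf, isIntegral_descent (mem_of_mem_Lp hfV), hfg⟩

include hm h0 h1 h2 in
/-- **Lifting over `K₀[j]`.** -/
theorem exists_lift_j [IsAlgClosed κ]
    (hg : genusFF Qb (modularFunctionFieldFullC Qb m) ≤ genusFF κ (modularFunctionFieldFullC κ m))
    (g : modularFunctionFieldFullC κ m)
    (hgi : IsIntegral (Algebra.adjoin κ
      {(⟨jqModC κ, jqModC_mem_full κ m⟩ : modularFunctionFieldFullC κ m)}) g) :
    ∃ f ∈ (vm hq hA hL m).O, IsIntegral (Algebra.adjoin L
      {(⟨jqModC L, jqModC_mem_full L m⟩ : modularFunctionFieldFullC L m)}) f ∧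
      (vm hq hA hL m).red f = g := by
  have hb : bc L Qb m ⟨jqModC L, jqModC_mem_full L m⟩ = ⟨jqModC Qb, jqModC_mem_full Qb m⟩ :=
    Subtype.ext (coeffMap_jqModC _)
  have E := exhM hq hA hL m hm h1 h2
  refine exists_lift_int hq hA hL hm h0 h1 h2 hg ?_
    ((vm_jd hq hA hL (d := 1) (qExpand_one_apply _).symm).2.trans (qExpand_one_apply _))
    (tr_jm κ m) ?_ ?_ g hgi
  · exact (exhM hq hA hL m hm h1 h2).x_mem |> (preM hq hA hL m).mem_O.mp |> fun h => h ()
  · rw [hb, h0, h2]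
  · rw [hb, h0]
    exact S18aux.dedekindPsi_pos hm

include hm h0 h1 h2 in
/-- **Lifting over `K₀[1/j]`.** -/
theorem exists_lift_j_inv [IsAlgClosed κ]
    (hg : genusFF Qb (modularFunctionFieldFullC Qb m) ≤ genusFF κ (modularFunctionFieldFullC κ m))
    (g : modularFunctionFieldFullC κ m)
    (hgi : IsIntegral (Algebra.adjoin κ
      {(⟨jqModC κ, jqModC_mem_full κ m⟩ : modularFunctionFieldFullC κ m)⁻¹}) g) :
    ∃ f ∈ (vm hq hA hL m).O, IsIntegral (Algebra.adjoin L
      {(⟨jqModC L, jqModC_mem_full L m⟩ : modularFunctionFieldFullC L m)⁻¹}) f ∧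
      (vm hq hA hL m).red f = g := by
  have hb : bc L Qb m ⟨jqModC L, jqModC_mem_full L m⟩ = ⟨jqModC Qb, jqModC_mem_full Qb m⟩ :=
    Subtype.ext (coeffMap_jqModC _)
  have hx0 : (⟨jqModC L, jqModC_mem_full L m⟩ : modularFunctionFieldFullC L m) ≠ 0 :=
    (exhM hq hA hL m hm h1 h2).x_ne_zero
  have hord := (vm_jd hq hA hL (d := 1) (x := (⟨jqModC L, jqModC_mem_full L m⟩ :
    modularFunctionFieldFullC L m)) (qExpand_one_apply _).symm)
  refine exists_lift_int hq hA hL hm h0 h1 h2 hg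
    ((vm hq hA hL m).inv_mem_of_ord_eq_zero hx0 hord.1) ?_ ?_ ?_ ?_ g hgi
  · rw [(vm hq hA hL m).red_inv hx0 hord.1, hord.2, qExpand_one_apply]
    rfl
  · exact FF.transcendental_inv (tr_jm κ m)
  · rw [map_inv₀, hb, TwoComp.finrank_adjoin_inv, TwoComp.finrank_adjoin_inv, h0, h2]
  · rw [map_inv₀, hb, TwoComp.finrank_adjoin_inv, h0]
    exact S18aux.dedekindPsi_pos hm

end Lift

end Fermat.Agent.TriGlue
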