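import Fermat.Agent.TriVal.Pre
import Fermat.Agent.TriDim.Numerics

/-!
# The instances of `TriComp.Pre`, `TriComp.Exh` and `TriComp.Data`
-/

set_option autoImplicit false
set_option linter.unusedSectionVars false

noncomputable section

open ModularCurve HahnSeries Module Polynomial
open scoped IntermediateField

namespace Fermat.Agent.TriVal

open Fermat.Agent.GaussVal Fermat.Agent.S36norm Fermat.Agent.LocE Fermat.Agent.TriGlue
open Fermat.Agent.TwoGauss (Dv iotaBar)
open Fermat.Agent.TriGauss Fermat.Agent.TriComp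

local notation "κ" A => IsLocalRing.ResidueField A

section Level

variable {A : ValuationSubring Qb} {L : Type*} [Field L] [CharZero L] [Algebra L Qb] {q m : ℕ}
  [NeZero (m * q * q)] [NeZero q] (hq : q.Prime) (hm : ¬ q ∣ m) (hA : A.LiesOverPrime q)
  (hL : IsK0 A L)

/-! ### Expansions of the units -/

theorem expanL : TriMod.Expan q (zt q) (i0 L Qb (m * q * q)) (I1 hq hm L) (I2 hq hm L)
    (δF L q m) (u₁ L q m) (u₂ L q m) :=
  expan hq hm (eQ_jd hq hm) (eQ_u₁ hq hm) (eQ_u₂ hq hm) (wQ_u₁ hq hm) (wQ_u₂ hq hm)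

theorem ord_δF : (vv hq hm hA hL 1).ord (δF L q m) = 1 := by
  have : Fact q.Prime := ⟨hq⟩
  have : CharP (κ A) q := FrobDensity.charP_residue hq hA
  exact TriMod.ord1_δ (expanL hq hm) hA (isUnif_K1 hq hA (zt_spec' hq)) (I1_mem hq hm hL)
    (zt_spec' hq)

include hq hm in
theorem δF_ne_zero : δF L q m ≠ 0 := by
  intro h
  have h1 := (expanL (L := L) hq hm).e₁_δ
  rw [h, map_zero] at h1
  have h2 := congrArg (fun x : LaurentSeries Qb => x.coeff (-1)) h1
  simp only [HahnSeries.coeff_sub, X0Emb.twist_coeff, coeff_jqModC_neg_one, HahnSeries.coeff_zero,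
    mul_one, zpow_neg, zpow_one] at h2
  have h3 := (zt_spec' hq).ne_one hq.one_lt
  apply h3
  have h4 : (((zt q)⁻¹ : Qbˣ) : Qb) = 1 := (sub_eq_zero.mp h2.symm)
  have h5 : (zt q)⁻¹ = 1 := Units.ext h4
  rw [inv_eq_one] at h5
  rw [h5, Units.val_one]

theorem q_ne_zero' (N : ℕ) : ((q : ℕ) : modularFunctionFieldFullC L N) ≠ 0 := by
  rw [q_eq]
  exact (map_ne_zero_iff _ (algebraMap L _).injective).mpr (NeZero.natCast_ne q L)

theorem exists_unif (i : Fin 3) : ∃ π : modularFunctionFieldFullC L (m * q * q), π ≠ 0 ∧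
    (vv hq hm hA hL i).ord π = 1 := by
  fin_cases i
  · exact ⟨_, q_ne_zero' _, ord_q0 hq hm hA hL⟩
  · exact ⟨_, δF_ne_zero hq hm, ord_δF hq hm hA hL⟩
  · exact ⟨_, q_ne_zero' _, ord_q2 hq hm hA hL⟩

/-! ### The valuations are distinct -/

/-- residues and valuation rings -/
theorem red_eq_zero_of_O_eq {F κ₁ κ₂ : Type*} [Field F] [Field κ₁] [Field κ₂] (v : DV F κ₁)
    (w : DV F κ₂) (h : v.O = w.O) {x : F} (hx : x ∈ v.O) (h0 : v.red x = 0) : w.red x = 0 := by
  have hx' : x ∈ w.O := h ▸ hx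
  rw [v.red_of_mem hx, v.ρ_eq_zero_iff] at h0
  rw [w.red_of_mem hx', w.ρ_eq_zero_iff]
  change x ∈ w.O.nonunits
  rw [← h]
  exact h0

theorem jt_sub_ne_zero (k : Type*) [Field k] (hq : 1 < q) :
    jqModC k ^ q ^ 2 - jqModC k ≠ 0 := by
  intro h
  have h1 := (transcendental_iff.mp (transcendental_jqModC k))
    (Polynomial.X ^ q ^ 2 - Polynomial.X) (by simpa using h)
  have h2 := congrArg (fun P : Polynomial k => P.coeff 1) h1
  simp only [Polynomial.coeff_sub, Polynomial.coeff_X_one, Polynomial.coeff_X_pow,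
    Polynomial.coeff_zero] at h2
  rw [if_neg (Nat.one_lt_pow (by norm_num) hq).ne, zero_sub] at h2
  exact one_ne_zero (neg_eq_zero.mp h2)

theorem jt_sub_ne_zero' (k : Type*) [Field k] (hq : 1 < q) :
    (jqModC k ^ q ^ 2) ^ q ^ 2 - jqModC k ≠ 0 := by
  rw [← pow_mul, ← _root_.pow_add]
  intro h
  have h1 := (transcendental_iff.mp (transcendental_jqModC k))
    (Polynomial.X ^ q ^ (2 + 2) - Polynomial.X) (by simpa using h)
  have h2 := congrArg (fun P : Polynomial k => P.coeff 1) h1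
  simp only [Polynomial.coeff_sub, Polynomial.coeff_X_one, Polynomial.coeff_X_pow,
    Polynomial.coeff_zero] at h2
  rw [if_neg (Nat.one_lt_pow (by norm_num) hq).ne, zero_sub] at h2
  exact one_ne_zero (neg_eq_zero.mp h2)

/-- `j_{q²} - j^{q²}` -/
def fr1 (L : Type*) [Field L] (q m : ℕ) [NeZero (m * q * q)] :
    modularFunctionFieldFullC L (m * q * q) := jF L (m * q * q) ^ q ^ 2 - jq2 L q m

/-- `j - j_{q²}^{q²}` -/
def fr2 (L : Type*) [Field L] (q m : ℕ) [NeZero (m * q * q)] :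
    modularFunctionFieldFullC L (m * q * q) := jq2 L q m ^ q ^ 2 - jF L (m * q * q)

theorem fr1_data (i : Fin 3) : fr1 L q m ∈ (vv hq hm hA hL i).O ∧
    (vv hq hm hA hL i).red (fr1 L q m) = (vv hq hm hA hL i).red (jF L (m * q * q)) ^ q ^ 2 -
      (vv hq hm hA hL i).red (jq2 L q m) := by
  have h1 := (jF_data hq hm hA hL i).2.1
  have h2 := (jq2_data hq hm hA hL i).2.1
  have h3 := pow_mem h1 (q ^ 2)
  refine ⟨sub_mem h3 h2, ?_⟩
  rw [fr1, DV.red_sub _ h3 h2, DV.red_pow _ h1]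

theorem fr2_data (i : Fin 3) : fr2 L q m ∈ (vv hq hm hA hL i).O ∧
    (vv hq hm hA hL i).red (fr2 L q m) = (vv hq hm hA hL i).red (jq2 L q m) ^ q ^ 2 -
      (vv hq hm hA hL i).red (jF L (m * q * q)) := by
  have h1 := (jF_data hq hm hA hL i).2.1
  have h2 := (jq2_data hq hm hA hL i).2.1
  have h3 := pow_mem h2 (q ^ 2)
  refine ⟨sub_mem h3 h1, ?_⟩
  rw [fr2, DV.red_sub _ h3 h1, DV.red_pow _ h2]

theorem vv_O_ne (i j : Fin 3) (hij : i ≠ j) :
    (vv hq hm hA hL i).O ≠ (vv hq hm hA hL j).O := by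
  have key : ∀ i j : Fin 3, i < j → (vv hq hm hA hL i).O ≠ (vv hq hm hA hL j).O := by
    intro i j hij h
    by_cases hi : i = 0
    · subst hi
      have h1 := (fr1_data hq hm hA hL 0).2
      rw [(jF_data hq hm hA hL 0).2.2, (jq2_data hq hm hA hL 0).2.2] at h1
      simp only [Fin.isValue, Fin.reduceEq, if_false, if_true, sub_self] at h1
      have h2 := red_eq_zero_of_O_eq _ _ h (fr1_data hq hm hA hL 0).1 h1
      rw [(fr1_data hq hm hA hL j).2, (jF_data hq hm hA hL j).2.2,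
        (jq2_data hq hm hA hL j).2.2, if_neg hij.ne'] at h2
      by_cases hj : j = 2
      · rw [if_pos hj] at h2
        exact jt_sub_ne_zero' _ hq.one_lt h2
      · rw [if_neg hj] at h2
        exact jt_sub_ne_zero _ hq.one_lt h2
    · have hi' : i = 1 := by omega
      have hj' : j = 2 := by omega
      subst hi'; subst hj'
      have h1 := (fr2_data hq hm hA hL 2).2
      rw [(jF_data hq hm hA hL 2).2.2, (jq2_data hq hm hA hL 2).2.2] at h1
      simp only [Fin.isValue, Fin.reduceEq, if_false, if_true, sub_self] at h1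
      have h2 := red_eq_zero_of_O_eq _ _ h.symm (fr2_data hq hm hA hL 2).1 h1
      rw [(fr2_data hq hm hA hL 1).2, (jF_data hq hm hA hL 1).2.2,
        (jq2_data hq hm hA hL 1).2.2] at h2
      simp only [Fin.isValue, Fin.reduceEq, if_false] at h2
      exact jt_sub_ne_zero _ hq.one_lt h2
  rcases lt_or_gt_of_ne hij with h | h
  · exact key i j h
  · exact fun h' => key j i h h'.symm

/-- **The instance of `Pre`.** -/
def pre : Pre L (modularFunctionFieldFullC L (m * q * q)) (κ A) (LaurentSeries (κ A)) (Fin 3) where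
  A := A0 A L
  res := res0 A L
  res_surj := res0_surj hq hA hL
  res_eq_zero_iff := res0_eq_zero_iff
  ϖ := (q : L)
  ϖ_ne_zero := NeZero.natCast_ne q L
  mem_nonunits_iff := mem_nonunits_iff hq hA hL
  v := vv hq hm hA hL
  mem_vO i _ ha := mem_vv_algebraMap hq hm hA hL i ha
  red_algebraMap i a := vv_red_algebraMap hq hm hA hL i a
  exists_unif := exists_unif hq hm hA hL
  ne := vv_O_ne hq hm hA hL

theorem pre_e (i : Fin 3) : (pre hq hm hA hL).e i = if i = 1 then q - 1 else 1 := by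
  have h : ((pre hq hm hA hL).e i : ℤ) = ((if i = 1 then q - 1 else 1 : ℕ) : ℤ) := by
    rw [Pre.coe_e]
    change (vv hq hm hA hL i).ord (algebraMap L _ (q : L)) = _
    rw [map_natCast]
    fin_cases i
    · exact ord_q0 hq hm hA hL
    · refine (ord_q1 hq hm hA hL).trans ?_
      change (q : ℤ) - 1 = ((q - 1 : ℕ) : ℤ)
      rw [Nat.cast_sub hq.one_lt.le, Nat.cast_one]
    · exact ord_q2 hq hm hA hL
  exact_mod_cast h

/-! ### Exhaustion -/

/-- `j̃` at level `m` -/
abbrev jtm (k : Type*) [Field k] (m : ℕ) : modularFunctionFieldFullC k m :=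
  ⟨jqModC k, jqModC_mem_full k m⟩

/-- the reductions of `j` -/
def tt (k : Type*) [Field k] (q m : ℕ) (i : Fin 3) : modularFunctionFieldFullC k m :=
  if i = 2 then jtm k m ^ q ^ 2 else jtm k m

theorem coe_tt (k : Type*) [Field k] (q m : ℕ) (i : Fin 3) :
    (tt k q m i : LaurentSeries k) = if i = 2 then jqModC k ^ q ^ 2 else jqModC k := by
  rw [tt]; split_ifs <;> rfl

/-- the residue degrees -/
def mm (q m : ℕ) (i : Fin 3) : ℕ := if i = 2 then q ^ 2 * dedekindPsi m else dedekindPsi m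

theorem tr_tt (k : Type*) [Field k] (m : ℕ) (hq : 1 < q) (i : Fin 3) :
    Transcendental k (tt k q m i) := by
  rw [tt]
  split_ifs
  · exact (tr_jm k m).pow (by positivity)
  · exact tr_jm k m

theorem exists_yy (k : Type*) [Field k] (m : ℕ) [NeZero m] (hk : (m : k) ≠ 0) (hq : 1 < q)
    (i : Fin 3) : ∃ y : Fin (mm q m i) → modularFunctionFieldFullC k m,
      IndepPoly (k := k) (tt k q m i) y := by
  obtain ⟨y, hy⟩ := exists_indepM k m (Igusa.finrank_full k m hk)
  by_cases hi : i = 2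
  · obtain ⟨y', hy', _⟩ := hy.pow (n := q ^ 2) (by positivity)
    have h1 : mm q m i = q ^ 2 * dedekindPsi m := if_pos hi
    have h2 : tt k q m i = jtm k m ^ q ^ 2 := if_pos hi
    rw [h1, h2]
    exact ⟨y', hy'⟩
  · have h1 : mm q m i = dedekindPsi m := if_neg hi
    have h2 : tt k q m i = jtm k m := if_neg hi
    rw [h1, h2]
    exact ⟨y, hy⟩

theorem jF_eq_jtm (N : ℕ) : jF L N = jtm L N := Subtype.ext (qExpand_one_apply _)

theorem finrank_jF (N : ℕ) [NeZero N] :
    finrank L⟮jF L N⟯ (modularFunctionFieldFullC L N) = dedekindPsi N := by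
  rw [jF_eq_jtm]
  exact Igusa.finrank_full L N (NeZero.natCast_ne N L)

include hq hm hA in
theorem natCast_m_ne_zero : (m : κ A) ≠ 0 := S18aux.natCast_ne_zero hq hA hm

/-- **The instance of `Exh`.** -/
def exh [NeZero m] : Exh (pre hq hm hA hL) (modularFunctionFieldFullC (κ A) m) where
  x := jF L (m * q * q)
  x_ne_zero := jF_ne_zero L q m
  ord_x i := (jF_data hq hm hA hL i).1
  t := tt (κ A) q m
  red_x i := (jF_data hq hm hA hL i).2.2.trans (coe_tt _ _ _ i).symm
  tr := tr_tt (κ A) m hq.one_lt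
  surj i z := vv_surj hq hm hA hL i z
  m := mm q m
  y i := (exists_yy (κ A) m (natCast_m_ne_zero hq hm hA) hq.one_lt i).choose
  ind i := (exists_yy (κ A) m (natCast_m_ne_zero hq hm hA) hq.one_lt i).choose_spec
  finrank_pos := by
    rw [finrank_jF]
    exact S18aux.dedekindPsi_pos (NeZero.ne _)
  finrank_le := by
    rw [finrank_jF, TriDim.dedekindPsi_mul_sq hq hm, Fin.sum_univ_three]
    simp only [pre_e, mm, Fin.isValue, Fin.reduceEq, if_false, if_true]
    have h1 : q * (q + 1) * dedekindPsi m = 1 * dedekindPsi m + (q - 1) * dedekindPsi m +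
        1 * (q ^ 2 * dedekindPsi m) := by
      obtain ⟨r, hr⟩ : ∃ r, q = r + 1 := ⟨q - 1, (Nat.sub_add_cancel hq.one_lt.le).symm⟩
      rw [hr, Nat.add_sub_cancel]
      ring
    exact h1.le

include hq hA in
/-- the polynomial `ũ = Δ^{1-q}` in `j` -/
theorem exists_PuC : ∃ Pu : (κ A)[X], Pu.natDegree = q - 1 ∧ Pu ≠ 0 ∧
    aeval (jqModC (κ A)) Pu = S28aux.deltaInvC (κ A) ^ (q - 1) := by
  have : Fact q.Prime := ⟨hq⟩
  have : CharP (κ A) q := FrobDensity.charP_residue hq hA
  exact TriMod.exists_Pu q (κ A)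

/-- the polynomial `ũ = Δ^{1-q}` in `j` -/
def PuC : (κ A)[X] := (exists_PuC hq hA).choose

theorem PuC_spec : (PuC hq hA).natDegree = q - 1 ∧ PuC hq hA ≠ 0 ∧
    aeval (jqModC (κ A)) (PuC hq hA) = S28aux.deltaInvC (κ A) ^ (q - 1) :=
  (exists_PuC hq hA).choose_spec

theorem coe_aeval_jtm (k : Type*) [Field k] (m : ℕ) (P : k[X]) :
    ((aeval (jtm k m) P : modularFunctionFieldFullC k m) : LaurentSeries k) =
      aeval (jqModC k) P := Igusa.coe_aeval_intermediate _ _ _

end Level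

end Fermat.Agent.TriVal
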