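import Fermat.Agent.TriVal.V

/-!
# Reductions of the `j_d`, image of the reductions, and the instance of `TriComp.Pre`
-/

set_option autoImplicit false
set_option linter.unusedSectionVars false

noncomputable section

open ModularCurve HahnSeries Module

namespace Fermat.Agent.TriVal

open Fermat.Agent.GaussVal Fermat.Agent.S36norm Fermat.Agent.LocE Fermat.Agent.TriGlue
open Fermat.Agent.TwoGauss (Dv iotaBar)
open Fermat.Agent.TriGauss Fermat.Agent.TriComp

local notation "κ" A => IsLocalRing.ResidueField A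

section Surj

variable {F k : Type*} [Field F] [Field k] (v : DV F (LaurentSeries k)) {m : ℕ}

/-- the image of a reduction contains the function field if it contains the constants and the
`j_d`. -/
theorem surj_of_gens
    (hc : ∀ c : k, ∃ f ∈ v.O, v.red f = algebraMap k (LaurentSeries k) c)
    (hj : ∀ (d : ℕ) (_ : NeZero d) (_ : d ∣ m), ∃ f ∈ v.O, v.red f = qExpand k d (jqModC k))
    (z : modularFunctionFieldFullC k m) : ∃ f ∈ v.O, v.red f = z := by
  obtain ⟨z, hz⟩ := z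
  change ∃ f ∈ v.O, v.red f = z
  rw [modularFunctionFieldFullC] at hz
  induction hz using IntermediateField.adjoin_induction with
  | mem y hy =>
    obtain ⟨d, hne, hd, rfl⟩ := hy
    exact hj d hne hd
  | algebraMap c => exact hc c
  | add y z _ _ hy hz =>
    obtain ⟨f, hf, rfl⟩ := hy
    obtain ⟨g, hg, rfl⟩ := hz
    exact ⟨f + g, add_mem hf hg, v.red_add hf hg⟩
  | mul y z _ _ hy hz =>
    obtain ⟨f, hf, rfl⟩ := hy
    obtain ⟨g, hg, rfl⟩ := hz
    exact ⟨f * g, mul_mem hf hg, v.red_mul hf hg⟩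
  | inv y _ hy =>
    obtain ⟨f, hf, rfl⟩ := hy
    rcases eq_or_ne (v.red f) 0 with h0 | h0
    · exact ⟨0, zero_mem _, by rw [h0, inv_zero, DV.red_zero]⟩
    · have hf0 : f ≠ 0 := by
        rintro rfl
        exact h0 (DV.red_zero _)
      have h1 := (v.red_ne_zero_iff hf0 hf).mp h0
      exact ⟨f⁻¹, v.inv_mem_of_ord_eq_zero hf0 h1, v.red_inv hf0 h1⟩

end Surj

section Arith

variable {q m : ℕ}

/-- a divisor of `m`, times `q²` -/
theorem qq_mul_dvd {d : ℕ} (hd : d ∣ m) : d * (q * q) ∣ m * q * q := by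
  rw [mul_assoc m q q]; exact mul_dvd_mul_right hd _

theorem dvd_of_dvd_m {d : ℕ} (hd : d ∣ m) : d ∣ m * q * q :=
  (hd.trans (dvd_mul_right m q)).trans (dvd_mul_right _ q)

end Arith

section Level

variable {A : ValuationSubring Qb} {L : Type*} [Field L] [Algebra L Qb] {q m : ℕ}
  [NeZero (m * q * q)] [NeZero q] (hq : q.Prime) (hm : ¬ q ∣ m) (hA : A.LiesOverPrime q)
  (hL : IsK0 A L)

/-- all three reductions of an element with integral expansions `j(t^d)` -/
theorem v0_jd {x : modularFunctionFieldFullC L (m * q * q)} {d : ℕ} [NeZero d]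
    (hx : i0 L Qb (m * q * q) x = qExpand Qb d (jqModC Qb)) :
    (v0 hq hA hL).ord x = 0 ∧ x ∈ (v0 hq hA hL).O ∧
      (v0 hq hA hL).red x = qExpand (κ A) d (jqModC (κ A)) := by
  have h1 : i0 L Qb (m * q * q) x = incl A (qExpand A d (jqModC A)) := by rw [hx, incl_jd]
  refine ⟨gdv_ord_of_incl h1 ?_, mem_gdv_of_incl h1, (gdv_red_of_incl h1).trans (redS_jd d)⟩
  rw [redS_jd]
  exact qExpand_jq_ne_zero _ _

theorem v1_jd {x : modularFunctionFieldFullC L (m * q * q)} {d : ℕ} [NeZero d]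
    (hx : I1 hq hm L x = qExpand Qb d (jqModC Qb)) :
    (v1 hq hm hA hL).ord x = 0 ∧ x ∈ (v1 hq hm hA hL).O ∧
      (v1 hq hm hA hL).red x = qExpand (κ A) d (jqModC (κ A)) := by
  have h1 : I1 hq hm L x = incl A (qExpand A d (jqModC A)) := by rw [hx, incl_jd]
  refine ⟨gdv_ord_of_incl h1 ?_, mem_gdv_of_incl h1, (gdv_red_of_incl h1).trans (redS_jd d)⟩
  rw [redS_jd]
  exact qExpand_jq_ne_zero _ _

theorem v2_jd {x : modularFunctionFieldFullC L (m * q * q)} {d : ℕ} [NeZero d]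
    (hx : I2 hq hm L x = qExpand Qb d (jqModC Qb)) :
    (v2 hq hm hA hL).ord x = 0 ∧ x ∈ (v2 hq hm hA hL).O ∧
      (v2 hq hm hA hL).red x = qExpand (κ A) d (jqModC (κ A)) := by
  have h1 : I2 hq hm L x = incl A (qExpand A d (jqModC A)) := by rw [hx, incl_jd]
  refine ⟨gdv_ord_of_incl h1 ?_, mem_gdv_of_incl h1, (gdv_red_of_incl h1).trans (redS_jd d)⟩
  rw [redS_jd]
  exact qExpand_jq_ne_zero _ _

/-- twisted expansions -/
theorem v1_twist {x : modularFunctionFieldFullC L (m * q * q)} {d : ℕ} [NeZero d]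
    (hx : I1 hq hm L x = X0Emb.twist (zt q) (qExpand Qb d (jqModC Qb))) :
    (v1 hq hm hA hL).ord x = 0 ∧ x ∈ (v1 hq hm hA hL).O ∧
      (v1 hq hm hA hL).red x = qExpand (κ A) d (jqModC (κ A)) := by
  have : Fact q.Prime := ⟨hq⟩
  have : CharP (IsLocalRing.ResidueField A) q := FrobDensity.charP_residue hq hA
  obtain ⟨z, hz1, hz2⟩ := TriMod.exists_zU (A := A) (zt_spec hq).pow_eq_one
  have h1 : I1 hq hm L x = incl A (X0Emb.twist z (qExpand A d (jqModC A))) := by
    rw [hx, TriMod.incl_twist, hz1, incl_jd]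
  have h2 : redS A (X0Emb.twist z (qExpand A d (jqModC A))) = qExpand (κ A) d (jqModC (κ A)) := by
    rw [TriMod.redS_twist hz2, redS_jd]
  refine ⟨gdv_ord_of_incl h1 ?_, mem_gdv_of_incl h1, (gdv_red_of_incl h1).trans h2⟩
  rw [h2]
  exact qExpand_jq_ne_zero _ _

/-! ### `j` and `j_{q²}` -/

theorem sw_one : sw hq hm (⟨1, one_dvd _⟩ : Dv (m * q * q)) = ⟨q * q, dvd_qq⟩ := by
  have h1 : (⟨1, one_dvd _⟩ : Dv (m * q * q)) = ⟨1 * 1, by rw [mul_one]; exact one_dvd _⟩ :=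
    Subtype.ext (mul_one 1).symm
  rw [h1, sw_mul hq hm (one_dvd m) (b := 1) (b' := q * q) (by rw [mul_one]) _
    (by rw [one_mul]; exact dvd_qq)]
  exact Subtype.ext (one_mul _)

theorem sw_qq : sw hq hm (⟨q * q, dvd_qq⟩ : Dv (m * q * q)) = ⟨1, one_dvd _⟩ := by
  rw [← sw_one hq hm, sw_sw]

theorem sw_qq_mul {d : ℕ} (hd : d ∣ m) :
    sw hq hm (⟨d * (q * q), qq_mul_dvd hd⟩ : Dv (m * q * q)) = ⟨d, dvd_of_dvd_m hd⟩ := by
  rw [sw_mul hq hm hd (b := q * q) (b' := 1) (by rw [one_mul]) _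
    (by rw [mul_one]; exact dvd_of_dvd_m hd)]
  exact Subtype.ext (mul_one _)

include hq hm in
theorem S1_dvd {d : ℕ} [NeZero d] (hd : d ∣ m) :
    S1 (zt q) (⟨d, dvd_of_dvd_m hd⟩ : Dv (m * q * q)) = qExpand Qb d (jqModC Qb) :=
  S1_of_dvd_mq hq hm _ _ (hd.trans (dvd_mul_right m q))

include hq hm in
theorem S1_one : S1 (zt q) (⟨1, one_dvd _⟩ : Dv (m * q * q)) = qExpand Qb 1 (jqModC Qb) :=
  S1_dvd hq hm (one_dvd m)

include hq in
theorem S1_qq : S1 (zt q) (⟨q * q, dvd_qq⟩ : Dv (m * q * q)) =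
    X0Emb.twist (zt q) (qExpand Qb 1 (jqModC Qb)) := by
  have h1 : (⟨q * q, dvd_qq⟩ : Dv (m * q * q)) = ⟨q * q * 1, by rw [mul_one]; exact dvd_qq⟩ :=
    Subtype.ext (mul_one _).symm
  rw [h1]
  exact S1_sq_mul hq _ 1 _

theorem qExpand_congr {R : Type*} [CommRing R] {a b : ℕ} [NeZero a] [NeZero b] (h : a = b) :
    qExpand R a = qExpand R b := by
  subst h; rfl

theorem qExpand_sq_jq (k : Type*) [Field k] (q : ℕ) [Fact q.Prime] [NeZero q] [NeZero (q * q)]
    [CharP k q] [PerfectRing k q] :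
    qExpand k (q * q) (jqModC k) = jqModC k ^ q ^ 2 := by
  have h1 : qExpand k q (jqModC k) = jqModC k ^ q := by
    have h := TwoGauss.qExpand_jd_eq_pow k q 1
    rw [TwoGauss.jd, qExpand_one_apply] at h
    exact h
  have h2 : qExpand k (q * q) (jqModC k) = qExpand k q (qExpand k q (jqModC k)) :=
    (qExpand_qExpand _ _ _).symm
  rw [h2, h1, map_pow, h1, ← pow_mul, sq]

theorem I2_of_sw {d e : ℕ} [NeZero d] [NeZero e] (hd : d ∣ m * q * q) (he : e ∣ m * q * q)
    (h : sw hq hm ⟨d, hd⟩ = ⟨e, he⟩) :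
    I2 hq hm L (jd L _ d hd) = qExpand Qb e (jqModC Qb) := by
  rw [I2_jd hq hm ⟨d, hd⟩]
  rw [qExpand_congr (R := Qb) (congrArg Subtype.val h)]

/-- `j` -/
theorem jF_data (i : Fin 3) : (vv hq hm hA hL i).ord (jF L (m * q * q)) = 0 ∧
    jF L (m * q * q) ∈ (vv hq hm hA hL i).O ∧
    (vv hq hm hA hL i).red (jF L (m * q * q)) =
      if i = 2 then jqModC (κ A) ^ q ^ 2 else jqModC (κ A) := by
  have : Fact q.Prime := ⟨hq⟩
  have : CharP (IsLocalRing.ResidueField A) q := FrobDensity.charP_residue hq hA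
  fin_cases i
  · have h := v0_jd hq hA hL (x := jF L (m * q * q)) (d := 1) (i0_jd 1 _)
    rw [qExpand_one_apply] at h
    exact h
  · have h := v1_jd hq hm hA hL (x := jF L (m * q * q)) (d := 1)
      ((I1_jd hq hm ⟨1, one_dvd _⟩).trans (S1_one hq hm))
    rw [qExpand_one_apply] at h
    exact h
  · have h := v2_jd hq hm hA hL (x := jF L (m * q * q)) (d := q * q)
      (I2_of_sw hq hm _ dvd_qq (sw_one hq hm))
    rw [qExpand_sq_jq] at h
    exact h

/-- `j_{q²}` -/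
theorem jq2_data (i : Fin 3) : (vv hq hm hA hL i).ord (jq2 L q m) = 0 ∧
    jq2 L q m ∈ (vv hq hm hA hL i).O ∧
    (vv hq hm hA hL i).red (jq2 L q m) =
      if i = 0 then jqModC (κ A) ^ q ^ 2 else jqModC (κ A) := by
  have : Fact q.Prime := ⟨hq⟩
  have : CharP (IsLocalRing.ResidueField A) q := FrobDensity.charP_residue hq hA
  fin_cases i
  · have h := v0_jd hq hA hL (x := jq2 L q m) (d := q * q) (i0_jd _ dvd_qq)
    rw [qExpand_sq_jq] at h
    exact h
  · have h := v1_twist hq hm hA hL (x := jq2 L q m) (d := 1)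
      ((I1_jd hq hm ⟨q * q, dvd_qq⟩).trans (S1_qq hq))
    rw [qExpand_one_apply] at h
    exact h
  · have h := v2_jd hq hm hA hL (x := jq2 L q m) (d := 1)
      (I2_of_sw hq hm _ (one_dvd _) (sw_qq hq hm))
    rw [qExpand_one_apply] at h
    exact h

/-! ### Image of the reductions -/

theorem vv_surj (i : Fin 3) (z : modularFunctionFieldFullC (κ A) m) :
    ∃ f ∈ (vv hq hm hA hL i).O, (vv hq hm hA hL i).red f = z := by
  apply surj_of_gens
  · intro c
    obtain ⟨a, rfl⟩ := res0_surj hq hA hL c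
    exact ⟨_, mem_vv_algebraMap hq hm hA hL i a.2, vv_red_algebraMap hq hm hA hL i a⟩
  · intro d hne hd
    fin_cases i
    · have h := v0_jd hq hA hL (x := jd L (m * q * q) d (dvd_of_dvd_m hd)) (d := d) (i0_jd _ _)
      exact ⟨_, h.2.1, h.2.2⟩
    · have h := v1_jd hq hm hA hL (x := jd L (m * q * q) d (dvd_of_dvd_m hd)) (d := d)
        ((I1_jd hq hm ⟨d, dvd_of_dvd_m hd⟩).trans (S1_dvd hq hm hd))
      exact ⟨_, h.2.1, h.2.2⟩
    · have : NeZero (d * (q * q)) := ⟨mul_ne_zero hne.ne (qq_ne_zero hq)⟩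
      have h := v2_jd hq hm hA hL (x := jd L (m * q * q) (d * (q * q)) (qq_mul_dvd hd)) (d := d)
        (I2_of_sw hq hm _ (dvd_of_dvd_m hd) (sw_qq_mul hq hm hd))
      exact ⟨_, h.2.1, h.2.2⟩

end Level

end Fermat.Agent.TriVal
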